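import Fermat.Agent.CFT.TWPrimes.Cocycle
import Fermat.Agent.CFT.Euler.SplitCompare
import Fermat.Agent.CFT.Euler.Values
import Fermat.Agent.CFT.Coh.Level
import Fermat.Agent.CFT.Euler.Pair

/-!
# The adjoint representation on trace zero matrices as a module for a finite group

Its invariants, the trace pairing with a functional of the residue field, the functionals fixed by
an involution of determinant `-1`, and its presentation by a free lattice.
-/

set_option autoImplicit false
set_option linter.unusedSectionVars false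
set_option linter.unusedSimpArgs false
set_option linter.style.haveILetI false

noncomputable section

namespace Fermat.Agent.CFT.Selmer

open Matrix Fermat.Agent.CFT

variable {k : Type} [Field k] {G : Type} [Group G]

local notation "M₂" => Matrix (Fin 2) (Fin 2) k

/-- Trace zero matrices. -/
def tr0 (k : Type) [Field k] : Submodule k (Matrix (Fin 2) (Fin 2) k) :=
  LinearMap.ker (Matrix.traceLinearMap (Fin 2) k k)

theorem mem_tr0 {X : M₂} : X ∈ tr0 k ↔ X.trace = 0 := LinearMap.mem_ker

/-- Trace zero matrices with conjugation by `r`. -/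
def AdMod (_r : G →* Matrix (Fin 2) (Fin 2) k) : Type := tr0 k

variable {r : G →* Matrix (Fin 2) (Fin 2) k}

instance : AddCommGroup (AdMod r) := inferInstanceAs (AddCommGroup (tr0 k))
instance [Finite k] : Finite (AdMod r) := inferInstanceAs (Finite (tr0 k))

/-- The underlying matrix. -/
def AdMod.val : AdMod r →+ M₂ := (tr0 k).subtype.toAddMonoidHom

/-- A trace zero matrix as an element. -/
def AdMod.mk (r : G →* Matrix (Fin 2) (Fin 2) k) (X : M₂) (hX : X.trace = 0) : AdMod r :=
  ⟨X, mem_tr0.mpr hX⟩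

@[simp] theorem AdMod.val_mk (X : M₂) (hX : X.trace = 0) : (AdMod.mk r X hX).val = X := rfl

theorem AdMod.trace_val (a : AdMod r) : a.val.trace = 0 := mem_tr0.mp a.2

theorem AdMod.ext {a b : AdMod r} (h : a.val = b.val) : a = b := Subtype.ext h

instance : DistribMulAction G (AdMod r) where
  smul g a := AdMod.mk r (r g * a.val * r g⁻¹) (by rw [TWPrimes.trace_conj, a.trace_val])
  one_smul a := AdMod.ext (show r 1 * a.val * r 1⁻¹ = a.val by simp)
  mul_smul g h a := AdMod.ext (show r (g * h) * a.val * r (g * h)⁻¹ =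
    r g * (r h * a.val * r h⁻¹) * r g⁻¹ by simp only [_root_.mul_inv_rev, map_mul, mul_assoc])
  smul_zero g := AdMod.ext (show r g * AdMod.val (0 : AdMod r) * r g⁻¹ = AdMod.val (0 : AdMod r) by
    simp)
  smul_add g a b := AdMod.ext (show r g * AdMod.val (a + b) * r g⁻¹ = AdMod.val (AdMod.mk r _ _ +
      AdMod.mk r _ _) by
    rw [map_add, map_add, AdMod.val_mk, AdMod.val_mk, mul_add, add_mul])

@[simp] theorem AdMod.val_smul (g : G) (a : AdMod r) : (g • a).val = r g * a.val * r g⁻¹ := rfl

theorem AdMod.nsmul_eq_zero {p : ℕ} [CharP k p] (a : AdMod r) : p • a = 0 :=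
  AdMod.ext (by
    rw [map_nsmul, ← Nat.cast_smul_eq_nsmul k, CharP.cast_eq_zero, zero_smul, map_zero])

theorem AdMod.fixPts_eq_bot (hr : TWPrimes.TWHyp r) : Euler.fixPts G (AdMod r) = ⊥ := by
  refine (AddSubgroup.eq_bot_iff_forall _).mpr fun a ha => ?_
  by_contra h0
  refine hr.no_adjoint_line (fun h => h0 (AdMod.ext (h.trans (map_zero _).symm))) a.trace_val
    fun g => ⟨1, ?_⟩
  have e : r g * a.val * r g⁻¹ = a.val := congrArg AdMod.val (ha g)
  rw [one_smul]
  conv_rhs => rw [← e, mul_assoc, TWPrimes.rinv_mul, mul_one]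

/-- Invariant trace zero matrices are invariant elements. -/
theorem AdMod.card_le_fixPts [Finite k] (H : Subgroup G) (W : Submodule k M₂)
    (hW : ∀ X ∈ W, X.trace = 0 ∧ ∀ h ∈ H, r h * X * r h⁻¹ = X) :
    Nat.card W ≤ Nat.card (Euler.fixPts H (AdMod r)) :=
  Nat.card_le_card_of_injective
    (fun X : W => (⟨AdMod.mk r X.1 (hW X.1 X.2).1, fun h => AdMod.ext ((hW X.1 X.2).2 h.1 h.2)⟩ :
      Euler.fixPts H (AdMod r)))
    fun _ _ e => Subtype.ext (congrArg (fun z : Euler.fixPts H (AdMod r) => z.1.val) e)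

section Pairing

variable {p : ℕ} [hp : Fact p.Prime] [CharP k p]

/-- An additive functional which is not zero. -/
theorem exists_functional_ne_zero (k : Type) [Field k] [CharP k p] :
    ∃ l : k →+ ZMod p, l 1 = 1 := by
  letI : Algebra (ZMod p) k := ZMod.algebra k p
  obtain ⟨f, hf⟩ := LinearMap.exists_extend
    ((LinearEquiv.toSpanNonzeroSingleton (ZMod p) k 1 one_ne_zero).symm.toLinearMap)
  refine ⟨f.toAddMonoidHom, ?_⟩
  have := LinearMap.congr_fun hf ⟨1, Submodule.mem_span_singleton_self 1⟩
  rw [LinearMap.comp_apply, Submodule.subtype_apply] at this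
  show f 1 = 1
  rw [this]
  exact (LinearEquiv.symm_apply_eq _).mpr (Subtype.ext (one_smul (ZMod p) (1 : k)).symm)

/-- The functional `X ↦ l (tr (X Y))`. -/
def AdMod.pairing (r : G →* Matrix (Fin 2) (Fin 2) k) (l : k →+ ZMod p) (Y : M₂) :
    AdMod r →+ ZMod p :=
  l.comp ((Matrix.traceAddMonoidHom (Fin 2) k).comp
    ((AddMonoidHom.mulRight Y).comp (AdMod.val (r := r))))

theorem AdMod.pairing_apply (l : k →+ ZMod p) (Y : M₂) (a : AdMod r) :
    AdMod.pairing r l Y a = l (a.val * Y).trace := rfl

theorem AdMod.pairing_smul (l : k →+ ZMod p) (Y : M₂) (g : G) (a : AdMod r) :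
    AdMod.pairing r l Y (g • a) = AdMod.pairing r l (r g⁻¹ * Y * r g) a := by
  rw [AdMod.pairing_apply, AdMod.pairing_apply, AdMod.val_smul]
  congr 1
  rw [mul_assoc, mul_assoc, Matrix.trace_mul_comm]
  simp only [mul_assoc]

theorem AdMod.eq_zero_of_pairing {l : k →+ ZMod p} (hl : l 1 = 1) (h2 : (2 : k) ≠ 0) {Y : M₂}
    (hY : Y.trace = 0) (h : ∀ a : AdMod r, AdMod.pairing r l Y a = 0) : Y = 0 := by
  have hlin : ∀ X : M₂, X.trace = 0 → (X * Y).trace = 0 := fun X hX => by
    by_contra hne
    have := h (AdMod.mk r ((X * Y).trace⁻¹ • X) (by rw [Matrix.trace_smul, hX, smul_zero]))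
    rw [AdMod.pairing_apply, AdMod.val_mk, smul_mul_assoc, Matrix.trace_smul, smul_eq_mul,
      inv_mul_cancel₀ hne, hl] at this
    exact one_ne_zero this
  rw [Matrix.trace_fin_two] at hY
  have e01 := hlin !![0, 1; 0, 0] (by simp [Matrix.trace_fin_two])
  have e10 := hlin !![0, 0; 1, 0] (by simp [Matrix.trace_fin_two])
  have e00 := hlin !![1, 0; 0, -1] (by simp [Matrix.trace_fin_two])
  simp [Matrix.trace_fin_two, Matrix.mul_apply, Fin.sum_univ_two, Matrix.vecMul, dotProduct] at e01 e10 e00
  have d0 : Y 0 0 = 0 := (mul_eq_zero.mp (by linear_combination e00 + hY :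
    (2 : k) * Y 0 0 = 0)).resolve_left h2
  ext i j
  fin_cases i <;> fin_cases j <;> simp [d0, e01, e10]
  linear_combination hY - d0

/-- Every functional is given by a unique trace zero matrix. -/
theorem AdMod.pairing_bijective [Finite k] {l : k →+ ZMod p} (hl : l 1 = 1) (h2 : (2 : k) ≠ 0) :
    Function.Bijective (fun Y : tr0 k => AdMod.pairing r l Y.1) := by
  haveI := Euler.finite_dual (A := AdMod r) (p := p)
  refine Function.Injective.bijective_of_nat_card_le (fun Y Y' e => ?_) ?_
  · refine sub_eq_zero.mp (Subtype.ext (AdMod.eq_zero_of_pairing (r := r) hl h2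
      (mem_tr0.mp (Y - Y').2) fun a => ?_))
    have e' := DFunLike.congr_fun e a
    simp only [AdMod.pairing_apply] at e' ⊢
    rw [Submodule.coe_sub, mul_sub, Matrix.trace_sub, map_sub, e', sub_self]
  · rw [Euler.card_dual (p := p) fun a : AdMod r => AdMod.nsmul_eq_zero a]
    exact le_refl _

/-- An involution of determinant `-1` fixes at least `#k` functionals. -/
theorem AdMod.card_le_fixDual [Finite k] (h2 : (2 : k) ≠ 0) (c : Subgroup G) {g : G}
    (hc : ∀ h ∈ c, h = 1 ∨ h = g) (hg : r g * r g = 1) (hdet : (r g).det = -1) :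
    Nat.card k ≤ Nat.card (Euler.fixDual p c (AdMod r)) := by
  obtain ⟨l, hl⟩ := exists_functional_ne_zero (p := p) k
  haveI := Euler.finite_dual (A := AdMod r) (p := p)
  have htr : (r g).trace = 0 := by
    have e := TWPrimes.mul_self_eq (r g)
    rw [hg, hdet] at e
    by_contra hne
    have e2 : (r g).trace • r g = 0 := by
      rw [← sub_eq_zero] at e
      rw [← neg_eq_zero, ← e]
      module
    refine TWPrimes.det_ne_zero (r := r) g ?_
    rw [(smul_eq_zero.mp e2).resolve_left hne, det_zero]
  have hinv : r g⁻¹ = r g := by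
    calc r g⁻¹ = r g⁻¹ * (r g * r g) := by rw [hg, mul_one]
      _ = r g := by rw [← mul_assoc, TWPrimes.rinv_mul, one_mul]
  have hfix : ∀ u : k, AdMod.pairing r l (u • r g) ∈ Euler.fixDual p c (AdMod r) := by
    intro u h a
    rcases hc h.1 h.2 with e | e
    · rw [Subgroup.smul_def, e, one_smul]
    · rw [Subgroup.smul_def, e, AdMod.pairing_smul, hinv, mul_smul_comm, hg, smul_mul_assoc,
        one_mul]
  refine Nat.card_le_card_of_injective (fun u : k => (⟨_, hfix u⟩ : Euler.fixDual p c (AdMod r)))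
    fun u u' e => ?_
  have hne : r g ≠ 0 := fun h0 => by
    rw [h0, det_zero] at hdet
    exact neg_ne_zero.mpr one_ne_zero hdet.symm
  refine sub_eq_zero.mp ((smul_eq_zero.mp (AdMod.eq_zero_of_pairing (r := r) hl h2
    (Y := (u - u') • r g) (by rw [Matrix.trace_smul, htr, smul_zero]) fun a => ?_)).resolve_right hne)
  have e' := DFunLike.congr_fun (congrArg Subtype.val e) a
  simp only [AdMod.pairing_apply] at e' ⊢
  rw [sub_smul, mul_sub, Matrix.trace_sub, map_sub, e', sub_self]

end Pairing

section Presentation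

variable {A : Type} [AddCommGroup A] [DistribMulAction G A] [Fintype G] [Fintype A]

/-- The lattice on `A × G` mapping onto `A`. -/
def taut (G A : Type) [Group G] [Fintype G] [AddCommGroup A] [DistribMulAction G A] [Fintype A] :
    Lat G A →+ A :=
  Lat.ofBasis fun a x => x • a

theorem presentation_taut {p : ℕ} (hA : ∀ a : A, p • a = 0) : Presentation p (taut G A) where
  surjective a := ⟨Lat.e a 1, by rw [taut, Lat.ofBasis_e, one_smul]⟩
  map_smul g f := Lat.map_smul_of_basis _ g
    (fun i x => by rw [taut, Lat.ofBasis_e, Lat.ofBasis_e, mul_smul]) f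
  killed := hA

end Presentation

end Fermat.Agent.CFT.Selmer
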