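import Fermat.Agent.CFT.Selmer.BoundCore
import Fermat.Agent.CFT.Form.LocalFormation

/-!
# The Selmer bound at Taylor–Wiles primes

For `ρ` as in the Taylor–Wiles lemma and a finite `B` outside which it is unramified there is `m`
such that every depth has `m` Taylor–Wiles primes for which classes of `ad⁰ ρ`, unramified outside
`B` and these primes, form a space of dimension at most `m + ∑ δ - 1`, where `δ` is the excess of
the local bounds at `B` over the invariants.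
-/

set_option autoImplicit false
set_option synthInstance.maxHeartbeats 200000
set_option maxHeartbeats 1000000
set_option linter.unusedSectionVars false
set_option linter.style.haveILetI false

noncomputable section

namespace Fermat.Agent.CFT.Selmer

open ExtCitation Fermat.Agent.Arith IntermediateField Fermat.Agent.CFT.Local Fermat.Agent.CFT.Idele
open Fermat.Agent.CFT.Duality Fermat.Agent.CFT.Euler Fermat.Agent.CFT.Tangent

local instance factPrimeBd (q : Nat.Primes) : Fact (q : ℕ).Prime := ⟨q.2⟩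

variable {p : ℕ} [hp : Fact p.Prime] {k : Type} [Field k] [Finite k] [CharP k p]
  {r : GQ →* Matrix (Fin 2) (Fin 2) k}

/-- The bound at one set of primes, for classes and local bounds indexed by natural numbers. -/
theorem bound_at_primes (hp2 : p ≠ 2) (hr : TWPrimes.TWHyp r)
    (hrfin : GaloisFactorsThroughFiniteLevel r)
    (hcyc : ∀ (σ : GQ) (a : ℕ), (∀ μ : QBar, μ ^ p = 1 → σ μ = μ ^ a) → (r σ).det = (a : k))
    (B : Finset ℕ) (hB : ∀ v ∈ B, v.Prime) (hpB : p ∈ B)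
    (hBr : ∀ l : ℕ, l.Prime → l ∉ B → ∀ A : ValuationSubring QBar, A.LiesOverPrime l →
      ∀ τ ∈ A.inertiaSubgroupIn ℚ, r τ = 1)
    {K : IntermediateField ℚ QBar} [FiniteDimensional ℚ K] [Normal ℚ K]
    (hKiff : ∀ σ : GQ, (∀ x ∈ K, σ x = x) ↔ r σ = 1) {ι : Type} [Fintype ι]
    {ε : Lat (K ≃ₐ[ℚ] K) ι →+ AdMod (repK fun σ h => (hKiff σ).mp h)} (hε : Presentation p ε)
    (T₀ : Finset Nat.Primes) (hBT : B.subtype Nat.Prime ⊆ T₀) (hgen : Generates K T₀)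
    {m : ℕ} (qv : Fin m → Nat.Primes) (hinj : Function.Injective qv) (hqT₀ : ∀ i, qv i ∉ T₀)
    (hfrob : ∀ i, ∀ φ : GQ, (padicPlace (qv i : ℕ)).IsFrobeniusAt φ (qv i : ℕ) →
      (r φ).det = 1 ∧ (r φ).trace ^ 2 ≠ 4 ∧ ∃ α β : k, α ≠ β ∧ (r φ).charpoly =
        (Polynomial.X - Polynomial.C α) * (Polynomial.X - Polynomial.C β))
    (hdet : Detects hε T₀ fun i => (qv i : ℕ))
    (Z : Submodule k (GQ → Matrix (Fin 2) (Fin 2) k)) [Module.Finite k Z]
    (hZ : ∀ b ∈ Z, IsAdCocycle r b ∧ IsFiniteLevel b ∧ (∀ σ, (b σ).trace = 0) ∧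
      ∀ l : ℕ, l.Prime → l ∉ B → (∀ i, (qv i : ℕ) ≠ l) → ∀ A : ValuationSubring QBar,
        A.LiesOverPrime l → ∀ τ ∈ A.inertiaSubgroupIn ℚ, b τ = 0)
    (hcob : ∀ b ∈ Z, ∀ X, b = cobdLin r X → b = 0) (δ : ℕ → ℤ)
    (hloc : ∀ (v : ℕ) [Fact v.Prime], v ∈ B → (Module.finrank k Z : ℤ) ≤
      Module.finrank k (Z ⊓ cobdOn r ((padicPlace v).decompositionSubgroup ℚ) :
          Submodule k (GQ → Matrix (Fin 2) (Fin 2) k)) +
        Module.finrank k (fixedOn r ((padicPlace v).decompositionSubgroup ℚ)) + δ v) :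
    (Module.finrank k Z : ℤ) ≤ m + ∑ v ∈ B, δ v - 1 := by
  classical
  have hpT₀ : (⟨p, hp.out⟩ : Nat.Primes) ∈ T₀ := hBT (Finset.mem_subtype.mpr hpB)
  have hnotB : ∀ q : Nat.Primes, q ∉ T₀ → (q : ℕ) ∉ B := fun q hq hqB =>
    hq (hBT (Finset.mem_subtype.mpr hqB))
  have hrB : ∀ q : Nat.Primes, (q : ℕ) ∉ B →
      ∀ τ ∈ (padicPlace (q : ℕ)).inertiaSubgroupIn ℚ, r τ = 1 := fun q hq =>
    hBr q q.2 hq _ (Local.padicPlace_liesOverPrime _)
  have hcyc' : ∀ q : Nat.Primes, Form.LocalFormationProperty p K q := fun q => by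
    haveI : NeZero p := ⟨hp.out.ne_zero⟩
    have hζQ := (HasEnoughRootsOfUnity.exists_primitiveRoot QBar p).choose_spec
    exact Form.localFormation hp2 K (ζ := ⟨_, mem_of_cyclotomic hcyc (fun σ h => (hKiff σ).mp h) hζQ⟩)
      (IsPrimitiveRoot.of_map_of_injective (f := K.val.toRingHom) (by exact hζQ)
        K.val.toRingHom.injective) q
  have hsum : ∑ q ∈ T₀, (if (q : ℕ) ∈ B then δ q else 0) = ∑ v ∈ B, δ v := by
    rw [← Finset.sum_subtype_of_mem (p := Nat.Prime) δ hB]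
    refine (Finset.sum_subset hBT fun q _ hq => if_neg fun h => hq (Finset.mem_subtype.mpr h)).symm.trans
      (Finset.sum_congr rfl fun q hq => if_pos (Finset.mem_subtype.mp hq))
  rw [← hsum]
  refine selmer_core hε hp2 hr hrfin hcyc hKiff hcyc' T₀ ⟨_, hpT₀⟩ hgen
    (fun q hq => hrB q (hnotB q hq)) hpT₀ qv hinj hqT₀ hfrob hdet Z (fun b hb => (hZ b hb).1)
    (fun b hb => (hZ b hb).2.1) (fun b hb => (hZ b hb).2.2.1)
    (fun q hq hne τ hτ b hb => (hZ b hb).2.2.2 q q.2 (hnotB q hq)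
      (fun i hi => hne i (Subtype.ext hi)) _ (Local.padicPlace_liesOverPrime _) τ hτ)
    hcob (fun q => if (q : ℕ) ∈ B then δ q else 0) fun q hq => ?_
  by_cases hqB : (q : ℕ) ∈ B
  · simpa only [if_pos hqB] using hloc q hqB
  · simp only [if_neg hqB, add_zero]
    exact_mod_cast finrank_le_unramified hrfin Z (fun b hb => (hZ b hb).1)
      (fun b hb => (hZ b hb).2.1) (fun b hb => (hZ b hb).2.2.1) (hrB q hqB)
      fun b hb τ hτ => (hZ b hb).2.2.2 q q.2 hqB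
        (fun i hi => hqT₀ i ((Subtype.ext hi : qv i = q).symm ▸ hq)) _
        (Local.padicPlace_liesOverPrime _) τ hτ

/-- **The Selmer bound.** -/
theorem exists_selmer_bound (hp2 : p ≠ 2) (hr : TWPrimes.TWHyp r)
    (hrfin : GaloisFactorsThroughFiniteLevel r)
    (hcyc : ∀ (σ : GQ) (a : ℕ), (∀ μ : QBar, μ ^ p = 1 → σ μ = μ ^ a) → (r σ).det = (a : k))
    (B : Finset ℕ) (hB : ∀ v ∈ B, v.Prime) (hpB : p ∈ B)
    (hBr : ∀ l : ℕ, l.Prime → l ∉ B → ∀ A : ValuationSubring QBar, A.LiesOverPrime l →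
      ∀ τ ∈ A.inertiaSubgroupIn ℚ, r τ = 1) :
    ∃ m : ℕ, ∀ (n : ℕ) (S : Finset ℕ), ∃ qv : Fin m → ℕ, Function.Injective qv ∧
      (∀ i, (qv i).Prime ∧ qv i ∉ S ∧ qv i ∉ B ∧ qv i ≠ p ∧ p ^ (n + 1) ∣ qv i - 1) ∧
      (∀ i, ∀ P : ValuationSubring QBar, P.LiesOverPrime (qv i) →
        ∀ τ ∈ P.inertiaSubgroupIn ℚ, r τ = 1) ∧
      (∀ i, ∀ P : ValuationSubring QBar, P.LiesOverPrime (qv i) → ∀ φ : GQ,
        P.IsFrobeniusAt φ (qv i) → (r φ).det = 1 ∧ (r φ).trace ^ 2 ≠ 4 ∧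
          ∃ α β : k, α ≠ β ∧ (r φ).charpoly =
            (Polynomial.X - Polynomial.C α) * (Polynomial.X - Polynomial.C β)) ∧
      ∀ Z : Submodule k (GQ → Matrix (Fin 2) (Fin 2) k), Module.Finite k Z →
        (∀ b ∈ Z, IsAdCocycle r b ∧ IsFiniteLevel b ∧ (∀ σ, (b σ).trace = 0) ∧
          ∀ l : ℕ, l.Prime → l ∉ B → (∀ i, qv i ≠ l) → ∀ A : ValuationSubring QBar,
            A.LiesOverPrime l → ∀ τ ∈ A.inertiaSubgroupIn ℚ, b τ = 0) →
        (∀ b ∈ Z, ∀ X, b = cobdLin r X → b = 0) → ∀ δ : ℕ → ℤ,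
        (∀ (v : ℕ) [Fact v.Prime], v ∈ B → (Module.finrank k Z : ℤ) ≤
          Module.finrank k (Z ⊓ cobdOn r ((padicPlace v).decompositionSubgroup ℚ) :
              Submodule k (GQ → Matrix (Fin 2) (Fin 2) k)) +
            Module.finrank k (fixedOn r ((padicPlace v).decompositionSubgroup ℚ)) + δ v) →
        (Module.finrank k Z : ℤ) ≤ m + ∑ v ∈ B, δ v - 1 := by
  classical
  obtain ⟨K, _, _, hKiff⟩ := exists_kerField r hrfin
  haveI : Fintype (AdMod (repK fun σ h => (hKiff σ).mp h)) := Fintype.ofFinite _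
  have hε := presentation_taut (G := K ≃ₐ[ℚ] K) (A := AdMod (repK fun σ h => (hKiff σ).mp h))
    (p := p) fun a => AdMod.nsmul_eq_zero a
  obtain ⟨T₀, hBT, hgen⟩ := exists_generates K (B.subtype Nat.Prime)
  obtain ⟨m, hm⟩ := exists_detecting_primes hε hr hrfin hcyc T₀
  refine ⟨m, fun n S => ?_⟩
  obtain ⟨qv, hinj, hq, hin, hfr, hdet⟩ := hm n (S ∪ B ∪ T₀.image fun q : Nat.Primes => (q : ℕ))
  have hexc : ∀ i, qv i ∉ S ∧ qv i ∉ B ∧ ∀ q ∈ T₀, (q : ℕ) ≠ qv i := fun i => by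
    have h := (hq i).2.1
    simp only [Finset.mem_union, Finset.mem_image, not_or, not_exists, not_and] at h
    exact ⟨h.1.1, h.1.2, h.2⟩
  refine ⟨qv, hinj, fun i => ⟨(hq i).1, (hexc i).1, (hexc i).2.1, (hq i).2.2⟩, hin, hfr,
    fun Z hZf hZ hcob δ hloc => ?_⟩
  haveI := hZf
  refine bound_at_primes (K := K) hp2 hr hrfin hcyc B hB hpB hBr hKiff hε T₀ hBT hgen
    (fun i => ⟨qv i, (hq i).1⟩) (fun i j e => hinj (congrArg Subtype.val e))
    ?_ ?_ ?_ Z ?_ hcob δ hloc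
  · exact fun i hi => (hexc i).2.2 _ hi rfl
  · intro i φ hφ
    haveI : Fact (qv i).Prime := ⟨(hq i).1⟩
    exact hfr i _ (Local.padicPlace_liesOverPrime (qv i)) φ hφ
  · exact hdet
  · exact hZ

end Fermat.Agent.CFT.Selmer
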