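import Fermat.Agent.CFT.Selmer.QuotFormation
import Fermat.Agent.CFT.PT.SupportedH1
import Fermat.Agent.CFT.Euler.CoInd
import Fermat.Agent.CFT.Euler.ModP

/-!
# Idele classes modulo units outside `T`, and their sequence with the `T`-units

For `K/ℚ` unramified outside `T` and `T` generating the classes of `K`:
`0 → U_T → ⊕_{q ∈ T} CoInd (K_q)ˣ → C K / units outside T → 0`, and the class formation of `C K`
descends to the quotient.
-/

set_option autoImplicit false
set_option synthInstance.maxHeartbeats 200000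
set_option maxHeartbeats 1000000
set_option linter.unusedSectionVars false
set_option linter.style.haveILetI false

noncomputable section

namespace Fermat.Agent.CFT.Selmer

open ExtCitation Fermat.Agent.Arith IntermediateField Fermat.Agent.CFT.Local Fermat.Agent.CFT.Idele
open Fermat.Agent.CFT.Duality Fermat.Agent.CFT.Euler

local instance factPrimeClassesT (q : Nat.Primes) : Fact (q : ℕ).Prime := ⟨q.2⟩

variable (K : IntermediateField ℚ QBar) [FiniteDimensional ℚ K] [Normal ℚ K]

/-- The local Galois group as a decomposition group. -/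
def decompEquiv (q : Nat.Primes) : (E K q ≃ₐ[ℚ_[(q : ℕ)]] E K q) ≃* decomp K q :=
  MonoidHom.ofInjective (toGlobal_injective _ K)

theorem coe_decompEquiv (q : Nat.Primes) (t : E K q ≃ₐ[ℚ_[(q : ℕ)]] E K q) :
    ((decompEquiv K q t : decomp K q) : K ≃ₐ[ℚ] K) = toGlobal (q : ℕ) K t := rfl

theorem toGlobal_decompEquiv_symm (q : Nat.Primes) (h : decomp K q) :
    toGlobal (q : ℕ) K ((decompEquiv K q).symm h) = h :=
  congrArg Subtype.val ((decompEquiv K q).apply_symm_apply h)

/-- The decomposition group acting on the local units. -/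
instance decompAction (q : Nat.Primes) : DistribMulAction (decomp K q) (Additive (E K q)ˣ) :=
  DistribMulAction.compHom _ (decompEquiv K q).symm.toMonoidHom

theorem decomp_smul_def (q : Nat.Primes) (h : decomp K q) (y : Additive (E K q)ˣ) :
    h • y = (decompEquiv K q).symm h • y := rfl

variable (T : Finset Nat.Primes)

/-- Classes of unit ideles outside `T`. -/
def clsOff : AddSubgroup (C K) := (unitsOff K (T : Set Nat.Primes)).map (proj K)

theorem isStable_clsOff : IsStable (K ≃ₐ[ℚ] K) (clsOff K T) := by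
  rintro g _ ⟨x, hx, rfl⟩
  exact ⟨g • x, smul_mem_unitsOff g hx, proj_smul K g x⟩

/-- Idele classes modulo units outside `T`. -/
abbrev CT : Type := C K ⧸ clsOff K T

/-- The Galois action on `CT`. -/
instance ctAction : DistribMulAction (K ≃ₐ[ℚ] K) (CT K T) := quotAction (isStable_clsOff K T)

/-- The projection to `CT`. -/
def toCT : C K →+ CT K T := QuotientAddGroup.mk' _

theorem toCT_smul (g : K ≃ₐ[ℚ] K) (x : C K) : toCT K T (g • x) = g • toCT K T x := rfl

/-- The `T`-units of `K`. -/
def tUnits : AddSubgroup (Additive Kˣ) :=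
  (PT.unitsOutside K (T : Set Nat.Primes)).comap (diag K)

theorem mem_tUnits {x : Additive Kˣ} :
    x ∈ tUnits K T ↔ diag K x ∈ PT.unitsOutside K (T : Set Nat.Primes) := Iff.rfl

theorem isStable_tUnits : IsStable (K ≃ₐ[ℚ] K) (tUnits K T) := fun g x hx => by
  rw [mem_tUnits, diag_smul]
  exact PT.smul_mem_unitsOutside g hx

/-- The Galois action on the `T`-units. -/
instance tUnitsAction : DistribMulAction (K ≃ₐ[ℚ] K) (tUnits K T) :=
  stableAction (isStable_tUnits K T)

theorem coe_smul_tUnits (g : K ≃ₐ[ℚ] K) (x : tUnits K T) :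
    ((g • x : tUnits K T) : Additive Kˣ) = g • (x : Additive Kˣ) := rfl

variable {K}

theorem val_decomp_mul (x : J K) (q : Nat.Primes) (h : decomp K q) (σ : K ≃ₐ[ℚ] K) :
    Additive.ofMul (val x.toMul q ((h : K ≃ₐ[ℚ] K) * σ)) =
      h • Additive.ofMul (val x.toMul q σ) := by
  rw [decomp_smul_def, ← toGlobal_decompEquiv_symm, val_toGlobal_mul]
  rfl

/-- The semilocal component at `q`. -/
def comp (q : Nat.Primes) : J K →+ CoInd (decomp K q) (Additive (E K q)ˣ) :=
  AddMonoidHom.mk' (fun x => CoInd.mk (fun σ => Additive.ofMul (val x.toMul q σ))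
      fun h σ => val_decomp_mul x q h σ)
    fun x y => CoInd.ext fun σ => by
      rw [map_add CoInd.fn]
      exact congrArg Additive.ofMul (PT.val_add_J K x y q σ)

theorem fn_comp (q : Nat.Primes) (x : J K) (σ : K ≃ₐ[ℚ] K) :
    CoInd.fn (comp q x) σ = Additive.ofMul (val x.toMul q σ) := rfl

theorem comp_smul (q : Nat.Primes) (g : K ≃ₐ[ℚ] K) (x : J K) : comp q (g • x) = g • comp q x :=
  CoInd.ext fun σ => congrArg Additive.ofMul (val_smul_J g x q σ)

theorem fn_toGlobal_mul (q : Nat.Primes) (F : CoInd (decomp K q) (Additive (E K q)ˣ))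
    (t : E K q ≃ₐ[ℚ_[(q : ℕ)]] E K q) (σ : K ≃ₐ[ℚ] K) :
    (CoInd.fn F (toGlobal (q : ℕ) K t * σ)).toMul = t • (CoInd.fn F σ).toMul := by
  have h := CoInd.fn_equi F (decompEquiv K q t) σ
  rw [coe_decompEquiv, decomp_smul_def, MulEquiv.symm_apply_apply] at h
  exact congrArg Additive.toMul h

/-- The idele supported at `q` with the given component, as a function. -/
def singleFun (q : Nat.Primes) (F : CoInd (decomp K q) (Additive (E K q)ˣ)) : J K :=
  PT.singleJ q (fun σ => (CoInd.fn F σ).toMul) (fn_toGlobal_mul q F)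

theorem singleFun_add (q : Nat.Primes) (F F' : CoInd (decomp K q) (Additive (E K q)ˣ)) :
    singleFun q (F + F') = singleFun q F + singleFun q F' := by
  refine J_ext fun q' σ => ?_
  rw [PT.val_add_J]
  unfold singleFun
  rcases eq_or_ne q' q with rfl | hne
  · rw [PT.val_singleJ_self, PT.val_singleJ_self, PT.val_singleJ_self]
    show (CoInd.fn (F + F') σ).toMul = _
    rw [map_add CoInd.fn]
    rfl
  · rw [PT.val_singleJ_ne q _ _ hne, PT.val_singleJ_ne q _ _ hne, PT.val_singleJ_ne q _ _ hne,
      one_mul]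

/-- The idele supported at `q` with the given component. -/
def single (q : Nat.Primes) : CoInd (decomp K q) (Additive (E K q)ˣ) →+ J K :=
  AddMonoidHom.mk' (singleFun q) (singleFun_add q)

theorem val_single_self (q : Nat.Primes) (F : CoInd (decomp K q) (Additive (E K q)ˣ))
    (σ : K ≃ₐ[ℚ] K) : val (single q F).toMul q σ = (CoInd.fn F σ).toMul :=
  PT.val_singleJ_self q _ (fn_toGlobal_mul q F) σ

theorem val_single_ne (q : Nat.Primes) (F : CoInd (decomp K q) (Additive (E K q)ˣ))
    {q' : Nat.Primes} (h : q' ≠ q) (σ : K ≃ₐ[ℚ] K) : val (single q F).toMul q' σ = 1 :=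
  PT.val_singleJ_ne q _ (fn_toGlobal_mul q F) h σ

theorem single_smul (q : Nat.Primes) (g : K ≃ₐ[ℚ] K)
    (F : CoInd (decomp K q) (Additive (E K q)ˣ)) : single q (g • F) = g • single q F :=
  J_ext fun q' σ => by
    rw [val_smul_J]
    rcases eq_or_ne q' q with rfl | hne
    · rw [val_single_self, val_single_self, CoInd.fn_smul]
    · rw [val_single_ne q _ hne, val_single_ne q _ hne]

/-- The ideles supported in `T`, assembled. -/
def assemble : (∀ q : ↥T, CoInd (decomp K q) (Additive (E K q)ˣ)) →+ J K :=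
  ∑ q : ↥T, (single (q : Nat.Primes)).comp (Pi.evalAddMonoidHom _ q)

theorem assemble_apply (F : ∀ q : ↥T, CoInd (decomp K q) (Additive (E K q)ˣ)) :
    assemble T F = ∑ q : ↥T, single (q : Nat.Primes) (F q) := by
  rw [assemble, AddMonoidHom.finsetSum_apply]
  rfl

theorem val_assemble_mem (F : ∀ q : ↥T, CoInd (decomp K q) (Additive (E K q)ˣ)) (q : ↥T)
    (σ : K ≃ₐ[ℚ] K) : val (assemble T F).toMul q σ = (CoInd.fn (F q) σ).toMul := by
  rw [assemble_apply, val_sum, Finset.prod_eq_single q, val_single_self]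
  · exact fun q' _ hq' => val_single_ne _ _ (fun h => hq' (Subtype.ext h).symm) σ
  · exact fun h => absurd (Finset.mem_univ _) h

theorem val_assemble_notMem (F : ∀ q : ↥T, CoInd (decomp K q) (Additive (E K q)ˣ))
    {q : Nat.Primes} (hq : q ∉ T) (σ : K ≃ₐ[ℚ] K) : val (assemble T F).toMul q σ = 1 := by
  rw [assemble_apply, val_sum]
  exact Finset.prod_eq_one fun q' _ => val_single_ne _ _ (fun h : q = q' => hq (h ▸ q'.2)) σ

theorem assemble_smul (g : K ≃ₐ[ℚ] K) (F : ∀ q : ↥T, CoInd (decomp K q) (Additive (E K q)ˣ)) :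
    assemble T (g • F) = g • assemble T F := by
  rw [assemble_apply, assemble_apply, Finset.smul_sum]
  exact Finset.sum_congr rfl fun q _ => single_smul _ g (F q)

theorem assemble_comp (x : J K) :
    assemble T (fun q : ↥T => comp (q : Nat.Primes) x) = partAt (T : Set Nat.Primes) x := by
  classical
  refine J_ext fun q σ => ?_
  rw [val_partAt]
  by_cases hq : q ∈ T
  · rw [if_pos (Finset.mem_coe.mpr hq),
      show val (assemble T fun q : ↥T => comp (q : Nat.Primes) x).toMul q σ = _ from
        val_assemble_mem T _ ⟨q, hq⟩ σ]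
    rfl
  · rw [if_neg (fun h => hq (Finset.mem_coe.mp h)), val_assemble_notMem T _ hq]

theorem sub_partAt_mem {x : J K} (hx : x ∈ PT.unitsOutside K (T : Set Nat.Primes)) :
    x - partAt (T : Set Nat.Primes) x ∈ unitsOff K (T : Set Nat.Primes) := by
  classical
  refine PT.mem_unitsOff_of_mem (fun q hq σ => ?_) ?_
  · simp only [Set.mem_compl_iff, not_not] at hq
    rw [val_toMul_sub, val_partAt, if_pos hq, div_self']
  · refine sub_mem hx fun q hq g => ?_
    rw [← PT.norm_val_eq, val_partAt, if_neg hq]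
    simp

variable (K)

/-- The semilocal components of the `T`-units. -/
def unitsMap : tUnits K T →+ ∀ q : ↥T, CoInd (decomp K q) (Additive (E K q)ˣ) :=
  AddMonoidHom.mk' (fun x q => comp (q : Nat.Primes) (diag K (x : Additive Kˣ)))
    fun x y => funext fun q => by
      rw [AddSubgroup.coe_add, map_add, map_add]
      rfl

theorem unitsMap_smul (g : K ≃ₐ[ℚ] K) (x : tUnits K T) :
    unitsMap K T (g • x) = g • unitsMap K T x := funext fun q => by
  show comp _ (diag K ((g • x : tUnits K T) : Additive Kˣ)) = g • comp _ (diag K _)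
  rw [coe_smul_tUnits, diag_smul, comp_smul]

/-- From the semilocal families to `CT`. -/
def classMapT : (∀ q : ↥T, CoInd (decomp K q) (Additive (E K q)ˣ)) →+ CT K T :=
  (toCT K T).comp ((proj K).comp (assemble T))

theorem classMapT_smul (g : K ≃ₐ[ℚ] K) (F : ∀ q : ↥T, CoInd (decomp K q) (Additive (E K q)ˣ)) :
    classMapT K T (g • F) = g • classMapT K T F := by
  show toCT K T (proj K (assemble T (g • F))) = g • toCT K T (proj K (assemble T F))
  rw [assemble_smul, proj_smul, toCT_smul]

theorem proj_injOn_unitsOff (hT : T.Nonempty) {x : J K}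
    (hx : x ∈ unitsOff K (T : Set Nat.Primes)) (h0 : proj K x = 0) : x = 0 := by
  obtain ⟨q, hq⟩ := hT
  obtain ⟨a, ha⟩ := (proj_eq_zero_iff K).mp h0
  have h1 := (hx q 1).2 (Finset.mem_coe.mpr hq)
  rw [← ha] at h1
  have h2 : localEmb (q : ℕ) K ((1 : K ≃ₐ[ℚ] K) (a : K)) = 1 := by
    rw [← val_prinL, h1]; rfl
  rw [AlgEquiv.one_apply, ← map_one (localEmb (q : ℕ) K)] at h2
  have ha1 : a = 1 := Units.ext (RingHom.injective _ h2)
  rw [ha1, map_one] at ha
  exact Additive.toMul.injective ha.symm

theorem proj_diag (a : Additive Kˣ) : proj K (diag K a) = 0 :=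
  (proj_eq_zero_iff K).mpr ⟨a.toMul, rfl⟩

theorem unitsMap_injective (hT : T.Nonempty) : Function.Injective (unitsMap K T) := by
  rw [injective_iff_map_eq_zero]
  intro x hx
  have hdi : Function.Injective (diag K) := fun a b h => prinL_injective h
  refine Subtype.ext (hdi ?_)
  refine (proj_injOn_unitsOff K T hT (x := diag K (x : Additive Kˣ)) ?_ ?_).trans (map_zero _).symm
  · intro q σ
    by_cases hq : q ∈ T
    · have h1 := congrArg (fun F => (CoInd.fn (F ⟨q, hq⟩) σ).toMul) hx
      change val (diag K (x : Additive Kˣ)).toMul q σ = _ at h1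
      simp only [Pi.zero_apply, map_zero, toMul_zero] at h1
      rw [h1]
      exact ⟨one_mem _, fun _ => rfl⟩
    · refine ⟨?_, fun h => absurd (Finset.mem_coe.mp h) hq⟩
      rw [Local.mem_unitGroup, ← res_lift K σ, PT.norm_val_eq]
      exact x.2 q (fun h => hq (Finset.mem_coe.mp h)) _
  · exact proj_diag K _

theorem classMapT_unitsMap (x : tUnits K T) : classMapT K T (unitsMap K T x) = 0 := by
  show toCT K T (proj K (assemble T fun q : ↥T => comp (q : Nat.Primes) (diag K _))) = 0
  rw [assemble_comp]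
  refine (QuotientAddGroup.eq_zero_iff _).mpr
    ⟨-(diag K (x : Additive Kˣ) - partAt _ (diag K x)), neg_mem (sub_partAt_mem T x.2), ?_⟩
  rw [neg_sub, map_sub, proj_diag, sub_zero]

theorem exists_unitsMap_eq (F : ∀ q : ↥T, CoInd (decomp K q) (Additive (E K q)ˣ))
    (hF : classMapT K T F = 0) : ∃ x, unitsMap K T x = F := by
  obtain ⟨w, hw, e⟩ := (QuotientAddGroup.eq_zero_iff _).mp hF
  obtain ⟨a, ha⟩ := (proj_eq_zero_iff K).mp
    (show proj K (assemble T F - w) = 0 from (map_sub _ _ _).trans (sub_eq_zero.mpr e.symm))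
  have hd : diag K (Additive.ofMul a) = assemble T F - w := congrArg Additive.ofMul ha
  refine ⟨⟨Additive.ofMul a, fun q hq g => ?_⟩, funext fun q => CoInd.ext fun σ => ?_⟩
  · rw [hd, ← PT.norm_val_eq, ← Local.mem_unitGroup, val_toMul_sub,
      val_assemble_notMem T F (fun h => hq (Finset.mem_coe.mpr h)), one_div]
    exact inv_mem (hw q _).1
  · show Additive.ofMul (val (diag K (Additive.ofMul a)).toMul q σ) = _
    rw [hd, val_toMul_sub, val_assemble_mem, (hw q σ).2 (Finset.mem_coe.mpr q.2), div_one]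
    rfl

/-- `T` generates the classes of `K`. -/
def Generates : Prop :=
  ∀ f : J K, ∃ a : Additive Kˣ, f + diag K a ∈ PT.unitsOutside K (T : Set Nat.Primes)

theorem classMapT_surjective (hgen : Generates K T) : Function.Surjective (classMapT K T) := by
  intro y
  obtain ⟨c, rfl⟩ := QuotientAddGroup.mk'_surjective (clsOff K T) y
  obtain ⟨f, rfl⟩ := proj_surjective K c
  obtain ⟨a, ha⟩ := hgen f
  refine ⟨fun q => comp (q : Nat.Primes) (f + diag K a), ?_⟩
  show toCT K T (proj K (assemble T fun q : ↥T => comp (q : Nat.Primes) (f + diag K a))) = _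
  rw [assemble_comp]
  refine (QuotientAddGroup.mk'_eq_mk' _).mpr ⟨proj K ((f + diag K a) - partAt _ (f + diag K a)),
    ⟨_, sub_partAt_mem T ha, rfl⟩, ?_⟩
  rw [← map_add, add_sub_cancel, map_add, proj_diag, add_zero]

variable {K T} in
theorem Generates.mono {T' : Finset Nat.Primes} (h : Generates K T) (hle : T ⊆ T') :
    Generates K T' := fun f => by
  obtain ⟨a, ha⟩ := h f
  exact ⟨a, fun q hq g => ha q (fun hm => hq (Finset.coe_subset.mpr hle hm)) g⟩

/-- Finite generating sets exist. -/
theorem exists_generates (T₀ : Finset Nat.Primes) :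
    ∃ T : Finset Nat.Primes, T₀ ⊆ T ∧ Generates K T := by
  obtain ⟨T, hT₀, hT⟩ := exists_finset_fixed_classes (⊥ : Subgroup (K ≃ₐ[ℚ] K)) T₀
  refine ⟨T, hT₀, fun f => ?_⟩
  obtain ⟨c, -, hc⟩ := hT f.toMul fun h hh => by rw [Subgroup.mem_bot.mp hh, one_smul]
  refine ⟨Additive.ofMul c, fun q hq g => ?_⟩
  rw [← PT.norm_val_eq]
  exact (Local.mem_unitGroup _).mp (hc q (fun h => hq (Finset.mem_coe.mpr h)) _)

variable {p : ℕ} [hp : Fact p.Prime]

/-- The class formation descends to `CT`. -/
theorem exists_isClassFormation_CT {u : NormCocycle (K ≃ₐ[ℚ] K) (C K)}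
    (hu : IsClassFormation p u) (hA : StepAxioms p (K ≃ₐ[ℚ] K) (C K)) (hT : T.Nonempty)
    (hunr : ∀ q ∉ (T : Set Nat.Primes), inertia (E K q) = ⊥) :
    ∃ uT : NormCocycle (K ≃ₐ[ℚ] K) (CT K T), IsClassFormation p uT := by
  refine ⟨_, isClassFormation_map (W := unitsOff K (T : Set Nat.Primes)) hA hu
    ((proj K).comp (unitsOff K (T : Set Nat.Primes)).subtype) (fun g x => proj_smul K g _) ?_
    (toCT K T) (toCT_smul K T) (QuotientAddGroup.mk'_surjective _) ?_ ?_
    (fun H _ => h1Zero_unitsOff hunr H) (fun H _ _ => normSurj_unitsOff hunr H)⟩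
  · rw [injective_iff_map_eq_zero]
    exact fun x hx => Subtype.ext (proj_injOn_unitsOff K T hT x.2 hx)
  · exact fun x => (QuotientAddGroup.eq_zero_iff _).mpr ⟨x, x.2, rfl⟩
  · intro y hy
    obtain ⟨x, hx, rfl⟩ := (QuotientAddGroup.eq_zero_iff _).mp hy
    exact ⟨⟨x, hx⟩, rfl⟩

end Fermat.Agent.CFT.Selmer
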