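import Fermat.Agent.CFT.Selmer.Count
import Fermat.Agent.CFT.Selmer.ClassesT
import Fermat.Agent.CFT.Euler.Extension

/-!
# Functionals on classes of the upper level from maps into idele classes

The duality map, pulled back to a group of classes, is surjective, factors through the classes
outside `T`, and is a sum of local functionals which kill local coboundaries.
-/

set_option autoImplicit false
set_option synthInstance.maxHeartbeats 200000
set_option maxHeartbeats 1000000
set_option linter.unusedSectionVars false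
set_option linter.style.haveILetI false

noncomputable section

namespace Fermat.Agent.CFT.Selmer

open ExtCitation Fermat.Agent.Arith IntermediateField Fermat.Agent.CFT.Local Fermat.Agent.CFT.Idele
open Fermat.Agent.CFT.Duality Fermat.Agent.CFT.Euler

local instance factPrimeDC (q : Nat.Primes) : Fact (q : ℕ).Prime := ⟨q.2⟩

variable {p : ℕ} [hp : Fact p.Prime]
  {K : IntermediateField ℚ QBar} [FiniteDimensional ℚ K] [Normal ℚ K]
  {L : IntermediateField ℚ QBar} [FiniteDimensional ℚ L] [Normal ℚ L] (h : K ≤ L)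
  {A ι : Type} [AddCommGroup A] [DistribMulAction (K ≃ₐ[ℚ] K) A] [Fintype ι]
  {ε : Lat (K ≃ₐ[ℚ] K) ι →+ A} (hε : Presentation p ε)
  {u : NormCocycle (L ≃ₐ[ℚ] L) (C L)} (hu : IsClassFormation p u)
  (hk : IsPGroup p (levelRes h).ker)
  {Zg : Type} [AddCommGroup Zg] (Φ : Zg →+ levelCocycles (levelRes h) A)

/-- The duality map pulled back to classes. -/
def pullFun : equivHom (C := C K) (presOf hε).hS →+ (Zg →+ ZMod p) :=
  AddMonoidHom.mk' (fun f => (dual hε h hu hk f).comp Φ) fun f g =>
    AddMonoidHom.ext fun z => by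
      show dual hε h hu hk (f + g) (Φ z) = dual hε h hu hk f (Φ z) + dual hε h hu hk g (Φ z)
      rw [map_add]
      rfl

theorem pullFun_apply (f : equivHom (C := C K) (presOf hε).hS) (z : Zg) :
    pullFun h hε hu hk Φ f z = dual hε h hu hk f (Φ z) := rfl

/-- Surjectivity, for classes meeting the coboundaries trivially. -/
theorem pullFun_surjective (hA : ∀ a : A, p • a = 0) (hZ : ∀ z : Zg, p • z = 0)
    (hΦ : ∀ (z : Zg) (x : A),
      (∀ g, (Φ z : (L ≃ₐ[ℚ] L) → A) g = levelRes h g • x - x) → z = 0) :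
    Function.Surjective (pullFun h hε hu hk Φ) := by
  intro μ
  classical
  let Bc : AddSubgroup (levelCocycles (levelRes h) A) :=
    { carrier := {a | ∃ x : A, ∀ g, (a : (L ≃ₐ[ℚ] L) → A) g = levelRes h g • x - x}
      add_mem' := by
        rintro a b ⟨x, hx⟩ ⟨y, hy⟩
        refine ⟨x + y, fun g => ?_⟩
        rw [AddSubgroup.coe_add, Pi.add_apply, hx, hy, smul_add]
        abel
      zero_mem' := ⟨0, fun g => by simp⟩
      neg_mem' := by
        rintro a ⟨x, hx⟩
        refine ⟨-x, fun g => ?_⟩
        rw [AddSubgroup.coe_neg, Pi.neg_apply, hx, smul_neg]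
        abel }
  let π : Zg →+ levelCocycles (levelRes h) A ⧸ Bc := (QuotientAddGroup.mk' Bc).comp Φ
  have hπ : Function.Injective π := (injective_iff_map_eq_zero _).mpr fun z hz => by
    obtain ⟨x, hx⟩ := (QuotientAddGroup.eq_zero_iff _).mp hz
    exact hΦ z x hx
  have hkill : ∀ a : levelCocycles (levelRes h) A ⧸ Bc, p • a = 0 := fun a => by
    obtain ⟨a, rfl⟩ := QuotientAddGroup.mk'_surjective Bc a
    rw [← map_nsmul, show p • a = 0 from Subtype.ext (funext fun g => hA _), map_zero]
  letI : Module (ZMod p) (levelCocycles (levelRes h) A ⧸ Bc) := AddCommGroup.zmodModule hkill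
  let e : Zg ≃+ π.range := AddMonoidHom.ofInjective hπ
  obtain ⟨μ', hμ'⟩ := exists_extend_zmod (p := p) π.range (μ.comp e.symm.toAddMonoidHom)
  obtain ⟨f, hf⟩ := exists_dual_eq hε h hu hk (μ'.comp (QuotientAddGroup.mk' Bc)) fun a x hx => by
    rw [AddMonoidHom.comp_apply,
      show QuotientAddGroup.mk' Bc a = 0 from (QuotientAddGroup.eq_zero_iff _).mpr ⟨x, hx⟩,
      map_zero]
  refine ⟨f, AddMonoidHom.ext fun z => ?_⟩
  rw [pullFun_apply, hf, AddMonoidHom.comp_apply]
  refine (hμ' (e z)).trans ?_
  show μ (e.symm (e z)) = μ z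
  rw [e.symm_apply_apply]

/-- Restrictions from the lattice are killed. -/
theorem pullFun_eq_zero_of_res {f : equivHom (C := C K) (presOf hε).hS}
    (hf : f ∈ ((presOf hε).res (C K)).range) : pullFun h hε hu hk Φ f = 0 := by
  obtain ⟨Y, hY, hYs⟩ := (mem_range_res_iff hε f).mp hf
  refine AddMonoidHom.ext fun z => ?_
  rw [pullFun_apply, show dual hε h hu hk f = 0 from
    theta_eq_zero_of_ext (levelSystem h hu hk) hε f Y hY hYs]
  rfl

variable (T : Finset Nat.Primes)

/-- The projection to classes outside `T`, on families. -/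
def classProj : equivHom (C := C K) (presOf hε).hS →+ equivHom (C := CT K T) (presOf hε).hS :=
  postHom (presOf hε).hS (toCT K T) (toCT_smul K T)

/-- Equivariant families with values in classes of units outside `T` lift to ideles. -/
theorem exists_unitsOff_lift (hT : T.Nonempty) (f : equivHom (C := C K) hε.isStable_ker)
    (Y : Lat (K ≃ₐ[ℚ] K) ι →+ C K) (hY : ∀ (g : K ≃ₐ[ℚ] K) x, Y (g • x) = g • Y x)
    (hcls : ∀ s : ε.ker, f.1 s - Y s ∈ clsOff K T) :
    ∃ w : equivHom (C := J K) hε.isStable_ker, (∀ s, w.1 s ∈ unitsOff K (T : Set Nat.Primes)) ∧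
      ∀ s, proj K (w.1 s) = f.1 s - Y s := by
  choose w hw hwe using hcls
  have huniq : ∀ x y : J K, x ∈ unitsOff K (T : Set Nat.Primes) →
      y ∈ unitsOff K (T : Set Nat.Primes) → proj K x = proj K y → x = y := fun x y hx hy e =>
    sub_eq_zero.mp (proj_injOn_unitsOff K T hT (sub_mem hx hy) (by rw [map_sub, e, sub_self]))
  have hadd : ∀ s t, w (s + t) = w s + w t := fun s t =>
    huniq _ _ (hw _) (add_mem (hw s) (hw t)) (by
      rw [map_add (proj K), hwe, hwe, hwe, map_add, AddSubgroup.coe_add, map_add]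
      abel)
  have heq : IsEquivariantOn hε.isStable_ker (AddMonoidHom.mk' w hadd) := fun g s =>
    huniq _ _ (hw _) (smul_mem_unitsOff g (hw s)) (by
      have e1 : proj K (w (smulS hε.isStable_ker g s)) =
          f.1 (smulS hε.isStable_ker g s) - Y (g • (s : Lat (K ≃ₐ[ℚ] K) ι)) := hwe _
      show proj K (w (smulS hε.isStable_ker g s)) = proj K (g • w s)
      rw [e1, f.2, hY, ← smul_sub, ← hwe, proj_smul])
  exact ⟨⟨_, heq⟩, hw, hwe⟩

/-- The duality map factors through the classes outside `T`. -/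
theorem pullFun_eq_zero_of_classProj (hT : T.Nonempty)
    (hunr : ∀ q ∉ (T : Set Nat.Primes), inertia (E L q) = ⊥)
    (f : equivHom (C := C K) (presOf hε).hS)
    (hf : classProj hε T f ∈ ((presOf hε).res (CT K T)).range) :
    pullFun h hε hu hk Φ f = 0 := by
  obtain ⟨YT, hYT, hYTs⟩ := (mem_range_res_iff hε _).mp hf
  obtain ⟨Y, hY, hYp⟩ := exists_equivariant_lift (toCT K T) (toCT_smul K T) YT hYT fun i =>
    QuotientAddGroup.mk'_surjective _ _
  have hcls : ∀ s : ε.ker, f.1 s - Y s ∈ clsOff K T := fun s => by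
    refine (QuotientAddGroup.eq_zero_iff _).mp ?_
    show toCT K T (f.1 s - Y s) = 0
    rw [map_sub, hYp, sub_eq_zero]
    exact hYTs s
  obtain ⟨wH, hw, hwe⟩ := exists_unitsOff_lift hε T hT f Y hY hcls
  have hsub : f - projHom hε wH ∈ ((presOf hε).res (C K)).range :=
    (mem_range_res_iff hε _).mpr ⟨Y, hY, fun s => by
      show f.1 s - proj K (wH.1 s) = Y s
      rw [hwe, sub_sub_cancel]⟩
  have h1 := pullFun_eq_zero_of_res h hε hu hk Φ hsub
  rw [map_sub, sub_eq_zero] at h1
  rw [h1]
  refine AddMonoidHom.ext fun z => ?_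
  rw [pullFun_apply, dual_unitsOff hε h hu hk hunr wH hw]
  rfl

/-- The idele family of a local map. -/
def locIdele (q : Nat.Primes) [Fintype (decomp K q)] :
    equivHom (C := Additive (E K q)ˣ) ((presOf hε).restrict (decomp K q)).hS →+
      equivHom (C := J K) hε.isStable_ker :=
  (postHom hε.isStable_ker (single q) (single_smul q)).comp (coindHom hε.isStable_ker)

/-- The local functional. -/
def locFun (q : Nat.Primes) [Fintype (decomp K q)] :
    equivHom (C := Additive (E K q)ˣ) ((presOf hε).restrict (decomp K q)).hS →+ (Zg →+ ZMod p) :=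
  (pullFun h hε hu hk Φ).comp ((projHom hε).comp (locIdele hε q))

theorem locFun_eq_zero_of_res (q : Nat.Primes) [Fintype (decomp K q)]
    {f : equivHom (C := Additive (E K q)ˣ) ((presOf hε).restrict (decomp K q)).hS}
    (hf : f ∈ (((presOf hε).restrict (decomp K q)).res (Additive (E K q)ˣ)).range) :
    locFun h hε hu hk Φ q f = 0 := by
  have h1 := postHom_mem_range hε (single q) (single_smul q) (coindHom_mem_range hε hf)
  exact pullFun_eq_zero_of_res h hε hu hk Φ (postHom_mem_range hε (proj K) (proj_smul K) h1)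

/-- The local functional kills local coboundaries. -/
theorem locFun_apply_eq_zero (q : Nat.Primes) [Fintype (decomp K q)]
    (f : equivHom (C := Additive (E K q)ˣ) ((presOf hε).restrict (decomp K q)).hS) (z : Zg)
    (hz : ∃ x : A, ∀ g ∈ decomp L q,
      (Φ z : (L ≃ₐ[ℚ] L) → A) g = levelRes h g • x - x) :
    locFun h hε hu hk Φ q f z = 0 :=
  dual_supported hε h hu hk q (locIdele hε q f) (fun s q' hq' σ => val_single_ne q _
    (by simpa using hq') σ) (Φ z) hz

/-- A semilocal family in idele classes. -/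
def gammaC [∀ q : ↥T, Fintype (decomp K (q : Nat.Primes))]
    (f : ∀ q : ↥T, equivHom (C := Additive (E K (q : Nat.Primes))ˣ)
      ((presOf hε).restrict (decomp K (q : Nat.Primes))).hS) :
    equivHom (C := C K) (presOf hε).hS :=
  projHom hε (postHom hε.isStable_ker (assemble T) (assemble_smul T)
    (piCoind (H := fun q : ↥T => decomp K (q : Nat.Primes)) hε.isStable_ker f))

theorem classProj_gammaC [∀ q : ↥T, Fintype (decomp K (q : Nat.Primes))]
    (f : ∀ q : ↥T, equivHom (C := Additive (E K (q : Nat.Primes))ˣ)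
      ((presOf hε).restrict (decomp K (q : Nat.Primes))).hS) :
    classProj hε T (gammaC hε T f) =
      gamma (H := fun q : ↥T => decomp K (q : Nat.Primes)) (classMapT K T) (classMapT_smul K T)
        (presOf hε).hS f :=
  Subtype.ext (AddMonoidHom.ext fun _ => rfl)

theorem postHom_assemble_piCoind [∀ q : ↥T, Fintype (decomp K (q : Nat.Primes))]
    (f : ∀ q : ↥T, equivHom (C := Additive (E K (q : Nat.Primes))ˣ)
      (IsStable.restrict hε.isStable_ker (decomp K (q : Nat.Primes)))) :
    postHom hε.isStable_ker (assemble T) (assemble_smul T)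
      (piCoind (H := fun q : ↥T => decomp K (q : Nat.Primes)) hε.isStable_ker f) =
      ∑ q : ↥T, (postHom hε.isStable_ker (single (q : Nat.Primes)) (single_smul _))
        (coindHom hε.isStable_ker (f q)) := by
  refine Subtype.ext (AddMonoidHom.ext fun s => ?_)
  let ev : equivHom (C := J K) hε.isStable_ker →+ J K :=
    AddMonoidHom.mk' (fun w => w.1 s) fun _ _ => rfl
  refine (assemble_apply T _).trans ?_
  exact (map_sum ev (fun q : ↥T => (postHom hε.isStable_ker (single (q : Nat.Primes))
    (single_smul _)) (coindHom hε.isStable_ker (f q))) Finset.univ).symm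

theorem pullFun_gammaC [∀ q : ↥T, Fintype (decomp K (q : Nat.Primes))]
    (f : ∀ q : ↥T, equivHom (C := Additive (E K (q : Nat.Primes))ˣ)
      ((presOf hε).restrict (decomp K (q : Nat.Primes))).hS) :
    pullFun h hε hu hk Φ (gammaC hε T f) =
      ∑ q : ↥T, locFun h hε hu hk Φ (q : Nat.Primes) (f q) := by
  have e := postHom_assemble_piCoind hε T f
  refine (congrArg (fun w => pullFun h hε hu hk Φ (projHom hε w)) e).trans ?_
  refine (congrArg (pullFun h hε hu hk Φ) (map_sum (projHom hε) _ _)).trans ?_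
  exact map_sum (pullFun h hε hu hk Φ) _ _

/-- The image of the local functional annihilates the local coboundaries. -/
theorem lpN_index_ker_locFun_le [Finite Zg] (hZ : ∀ z : Zg, p • z = 0) (q : Nat.Primes)
    [Fintype (decomp K q)] (W : AddSubgroup Zg)
    (hW : ∀ z ∈ W, ∃ x : A, ∀ g ∈ decomp L q,
      (Φ z : (L ≃ₐ[ℚ] L) → A) g = levelRes h g • x - x) :
    lpN p (locFun h hε hu hk Φ q).ker.index + lpN p (Nat.card W) ≤ lpN p (Nat.card Zg) := by
  haveI := finite_dual (A := Zg) (p := p)
  haveI := finite_dual (A := W) (p := p)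
  letI : Module (ZMod p) Zg := AddCommGroup.zmodModule hZ
  let ρ : (Zg →+ ZMod p) →+ (W →+ ZMod p) :=
    AddMonoidHom.mk' (fun ν => ν.comp W.subtype) fun _ _ => rfl
  have hρ : Function.Surjective ρ := fun ν => by
    obtain ⟨μ, hμ⟩ := exists_extend_zmod (p := p) W ν
    exact ⟨μ, AddMonoidHom.ext hμ⟩
  have h1 : (locFun h hε hu hk Φ q).ker.index ∣ Nat.card ρ.ker := by
    rw [AddSubgroup.index_ker]
    refine AddSubgroup.card_dvd_of_le ?_
    rintro _ ⟨f, rfl⟩
    exact AddMonoidHom.mem_ker.mpr (AddMonoidHom.ext fun z =>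
      locFun_apply_eq_zero h hε hu hk Φ q f z (hW z z.2))
  have h2 : Nat.card ρ.ker * Nat.card W = Nat.card Zg := by
    rw [← card_dual (p := p) hZ, ← card_dual (p := p) fun z : W => Subtype.ext (hZ z),
      ← ρ.ker.card_mul_index, AddSubgroup.index_ker, AddMonoidHom.range_eq_top.mpr hρ,
      AddSubgroup.card_top]
  have h3 := lpN_mono (p := p) h1 Nat.card_pos.ne'
  rw [← h2, lpN_mul (p := p) Nat.card_pos.ne' Nat.card_pos.ne']
  linarith

end Fermat.Agent.CFT.Selmer
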