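import Fermat.Agent.CFT.Selmer.ClassesT
import Fermat.Agent.CFT.Form.Statement

/-!
# The local class formation seen from the decomposition group
-/

set_option autoImplicit false
set_option synthInstance.maxHeartbeats 200000
set_option linter.unusedSectionVars false
set_option linter.style.haveILetI false

noncomputable section

namespace Fermat.Agent.CFT.Selmer

open ExtCitation Fermat.Agent.Arith IntermediateField Fermat.Agent.CFT.Local Fermat.Agent.CFT.Idele
open Fermat.Agent.CFT.Duality groupCohomology

local instance factPrimeLF (q : Nat.Primes) : Fact (q : ℕ).Prime := ⟨q.2⟩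

/-- Transport of a class formation along an isomorphism of groups. -/
theorem isClassFormation_transport {G G' A : Type*} [Group G] [Group G'] [Fintype G] [Fintype G']
    [AddCommGroup A] [DistribMulAction G A] [DistribMulAction G' A] {p : ℕ} (e : G' ≃* G)
    (he : ∀ (h : G') (a : A), e h • a = h • a) (u : NormCocycle G A) (hu : IsClassFormation p u) :
    ∃ u' : NormCocycle G' A, IsClassFormation p u' := by
  let u' : NormCocycle G' A :=
    { toFun := fun gh => u.toFun (e gh.1, e gh.2)
      isCocycle := fun a b d => by
        show u.toFun (e (a * b), e d) + u.toFun (e a, e b) =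
          a • u.toFun (e b, e d) + u.toFun (e a, e (b * d))
        rw [map_mul, map_mul, ← he]
        exact u.isCocycle (e a) (e b) (e d)
      one_left := fun g => by
        show u.toFun (e 1, e g) = 0
        rw [map_one]
        exact u.one_left _ }
  have hp : ∀ H' : Subgroup G', IsPGroup p H' → IsPGroup p (H'.map e.toMonoidHom) :=
    fun H' h => h.map _
  let eH : ∀ H' : Subgroup G', H' ≃* H'.map e.toMonoidHom := fun H' =>
    H'.equivMapOfInjective e.toMonoidHom e.injective
  have heH : ∀ (H' : Subgroup G') (h : H') (a : A), eH H' h • a = h • a := fun H' h a => he h a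
  have hcob : ∀ (H' : Subgroup G') (c : H' × H' → A),
      IsCoboundary₂ (fun x : H'.map e.toMonoidHom × H'.map e.toMonoidHom =>
        c ((eH H').symm x.1, (eH H').symm x.2)) ↔ IsCoboundary₂ c := by
    intro H' c
    constructor
    · rintro ⟨β, hβ⟩
      refine ⟨fun h => β (eH H' h), fun g h => ?_⟩
      have := hβ (eH H' g) (eH H' h)
      simp only [heH, ← map_mul, MulEquiv.symm_apply_apply] at this
      exact this
    · rintro ⟨β, hβ⟩
      refine ⟨fun h => β ((eH H').symm h), fun g h => ?_⟩
      have := hβ ((eH H').symm g) ((eH H').symm h)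
      rw [← map_mul, ← heH, MulEquiv.apply_symm_apply] at this
      exact this
  refine ⟨u', fun H' h => H1Zero.of_equiv (eH H') (heH H') (hu.h1 _ (hp H' h)),
    fun H' h c hc => ?_, fun H' h k hk => ?_⟩
  · obtain ⟨k, hk⟩ := hu.generates _ (hp H' h)
      (fun x => c ((eH H').symm x.1, (eH H').symm x.2)) fun a b d => by
        have := hc ((eH H').symm a) ((eH H').symm b) ((eH H').symm d)
        rw [← heH, MulEquiv.apply_symm_apply] at this
        simpa only [map_mul] using this
    refine ⟨k, (hcob H' _).mp ?_⟩
    obtain ⟨β, hβ⟩ := hk
    exact ⟨β, fun a b => (hβ a b).trans (by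
      show c _ - k • u.toFun _ = c _ - k • u.toFun (e _, e _)
      congr 3
      refine Prod.ext ?_ ?_
      · exact (congrArg Subtype.val ((eH H').apply_symm_apply a)).symm
      · exact (congrArg Subtype.val ((eH H').apply_symm_apply b)).symm)⟩
  · obtain ⟨β, hβ⟩ := (hcob H' _).mpr hk
    have := hu.order _ (hp H' h) k ⟨β, fun a b => (hβ a b).trans (by
      show k • u.toFun (e _, e _) = k • u.toFun _
      congr 2
      refine Prod.ext ?_ ?_
      · exact congrArg Subtype.val ((eH H').apply_symm_apply a)
      · exact congrArg Subtype.val ((eH H').apply_symm_apply b))⟩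
    rwa [Nat.card_congr (eH H').toEquiv]

variable {p : ℕ} {K : IntermediateField ℚ QBar} [FiniteDimensional ℚ K] [Normal ℚ K]

/-- The class formation of the decomposition group on the local units. -/
theorem exists_decompFormation (q : Nat.Primes) [Fintype (decomp K q)]
    (h : Form.LocalFormationProperty p K q) :
    ∃ u : NormCocycle (decomp K q) (Additive (E K q)ˣ), IsClassFormation p u := by
  haveI : Fintype (E K q ≃ₐ[ℚ_[(q : ℕ)]] E K q) := Fintype.ofFinite _
  obtain ⟨u, hu⟩ := h
  exact isClassFormation_transport (decompEquiv K q).symm (fun _ _ => rfl) u hu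

end Fermat.Agent.CFT.Selmer
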