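import Fermat.Agent.CFT.TWPrimes.Cocycle
import Fermat.Agent.Arith.InertiaLift
import Fermat.Prelude.Def_GaloisRep_Residual

/-!
# The field cut out by a normal subgroup, and by a residual representation
-/

set_option autoImplicit false
set_option linter.unusedSectionVars false
set_option linter.style.haveILetI false

noncomputable section

namespace Fermat.Agent.CFT.Selmer

open Fermat.Agent.Arith Fermat.Agent.CFT IntermediateField

/-- The fixed field of a normal subgroup containing the fixing subgroup of a finite extension. -/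
theorem exists_fieldOf (N : Subgroup GQ) (hN : N.Normal) (L₀ : IntermediateField ℚ QBar)
    [FiniteDimensional ℚ L₀] (hL₀ : ∀ σ : GQ, (∀ x ∈ L₀, σ x = x) → σ ∈ N) :
    ∃ K : IntermediateField ℚ QBar, FiniteDimensional ℚ K ∧ Normal ℚ K ∧
      ∀ σ : GQ, (∀ x ∈ K, σ x = x) ↔ σ ∈ N := by
  haveI : Normal ℚ QBar := IsAlgClosure.normal ℚ QBar
  haveI : IsGalois ℚ QBar := ⟨⟩
  have hle : L₀.fixingSubgroup ≤ N := fun σ hσ =>
    hL₀ σ ((IntermediateField.mem_fixingSubgroup_iff L₀ σ).mp hσ)
  have hopen : IsOpen (N : Set GQ) := Subgroup.isOpen_mono hle L₀.fixingSubgroup_isOpen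
  have hclosed : IsClosed (N : Set GQ) := Subgroup.isClosed_of_isOpen N hopen
  have hfix : (IntermediateField.fixedField N).fixingSubgroup = N :=
    InfiniteGalois.fixingSubgroup_fixedField ⟨N, hclosed⟩
  have hKL : IntermediateField.fixedField N ≤ L₀ := fun x hx => by
    rw [← InfiniteGalois.fixedField_fixingSubgroup L₀, IntermediateField.mem_fixedField_iff]
    exact fun g hg => (IntermediateField.mem_fixedField_iff N x).mp hx g (hle hg)
  haveI : FiniteDimensional ℚ (IntermediateField.fixedField N) :=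
    FiniteDimensional.of_injective (IntermediateField.inclusion hKL).toLinearMap
      (IntermediateField.inclusion hKL).injective
  haveI : IsGalois ℚ (IntermediateField.fixedField N) :=
    (InfiniteGalois.normal_iff_isGalois _).mp (hfix.symm ▸ hN)
  refine ⟨IntermediateField.fixedField N, inferInstance, inferInstance, fun σ => ?_⟩
  rw [← IntermediateField.mem_fixingSubgroup_iff, hfix]

variable {k : Type} [Field k] (r : GQ →* Matrix (Fin 2) (Fin 2) k)

/-- The field cut out by a representation of finite level. -/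
theorem exists_kerField (hrfin : GaloisFactorsThroughFiniteLevel r) :
    ∃ K : IntermediateField ℚ QBar, FiniteDimensional ℚ K ∧ Normal ℚ K ∧
      ∀ σ : GQ, (∀ x ∈ K, σ x = x) ↔ r σ = 1 := by
  obtain ⟨L₀, hL, hL₀⟩ := hrfin
  let N : Subgroup GQ :=
    { carrier := {σ | r σ = 1}
      one_mem' := map_one r
      mul_mem' := fun {a b} ha hb => show r (a * b) = 1 by rw [map_mul, ha, hb, one_mul]
      inv_mem' := fun {a} ha => show r a⁻¹ = 1 by
        have h := TWPrimes.rinv_mul (r := r) a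
        rwa [show r a = 1 from ha, mul_one] at h }
  have hN : N.Normal := ⟨fun σ hσ g => show r (g * σ * g⁻¹) = 1 by
    rw [map_mul, map_mul, show r σ = 1 from hσ, mul_one, TWPrimes.mul_rinv]⟩
  exact exists_fieldOf N hN L₀ hL₀

variable {r} {K : IntermediateField ℚ QBar} [Normal ℚ K]

theorem map_eq_of_restrict_eq (hK : ∀ σ : GQ, (∀ x ∈ K, σ x = x) → r σ = 1) {σ τ : GQ}
    (h : AlgEquiv.restrictNormalHom K σ = AlgEquiv.restrictNormalHom K τ) : r σ = r τ := by
  have e : r (τ⁻¹ * σ) = 1 := hK _ fun x hx => by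
    have h1 := congrArg (fun g : K ≃ₐ[ℚ] K => ((g ⟨x, hx⟩ : K) : QBar)) h
    have e1 : ∀ g : GQ, ((AlgEquiv.restrictNormalHom K g ⟨x, hx⟩ : K) : QBar) = g x := fun g =>
      AlgEquiv.restrictNormal_commutes g K ⟨x, hx⟩
    simp only [e1] at h1
    rw [AlgEquiv.mul_apply, h1]
    exact τ.symm_apply_apply x
  calc r σ = r τ * r (τ⁻¹ * σ) := by rw [← map_mul, mul_inv_cancel_left]
    _ = r τ := by rw [e, mul_one]

theorem restrictK_surjective :
    Function.Surjective (AlgEquiv.restrictNormalHom K : GQ →* (K ≃ₐ[ℚ] K)) :=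
  AlgEquiv.restrictNormalHom_surjective QBar

theorem restrict_surjInv (g : K ≃ₐ[ℚ] K) :
    AlgEquiv.restrictNormalHom K (Function.surjInv restrictK_surjective g : GQ) = g :=
  Function.surjInv_eq restrictK_surjective g

/-- The representation of `Gal(K/ℚ)`. -/
def repK (hK : ∀ σ : GQ, (∀ x ∈ K, σ x = x) → r σ = 1) :
    (K ≃ₐ[ℚ] K) →* Matrix (Fin 2) (Fin 2) k where
  toFun g := r (Function.surjInv restrictK_surjective g)
  map_one' := by
    rw [← map_one r]
    exact map_eq_of_restrict_eq hK (by rw [restrict_surjInv, map_one])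
  map_mul' g h := by
    rw [← map_mul r]
    exact map_eq_of_restrict_eq hK (by
      rw [restrict_surjInv, map_mul, restrict_surjInv, restrict_surjInv])

theorem repK_restrict (hK : ∀ σ : GQ, (∀ x ∈ K, σ x = x) → r σ = 1) (σ : GQ) :
    repK hK (AlgEquiv.restrictNormalHom K σ) = r σ :=
  map_eq_of_restrict_eq hK (restrict_surjInv _)

theorem repK_inj (hK : ∀ σ : GQ, (∀ x ∈ K, σ x = x) ↔ r σ = 1) {g : K ≃ₐ[ℚ] K}
    (hg : repK (fun σ h => (hK σ).mp h) g = 1) : g = 1 := by
  obtain ⟨σ, rfl⟩ := restrictK_surjective g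
  rw [repK_restrict] at hg
  exact AlgEquiv.ext fun x => Subtype.ext
    ((AlgEquiv.restrictNormal_commutes σ K x).trans ((hK σ).mpr hg x x.2))

/-- The `p`-th roots of unity lie in the field cut out by a representation with cyclotomic
determinant. -/
theorem mem_of_cyclotomic {p : ℕ} [hp : Fact p.Prime] [CharP k p] [FiniteDimensional ℚ K]
    (hcyc : ∀ (σ : GQ) (a : ℕ), (∀ μ : QBar, μ ^ p = 1 → σ μ = μ ^ a) → (r σ).det = (a : k))
    (hK : ∀ σ : GQ, (∀ x ∈ K, σ x = x) → r σ = 1) {ζ : QBar} (hζ : IsPrimitiveRoot ζ p) :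
    ζ ∈ K := by
  haveI : Normal ℚ QBar := IsAlgClosure.normal ℚ QBar
  haveI : IsGalois ℚ QBar := ⟨⟩
  haveI : NeZero p := ⟨hp.out.ne_zero⟩
  rw [← InfiniteGalois.fixedField_fixingSubgroup K, IntermediateField.mem_fixedField_iff]
  intro σ hσ
  have h1 := hK σ ((IntermediateField.mem_fixingSubgroup_iff K σ).mp hσ)
  have hpow : σ ζ ^ p = 1 := by rw [← map_pow, hζ.pow_eq_one, map_one]
  obtain ⟨a, ha, he⟩ := hζ.eq_pow_of_pow_eq_one hpow
  have hd := hcyc σ a fun μ hμ => by
    obtain ⟨i, -, rfl⟩ := hζ.eq_pow_of_pow_eq_one hμ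
    rw [map_pow, ← he, pow_right_comm]
  rw [h1, Matrix.det_one, ← Nat.cast_one] at hd
  have h1p : (1 : ℕ) ≡ a [MOD p] := (CharP.natCast_eq_natCast k p).mp hd
  have hmod : a % p = 1 := by
    rw [← h1p, Nat.one_mod_eq_one]
    exact hp.out.ne_one
  rw [← he, pow_eq_pow_mod a hζ.pow_eq_one, hmod, pow_one]

end Fermat.Agent.CFT.Selmer
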