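import Fermat.Agent.CFT.Selmer.Kummer
import Fermat.Agent.CFT.Tangent.LocalPlace

/-!
# Kummer cocycles of locally trivial families

If a family on the relations extends equivariantly to the lattice at `q`, its Kummer cocycle is a
coboundary on the decomposition group at `q`, so its trace function vanishes at Frobenius.
-/

set_option autoImplicit false
set_option synthInstance.maxHeartbeats 200000
set_option maxHeartbeats 1000000
set_option linter.unusedSectionVars false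
set_option linter.style.haveILetI false

noncomputable section

namespace Fermat.Agent.CFT.Selmer

open ExtCitation Fermat.Agent.Arith IntermediateField Fermat.Agent.CFT.Local Fermat.Agent.CFT.Idele
open Fermat.Agent.CFT.Duality Fermat.Agent.CFT.Euler

local instance factPrimeKL (q : Nat.Primes) : Fact (q : ℕ).Prime := ⟨q.2⟩

/-- `ℚ̄ˣ` in the units of the algebraic closure of `ℚ_q`. -/
def embQ (q : Nat.Primes) : Additive QBarˣ →+ Additive (PadicAlgCl (q : ℕ))ˣ :=
  MonoidHom.toAdditive (Units.map (padicEmbedding (q : ℕ)).toRingHom.toMonoidHom)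

theorem embQ_val (q : Nat.Primes) (x : Additive QBarˣ) :
    (((embQ q x).toMul : (PadicAlgCl (q : ℕ))ˣ) : PadicAlgCl (q : ℕ)) =
      padicEmbedding (q : ℕ) ((x.toMul : QBarˣ) : QBar) := rfl

theorem embQ_injective (q : Nat.Primes) : Function.Injective (embQ q) := fun x y h =>
  Additive.toMul.injective (Units.ext ((padicEmbedding (q : ℕ)).toRingHom.injective
    (congrArg (fun z : Additive (PadicAlgCl (q : ℕ))ˣ => ((z.toMul : (PadicAlgCl (q : ℕ))ˣ) :
      PadicAlgCl (q : ℕ))) h)))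

theorem embQ_smul (q : Nat.Primes)
    (τ : PadicAlgCl (q : ℕ) ≃ₐ[ℚ_[(q : ℕ)]] PadicAlgCl (q : ℕ)) (x : Additive QBarˣ) :
    embQ q (localGaloisToGlobal (q : ℕ) τ • x) = τ • embQ q x :=
  Additive.toMul.injective (Units.ext (padicEmbedding_localGaloisToGlobal (q : ℕ) τ _))

variable {K : IntermediateField ℚ QBar} [FiniteDimensional ℚ K] [Normal ℚ K]

/-- The completion in the algebraic closure of `ℚ_q`. -/
def inclE (q : Nat.Primes) : Additive (E K q)ˣ →+ Additive (PadicAlgCl (q : ℕ))ˣ :=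
  MonoidHom.toAdditive (Units.map (E K q).val.toRingHom.toMonoidHom)

theorem inclE_val (q : Nat.Primes) (y : Additive (E K q)ˣ) :
    (((inclE q y).toMul : (PadicAlgCl (q : ℕ))ˣ) : PadicAlgCl (q : ℕ)) =
      (((y.toMul : (E K q)ˣ) : E K q) : PadicAlgCl (q : ℕ)) := rfl

theorem inclE_smul (q : Nat.Primes)
    (τ : PadicAlgCl (q : ℕ) ≃ₐ[ℚ_[(q : ℕ)]] PadicAlgCl (q : ℕ)) (y : Additive (E K q)ˣ) :
    inclE q (AlgEquiv.restrictNormalHom (E K q) τ • y) = τ • inclE q y :=
  Additive.toMul.injective (Units.ext (AlgEquiv.restrictNormal_commutes τ (E K q) _))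

theorem inclE_locK (q : Nat.Primes) (x : Additive Kˣ) :
    inclE q (Additive.ofMul (val (diag K x).toMul q 1)) = embQ q (toQ K x) := by
  refine Additive.toMul.injective (Units.ext ?_)
  rw [inclE_val, embQ_val, toQ_val]
  show (((val (prinL K x.toMul) q 1 : (E K q)ˣ) : E K q) : PadicAlgCl (q : ℕ)) = _
  rw [val_prinL, coe_localEmb, AlgEquiv.one_apply]

variable {p : ℕ} [hp : Fact p.Prime] {k : Type} [Field k] [Finite k] [CharP k p]
  {r : GQ →* Matrix (Fin 2) (Fin 2) k}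

local notation "M₂" => Matrix (Fin 2) (Fin 2) k

/-- Cocycles take equal values at elements which agree on their level. -/
theorem cocycle_congr {b : GQ → M₂} (hb : TWPrimes.IsCocycle r b) {σ g : GQ}
    (h0 : b (g⁻¹ * σ) = 0) : b σ = b g := by
  rw [← mul_inv_cancel_left g σ, hb.map_mul, h0, map_zero, zero_add]

/-- A Frobenius at the chosen place over `q` is local at every finite level. -/
theorem exists_local_agree (q : Nat.Primes) (L : IntermediateField ℚ QBar) [Normal ℚ L]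
    [FiniteDimensional ℚ L] {σ : GQ} (hσ : σ ∈ (padicPlace (q : ℕ)).decompositionSubgroup ℚ) :
    ∃ τ : PadicAlgCl (q : ℕ) ≃ₐ[ℚ_[(q : ℕ)]] PadicAlgCl (q : ℕ),
      ∀ x ∈ L, σ x = localGaloisToGlobal (q : ℕ) τ x := by
  have hcomm : ∀ (g : GQ) (x : L),
      ((AlgEquiv.restrictNormalHom L g x : L) : QBar) = g (x : QBar) :=
    fun g x => AlgEquiv.restrictNormal_commutes g L x
  obtain ⟨t, ht⟩ := (Local.mem_range_toGlobal_iff (q : ℕ) L (AlgEquiv.restrictNormalHom L σ)).mpr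
    fun x hx => by rw [hcomm]; exact map_mem_of_mem_decomposition hσ hx
  refine ⟨t.liftNormal (PadicAlgCl (q : ℕ)), fun x hx => ?_⟩
  rw [← hcomm σ ⟨x, hx⟩, ← hcomm _ ⟨x, hx⟩, ← ht]
  rfl

variable {hK : ∀ σ : GQ, (∀ x ∈ K, σ x = x) → r σ = 1} {ι : Type} [Fintype ι]
  {ε : Lat (K ≃ₐ[ℚ] K) ι →+ AdMod (repK hK)} (hε : Presentation p ε)
  {ζ : QBar} (hζ : IsPrimitiveRoot ζ p) (l : k →+ ZMod p)

include hε in
/-- **The Kummer cocycle of a locally trivial family is locally a coboundary.** -/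
theorem exists_local_cobd (hl : l 1 = 1) (h2 : (2 : k) ≠ 0)
    (hcyc : ∀ (σ : GQ) (a : ℕ), (∀ μ : QBar, μ ^ p = 1 → σ μ = μ ^ a) → (r σ).det = (a : k))
    (q : Nat.Primes) (h : ε.ker →+ Additive Kˣ)
    (e : Lat (K ≃ₐ[ℚ] K) ι →+ Additive QBarˣ) (he : ∀ s : ε.ker, e s = toQ K (h s))
    (b : GQ → M₂) (htr : ∀ σ, (b σ).trace = 0)
    (hb : ∀ σ x, defect e σ x = nu ε hζ l (b σ) x)
    (y : Lat (K ≃ₐ[ℚ] K) ι →+ Additive (E K q)ˣ)
    (hy : ∀ (d : decomp K q) x, y ((d : K ≃ₐ[ℚ] K) • x) = d • y x)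
    (hys : ∀ s : ε.ker, y s = Additive.ofMul (val (diag K (h s)).toMul q 1)) :
    ∃ Y : M₂, Y.trace = 0 ∧ ∀ τ : PadicAlgCl (q : ℕ) ≃ₐ[ℚ_[(q : ℕ)]] PadicAlgCl (q : ℕ),
      b (localGaloisToGlobal (q : ℕ) τ) = TWPrimes.cobd r Y (localGaloisToGlobal (q : ℕ) τ) := by
  classical
  haveI : NeZero p := ⟨hp.out.ne_zero⟩
  let D0 : Lat (K ≃ₐ[ℚ] K) ι →+ Additive (PadicAlgCl (q : ℕ))ˣ :=
    (embQ q).comp e - (inclE q).comp y
  have hker : ∀ s : ε.ker, D0 s = 0 := fun s => by
    show embQ q (e s) - inclE q (y s) = 0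
    rw [he, hys, inclE_locK, sub_self]
  have hk : ∀ x, p • D0 x = 0 := fun x => by
    rw [← map_nsmul]
    exact hker ⟨_, hε.smul_mem x⟩
  have hroot : ∀ x, ∃ i : ZMod p, embQ q (zhom hζ i) = D0 x := fun x => by
    have hζ' : IsPrimitiveRoot (padicEmbedding (q : ℕ) ζ) p :=
      hζ.map_of_injective (padicEmbedding (q : ℕ)).toRingHom.injective
    have h1 : (((D0 x).toMul : (PadicAlgCl (q : ℕ))ˣ) : PadicAlgCl (q : ℕ)) ^ p = 1 := by
      rw [← Units.val_pow_eq_pow_val, ← toMul_nsmul, hk]; rfl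
    obtain ⟨n, -, hn⟩ := hζ'.eq_pow_of_pow_eq_one h1
    refine ⟨(n : ZMod p), Additive.toMul.injective (Units.ext ?_)⟩
    rw [embQ_val, zhom_natCast, map_pow, hn]
  choose i hi using hroot
  have hinj : ∀ {u v : ZMod p}, embQ q (zhom hζ u) = embQ q (zhom hζ v) → u = v :=
    fun e' => zhom_injective hζ (embQ_injective q e')
  let iH : Lat (K ≃ₐ[ℚ] K) ι →+ ZMod p :=
    AddMonoidHom.mk' i fun x x' => hinj (by rw [hi, map_add, map_add, map_add, hi, hi])
  have hle : ε.ker ≤ iH.ker := fun x hx => hinj (by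
    show embQ q (zhom hζ (i x)) = embQ q (zhom hζ 0)
    rw [hi, map_zero, map_zero]
    exact hker ⟨x, hx⟩)
  let ψ : AdMod (repK hK) →+ ZMod p :=
    AddMonoidHom.liftOfSurjective ε hε.surjective ⟨iH, hle⟩
  obtain ⟨Y, hY⟩ := (AdMod.pairing_bijective (r := repK hK) hl h2).2 ψ
  have hsplit : ∀ x, embQ q (e x) = inclE q (y x) + embQ q (nu ε hζ l Y.1 x) := fun x => by
    rw [nu_apply, show AdMod.pairing (repK hK) l Y.1 = ψ from hY,
      show ψ (ε x) = iH x from
        AddMonoidHom.liftOfRightInverse_comp_apply ε _ _ ⟨iH, hle⟩ x,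
      show embQ q (zhom hζ (iH x)) = D0 x from hi x]
    exact (add_sub_cancel _ _).symm
  refine ⟨Y.1, mem_tr0.mp Y.2, fun τ => ?_⟩
  set g := localGaloisToGlobal (q : ℕ) τ with hg
  set t := AlgEquiv.restrictNormalHom (E K q) τ with ht
  have hd : AlgEquiv.restrictNormalHom K g = toGlobal (q : ℕ) K t :=
    (toGlobal_restrict (q : ℕ) K τ).symm
  refine sub_eq_zero.mp (nu_injective hε hζ l hl h2 ?_ fun x => ?_)
  · rw [Matrix.trace_sub, htr, TWPrimes.cobd, Matrix.trace_sub, TWPrimes.trace_ad,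
      mem_tr0.mp Y.2, mul_zero, sub_zero, sub_zero]
  rw [nu_sub, ← hb, ← defect_nu hε hζ l hcyc, sub_eq_zero]
  refine embQ_injective q ?_
  have hy' : y ((AlgEquiv.restrictNormalHom K g)⁻¹ • x) = t⁻¹ • y x := by
    have e1 := hy (decompEquiv K q t⁻¹) x
    rw [coe_decompEquiv, decomp_smul_def, MulEquiv.symm_apply_apply, map_inv, ← hd] at e1
    exact e1
  have hlocal : τ • inclE q (y ((AlgEquiv.restrictNormalHom K g)⁻¹ • x)) = inclE q (y x) := by
    rw [hy', ← inclE_smul, ← ht, smul_inv_smul]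
  simp only [defect_apply, map_sub, hg, embQ_smul]
  rw [← hg, hsplit, hsplit, smul_add, hlocal]
  abel

end Fermat.Agent.CFT.Selmer
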