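import Fermat.Agent.CFT.Selmer.Finiteness

/-!
# The character of the `T`-units
-/

set_option autoImplicit false
set_option synthInstance.maxHeartbeats 200000
set_option maxHeartbeats 1000000
set_option linter.unusedSectionVars false
set_option linter.style.haveILetI false

noncomputable section

namespace Fermat.Agent.CFT.Selmer

open ExtCitation Fermat.Agent.Arith IntermediateField Fermat.Agent.CFT.Local Fermat.Agent.CFT.Idele
open Fermat.Agent.CFT.Duality Fermat.Agent.CFT.Euler NumberField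

local instance factPrimeUC (q : Nat.Primes) : Fact (q : ℕ).Prime := ⟨q.2⟩

variable {p : ℕ} [hp : Fact p.Prime] {K : IntermediateField ℚ QBar} [FiniteDimensional ℚ K]
  [Normal ℚ K]

/-- Decomposition groups are finite. -/
instance decompFintype (q : Nat.Primes) : Fintype (decomp K q) := Fintype.ofFinite _

theorem ordZ_one_self {q : Nat.Primes} : Local.ordZ (E K q) 1 = 0 := Local.ordZ_one _

theorem exists_ordT_eq_single (T : Finset Nat.Primes) (q : ↥T) :
    ∃ m : ℤ, m ≠ 0 ∧ ∃ x : tUnits K T,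
      ordT K T x = m • Pi.single q (CoInd.single (TrivZ.of 1)) := by
  classical
  haveI := finite_classes_mod_units (L := K)
  obtain ⟨π, hπ⟩ := Local.ord_surjective (E K (q : Nat.Primes)) (Multiplicative.ofAdd 1)
  set f := locIdl (L := K) (q : Nat.Primes) π with hf
  set m := orderOf (QuotientGroup.mk f : idl K ⧸ (unitIdl K ⊔ (prinL K).range)) with hm
  have hm0 : 0 < m := by
    rw [hm]; exact orderOf_pos (G := idl K ⧸ (unitIdl K ⊔ (prinL K).range)) _
  have hfm : f ^ m ∈ unitIdl K ⊔ (prinL K).range := by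
    rw [← QuotientGroup.eq_one_iff, QuotientGroup.mk_pow, pow_orderOf_eq_one]
  obtain ⟨u, hu, _, ⟨a, rfl⟩, hua⟩ := Subgroup.mem_sup.mp hfm
  have hord : ∀ (q' : Nat.Primes) (σ : K ≃ₐ[ℚ] K),
      Local.ordZ (E K q') (val (prinL K a) q' σ) = m * Local.ordZ (E K q') (val f q' σ) := by
    intro q' σ
    have e := congrArg (fun y => Local.ordZ (E K q') (valHom q' σ y)) hua
    simp only [map_mul, map_pow, Local.ordZ_mul, Local.ordZ_pow] at e
    have h0 : Local.ordZ (E K q') (valHom q' σ u) = 0 :=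
      congrArg Multiplicative.toAdd ((Local.ord_eq_one_iff _).mpr (hu q' σ))
    rw [h0, zero_add] at e
    exact e
  have hne : ∀ (q' : Nat.Primes) (σ : K ≃ₐ[ℚ] K), q' ≠ q →
      Local.ordZ (E K q') (val f q' σ) = 0 := fun q' σ h => by
    rw [hf, val_locIdl_of_ne _ _ h]; exact ordZ_one_self
  refine ⟨m, Int.natCast_ne_zero.mpr hm0.ne', ⟨Additive.ofMul a, fun q' hq' g => ?_⟩, ?_⟩
  · rw [← PT.norm_val_eq, ← Local.mem_unitGroup, ← Local.ord_eq_one_iff]
    refine Multiplicative.toAdd.injective ?_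
    show Local.ordZ (E K q') (val (prinL K a) q' _) = 0
    rw [hord, hne q' _ (fun e => hq' (e ▸ q.2)), mul_zero]
  · funext q'
    refine CoInd.ext fun σ => ?_
    rw [ordT_apply, fn_ordAt, Pi.smul_apply, map_zsmul, Pi.smul_apply]
    show TrivZ.of (Local.ordZ (E K q') (val (prinL K a) q' σ)) = _
    rw [hord]
    rcases eq_or_ne q' q with rfl | hq
    · rw [Pi.single_eq_same]
      by_cases hσ : σ ∈ decomp K q'
      · obtain ⟨t, rfl⟩ := hσ
        rw [CoInd.fn_single_mem (H := decomp K (q' : Nat.Primes)) _ (MonoidHom.mem_range.mpr ⟨t, rfl⟩), TrivZ.smul_eq, hf, val_locIdl_self,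
          show Local.ordZ (E K (q' : Nat.Primes)) (t • π) = 1 from
            (congrArg Multiplicative.toAdd (ord_smul_unit t π)).trans
              ((congrArg Multiplicative.toAdd hπ).trans (toAdd_ofAdd _)),
          ← map_zsmul, smul_eq_mul]
      · rw [CoInd.fn_single_notMem _ hσ, hf, val_locIdl_of_notMem _ _ hσ, ordZ_one_self, mul_zero,
          map_zero, zsmul_zero]
    · rw [Pi.single_eq_of_ne hq, hne _ σ (fun e => hq (Subtype.ext e)), mul_zero, map_zero]
      simp

theorem index_range_ordT_ne_zero (T : Finset Nat.Primes) : (ordT K T).range.index ≠ 0 := by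
  classical
  choose m hm x hx using exists_ordT_eq_single (K := K) T
  set M : ℤ := ∏ q, m q
  have hM : M ≠ 0 := Finset.prod_ne_zero_iff.mpr fun q _ => hm q
  have hsingle : ∀ (q : ↥T) (F : CoInd (decomp K q) (TrivZ (decomp K q))),
      m q • Pi.single q F ∈ (ordT K T).range := by
    intro q F
    letI : Fintype ((K ≃ₐ[ℚ] K) ⧸ decomp K q) := Fintype.ofFinite _
    rw [CoInd.eq_sum F,
      show (Pi.single q (∑ r : (K ≃ₐ[ℚ] K) ⧸ decomp K q, r.out • CoInd.single (CoInd.fn F r.out⁻¹))
          : ∀ q' : ↥T, CoInd (decomp K q') (TrivZ (decomp K q'))) =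
        ∑ r : (K ≃ₐ[ℚ] K) ⧸ decomp K q,
          Pi.single q (r.out • CoInd.single (CoInd.fn F r.out⁻¹)) from
        map_sum (AddMonoidHom.single (fun q' : ↥T => CoInd (decomp K q') (TrivZ (decomp K q'))) q)
          _ _,
      show m q • ∑ r : (K ≃ₐ[ℚ] K) ⧸ decomp K q,
          (Pi.single q (r.out • CoInd.single (CoInd.fn F r.out⁻¹)) :
            ∀ q' : ↥T, CoInd (decomp K q') (TrivZ (decomp K q'))) = _ from
        map_sum (zsmulAddGroupHom (m q) : (∀ q' : ↥T, CoInd (decomp K q') (TrivZ (decomp K q'))) →+ _)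
          _ _]
    refine sum_mem fun r _ => ?_
    set n := TrivZ.of.symm (CoInd.fn F r.out⁻¹)
    refine ⟨n • (r.out • x q), ?_⟩
    rw [map_zsmul, ordT_smul, hx]
    show _ = m q • (Pi.single q (r.out • CoInd.single (CoInd.fn F r.out⁻¹)) :
      ∀ q' : ↥T, CoInd (decomp K q') (TrivZ (decomp K q')))
    funext q'
    simp only [Pi.smul_apply]
    rcases eq_or_ne q' q with rfl | hq
    · rw [Pi.single_eq_same, Pi.single_eq_same, smul_comm r.out (m q'), smul_comm n (m q'),
        smul_comm n r.out, ← map_zsmul CoInd.single, ← map_zsmul TrivZ.of, smul_eq_mul, mul_one,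
        AddEquiv.apply_symm_apply]
    · rw [Pi.single_eq_of_ne hq, Pi.single_eq_of_ne hq, zsmul_zero, smul_zero, zsmul_zero]
  have hall : ∀ F : ∀ q : ↥T, CoInd (decomp K q) (TrivZ (decomp K q)), M • F ∈ (ordT K T).range := by
    intro F
    rw [← Finset.univ_sum_single F, show M • ∑ q, (Pi.single q (F q) :
        ∀ q' : ↥T, CoInd (decomp K q') (TrivZ (decomp K q'))) = _ from
      map_sum (zsmulAddGroupHom M : (∀ q' : ↥T, CoInd (decomp K q') (TrivZ (decomp K q'))) →+ _) _ _]
    refine sum_mem fun q _ => ?_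
    obtain ⟨d, hd⟩ := Finset.dvd_prod_of_mem m (Finset.mem_univ q)
    show M • (Pi.single q (F q) : ∀ q' : ↥T, CoInd (decomp K q') (TrivZ (decomp K q'))) ∈ _
    rw [show M = d * m q from hd.trans (mul_comm _ _), mul_smul]
    exact zsmul_mem (hsingle q (F q)) d
  haveI : ∀ q : ↥T, Module.Finite ℤ (CoInd (decomp K q) (TrivZ (decomp K q))) := fun q =>
    finite_coInd_trivZ K _
  haveI : Finite ((∀ q : ↥T, CoInd (decomp K q) (TrivZ (decomp K q))) ⧸
      AddSubgroup.toIntSubmodule (ordT K T).range) := by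
    refine Module.finite_of_fg_torsion _ fun y => ⟨⟨M, mem_nonZeroDivisors_of_ne_zero hM⟩, ?_⟩
    induction y using Submodule.Quotient.induction_on with
    | H F =>
      show M • Submodule.Quotient.mk F = (0 : (∀ q : ↥T, CoInd (decomp K q) (TrivZ (decomp K q))) ⧸
        AddSubgroup.toIntSubmodule (ordT K T).range)
      rw [← Submodule.Quotient.mk_smul, Submodule.Quotient.mk_eq_zero]
      exact hall F
  show Nat.card (_ ⧸ (ordT K T).range) ≠ 0
  exact (Nat.card_pos (α := (∀ q : ↥T, CoInd (decomp K q) (TrivZ (decomp K q))) ⧸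
    AddSubgroup.toIntSubmodule (ordT K T).range)).ne'

/-- **The character of the `T`-units**, with a complex conjugation `g`. -/
theorem exists_unitChar (hp2 : p ≠ 2) {ζ : K} (hζ : IsPrimitiveRoot ζ p)
    (T : Finset Nat.Primes) :
    ∃ (c : Subgroup (K ≃ₐ[ℚ] K)) (g : K ≃ₐ[ℚ] K) (_ : Fintype c),
      g ∈ c ∧ (∀ h ∈ c, h = 1 ∨ h = g) ∧ g * g = 1 ∧ Nat.card c = 2 ∧
      (∀ z : K, z ^ p = 1 → g z = z ^ (p - 1)) ∧
      UnitChar p (fun q : ↥T => decomp K q) c (tUnits K T) := by
  haveI := numberFieldK K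
  haveI : IsGalois ℚ K := ⟨⟩
  have h2p : 2 < p := lt_of_le_of_ne hp.out.two_le hp2.symm
  have hF : ∀ w : InfinitePlace K, w.IsComplex := fun w => by
    rw [← InfinitePlace.not_isReal_iff_isComplex]
    intro hw
    classical
    have h0 := NumberField.InfinitePlace.IsPrimitiveRoot.nrRealPlaces_eq_zero_of_two_lt h2p hζ
    rw [InfinitePlace.nrRealPlaces, Fintype.card_eq_zero_iff] at h0
    exact h0.false ⟨w, hw⟩
  obtain ⟨c, g, φ, u, _, hgc, hgg, hc, hgφ, hcard, hmem, hker, hidx⟩ := exists_minkowski hF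
  refine ⟨c, g, inferInstance, hgc, hc, hgg, hcard, fun z hz => φ.injective ?_, ?_⟩
  · rw [hgφ.eq, map_pow]
    have hp1 : (φ z) ^ p = 1 := by rw [← map_pow, hz, map_one]
    have hn : ‖φ z‖ = 1 := Complex.norm_eq_one_of_pow_eq_one hp1 hp.out.ne_zero
    show (starRingEnd ℂ) (φ z) = _
    rw [← Complex.inv_eq_conj hn]
    refine inv_eq_of_mul_eq_one_right ?_
    rw [← pow_succ', Nat.sub_add_cancel hp.out.one_le, hp1]
  let Φ : CoInd c (TrivZ c) →+ tUnits K T :=
    (conjMap c u).codRestrict (tUnits K T) fun f => mem_tUnits_of_mem_range K T (hmem f)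
  refine unitChar_of_maps _ c (modPFinite_tUnits K T) (ordT K T) (ordT_smul K T)
    (index_range_ordT_ne_zero T) Φ (fun x f => Subtype.ext (conjMap_smul c u x f)) ?_
    (fun f => (ordT_eq_zero_iff K T _).mpr (hmem f)) ?_
  · rw [← hker]
    ext f
    exact ⟨fun h => congrArg Subtype.val h, fun h => Subtype.ext h⟩
  · rw [← AddSubgroup.relIndex_map_map_of_injective _ _ (f := (tUnits K T).subtype)
      Subtype.val_injective]
    have h1 : Φ.range.map (tUnits K T).subtype = (conjMap c u).range := by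
      rw [AddMonoidHom.map_range]
      rfl
    have h2 : (ordT K T).ker.map (tUnits K T).subtype = (unitsIncF K).range := by
      ext y
      constructor
      · rintro ⟨x, hx, rfl⟩
        exact (ordT_eq_zero_iff K T x).mp hx
      · intro hy
        exact ⟨⟨y, mem_tUnits_of_mem_range K T hy⟩, (ordT_eq_zero_iff K T _).mpr hy, rfl⟩
    rw [h1, h2]
    exact hidx

end Fermat.Agent.CFT.Selmer
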