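import Fermat.Agent.CFT.Selmer.LocalExt
import Fermat.Agent.CFT.Selmer.KData
import Fermat.Agent.CFT.Tangent.LocalBasic
import Fermat.Agent.CFT.Idele.Decomp
import Fermat.Agent.CFT.Selmer.KummerLocal
import Fermat.Agent.CFT.Selmer.UnitCharK

/-!
# Sizes of local groups: invariants, and the decomposition group at a Taylor–Wiles prime
-/

set_option autoImplicit false
set_option synthInstance.maxHeartbeats 200000
set_option maxHeartbeats 1000000
set_option linter.unusedSectionVars false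
set_option linter.style.haveILetI false

noncomputable section

namespace Fermat.Agent.CFT.Selmer

open ExtCitation Fermat.Agent.Arith IntermediateField Fermat.Agent.CFT.Local Fermat.Agent.CFT.Idele
open Fermat.Agent.CFT.Duality Fermat.Agent.CFT.Euler Fermat.Agent.CFT.Tangent

local instance factPrimeTW (q : Nat.Primes) : Fact (q : ℕ).Prime := ⟨q.2⟩

variable {p : ℕ} [hp : Fact p.Prime] {k : Type} [Field k] [Finite k] [CharP k p]

theorem exists_card_eq_pow {M : Type*} [AddCommGroup M] [Finite M] (hM : ∀ x : M, p • x = 0) :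
    ∃ n : ℕ, Nat.card M = p ^ n := by
  letI : Module (ZMod p) M := AddCommGroup.zmodModule hM
  exact ⟨Module.finrank (ZMod p) M, by
    rw [Module.natCard_eq_pow_finrank (K := ZMod p) (V := M), Nat.card_zmod]⟩

theorem lpN_le_of_card_le {M : Type*} [AddCommGroup M] [Finite M] (hM : ∀ x : M, p • x = 0)
    {N : Type*} [AddCommGroup N] [Finite N] (hN : ∀ x : N, p • x = 0)
    (h : Nat.card M ≤ Nat.card N) : lpN p (Nat.card M) ≤ lpN p (Nat.card N) := by
  obtain ⟨a, ha⟩ := exists_card_eq_pow (p := p) hM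
  obtain ⟨b, hb⟩ := exists_card_eq_pow (p := p) hN
  rw [ha, hb, lpN_pow, lpN_pow]
  rw [ha, hb] at h
  exact_mod_cast (Nat.pow_le_pow_iff_right hp.out.one_lt).mp h

theorem nsmul_k_eq_zero (x : k) : p • x = 0 := by
  rw [nsmul_eq_mul, CharP.cast_eq_zero, zero_mul]

theorem nsmul_kMod_eq_zero (k : Type) [Field k] [CharP k p] {M : Type*} [AddCommGroup M]
    [Module k M] (x : M) : p • x = 0 := by
  rw [← Nat.cast_smul_eq_nsmul k, CharP.cast_eq_zero, zero_smul]

theorem lpN_card_eq_finrank {M : Type} [AddCommGroup M] [Module k M] [Module.Finite k M] :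
    lpN p (Nat.card M) = Module.finrank k M * lpN p (Nat.card k) := by
  rw [Module.natCard_eq_pow_finrank (K := k) (V := M)]
  obtain ⟨a, ha⟩ := exists_card_eq_pow (p := p) (M := k) nsmul_k_eq_zero
  rw [ha, ← pow_mul, lpN_pow, lpN_pow]
  push_cast
  ring

theorem lpN_card_pos : 0 < lpN p (Nat.card k) := by
  obtain ⟨a, ha⟩ := exists_card_eq_pow (p := p) (M := k) nsmul_k_eq_zero
  rw [ha, lpN_pow]
  rcases Nat.eq_zero_or_pos a with rfl | h
  · have h1 := Finite.one_lt_card (α := k)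
    rw [ha, pow_zero] at h1
    exact absurd h1 (lt_irrefl 1)
  · exact_mod_cast h

variable {r : GQ →* Matrix (Fin 2) (Fin 2) k}
  {K : IntermediateField ℚ QBar} [FiniteDimensional ℚ K] [Normal ℚ K]
  {hK : ∀ σ : GQ, (∀ x ∈ K, σ x = x) → r σ = 1}

local notation "M₂" => Matrix (Fin 2) (Fin 2) k

/-- The invariants of the decomposition group contain those of the decomposition subgroup. -/
theorem finrank_fixedOn_le (q : Nat.Primes) :
    Module.finrank k (fixedOn r ((padicPlace (q : ℕ)).decompositionSubgroup ℚ)) *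
        lpN p (Nat.card k) ≤
      lpN p (Nat.card (fixPts (decomp K q) (AdMod (repK hK)))) := by
  rw [← lpN_card_eq_finrank]
  refine lpN_le_of_card_le (fun x => nsmul_kMod_eq_zero k x)
    (fun x => Subtype.ext (AdMod.nsmul_eq_zero (p := p) x.1)) ?_
  refine AdMod.card_le_fixPts (r := repK hK) (decomp K q) _ fun X hX => ⟨hX.1, ?_⟩
  rintro g ⟨t, rfl⟩
  set σ := localGaloisToGlobal (q : ℕ) (t.liftNormal (PadicAlgCl (q : ℕ)))
  have e : AlgEquiv.restrictNormalHom K σ = toGlobal (q : ℕ) K t := rfl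
  rw [← e, ← map_inv, repK_restrict, repK_restrict]
  exact hX.2 σ (localGaloisToGlobal_mem_decompositionSubgroup _ _)

omit [Finite k] [CharP k p] hp in
/-- Powers of a matrix with distinct eigenvalues. -/
theorem pow_smul_sub (M : M₂) {α β : k} (ht : M.trace = α + β) (hd : M.det = α * β) (n : ℕ) :
    (α - β) • M ^ n = α ^ n • (M - β • 1) - β ^ n • (M - α • 1) := by
  have hMM : M * M = (α + β) • M - (α * β) • (1 : M₂) := by
    rw [TWPrimes.mul_self_eq, ht, hd]
  induction n with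
  | zero =>
    rw [pow_zero, pow_zero, pow_zero]
    module
  | succ n ih =>
    rw [pow_succ M n, ← smul_mul_assoc, ih, sub_mul, smul_mul_assoc, smul_mul_assoc, sub_mul,
      sub_mul, hMM, smul_mul_assoc, smul_mul_assoc, one_mul, pow_succ, pow_succ]
    module

/-- A semisimple element of `GL₂(k)` with distinct eigenvalues in `k` has order prime to `p`. -/
theorem exists_pow_eq_one (M : M₂) {α β : k} (ht : M.trace = α + β) (hd : M.det = α * β)
    (hne : α ≠ β) (hd1 : M.det = 1) : ∃ m : ℕ, 0 < m ∧ Nat.Coprime p m ∧ M ^ m = 1 := by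
  haveI := Fintype.ofFinite k
  have hα : α ≠ 0 := fun h0 => by rw [hd, h0, zero_mul] at hd1; exact zero_ne_one hd1
  have hβ : β ≠ 0 := fun h0 => by rw [hd, h0, mul_zero] at hd1; exact zero_ne_one hd1
  have hcard : 1 < Fintype.card k := Fintype.one_lt_card
  refine ⟨Fintype.card k - 1, Nat.sub_pos_of_lt hcard, ?_, ?_⟩
  · refine (Nat.Prime.coprime_iff_not_dvd hp.out).mpr fun hdvd => ?_
    have h2 : ((Fintype.card k - 1 : ℕ) : k) = 0 := (CharP.cast_eq_zero_iff k p _).mpr hdvd
    rw [Nat.cast_sub hcard.le, FiniteField.cast_card_eq_zero, zero_sub, Nat.cast_one,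
      neg_eq_zero] at h2
    exact one_ne_zero h2
  · refine smul_right_injective M₂ (sub_ne_zero.mpr hne) ?_
    simp only
    rw [pow_smul_sub M ht hd, FiniteField.pow_card_sub_one_eq_one α hα,
      FiniteField.pow_card_sub_one_eq_one β hβ]
    module

/-- The decomposition group at an unramified prime is generated by Frobenius. -/
theorem decomp_le_zpowers (hKiff : ∀ σ : GQ, (∀ x ∈ K, σ x = x) ↔ r σ = 1) (q : Nat.Primes)
    (hin : ∀ τ ∈ (padicPlace (q : ℕ)).inertiaSubgroupIn ℚ, r τ = 1)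
    {φ : GQ} (hφ : (padicPlace (q : ℕ)).IsFrobeniusAt φ (q : ℕ)) :
    decomp K q ≤ Subgroup.zpowers (AlgEquiv.restrictNormalHom K φ) := by
  have hin' : ∀ τ ∈ (padicPlace (q : ℕ)).inertiaSubgroupIn ℚ, ∀ x : K,
      τ (x : QBar) = (x : QBar) := fun τ hτ x => (hKiff τ).mpr (hin τ hτ) x x.2
  rintro _ ⟨t, rfl⟩
  obtain ⟨i, hi⟩ := exists_pow_restrict_eq K hin' hφ (t.liftNormal (PadicAlgCl (q : ℕ)))
  exact ⟨(i : ℤ), (zpow_natCast _ i).trans hi.symm⟩

theorem restrict_mem_decomp (q : Nat.Primes) {φ : GQ}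
    (hφ : (padicPlace (q : ℕ)).IsFrobeniusAt φ (q : ℕ)) :
    AlgEquiv.restrictNormalHom K φ ∈ decomp K q := by
  obtain ⟨τ, hτ⟩ := exists_local_agree q K hφ.1
  refine ⟨AlgEquiv.restrictNormalHom (E K q) τ, ?_⟩
  rw [toGlobal_restrict]
  exact AlgEquiv.ext fun x => Subtype.ext (((AlgEquiv.restrictNormal_commutes _ K x).trans
    (hτ x x.2).symm).trans (AlgEquiv.restrictNormal_commutes φ K x).symm)

/-- The order of the decomposition group is prime to `p`. -/
theorem coprime_card_decomp (hKiff : ∀ σ : GQ, (∀ x ∈ K, σ x = x) ↔ r σ = 1) (q : Nat.Primes)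
    (hin : ∀ τ ∈ (padicPlace (q : ℕ)).inertiaSubgroupIn ℚ, r τ = 1)
    {φ : GQ} (hφ : (padicPlace (q : ℕ)).IsFrobeniusAt φ (q : ℕ)) (hdet : (r φ).det = 1)
    {α β : k} (hne : α ≠ β) (hchar : (r φ).charpoly =
      (Polynomial.X - Polynomial.C α) * (Polynomial.X - Polynomial.C β)) :
    Nat.Coprime p (Nat.card (decomp K q)) := by
  rw [Matrix.charpoly_fin_two] at hchar
  have ht : (r φ).trace = α + β := by
    have e := congrArg (fun P => Polynomial.coeff P 1) hchar
    simp [Polynomial.coeff_X_pow, mul_sub, sub_mul, Polynomial.coeff_X, Polynomial.coeff_C] at e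
    linear_combination -e
  have hd : (r φ).det = α * β := by
    have e := congrArg (fun P => Polynomial.eval 0 P) hchar
    simp at e
    linear_combination e
  obtain ⟨m, hm0, hmp, hm⟩ := exists_pow_eq_one (p := p) (r φ) ht hd hne hdet
  have hgm : AlgEquiv.restrictNormalHom K φ ^ m = 1 := by
    rw [← map_pow]
    exact AlgEquiv.ext fun x => Subtype.ext ((AlgEquiv.restrictNormal_commutes (φ ^ m) K x).trans
      ((hKiff (φ ^ m)).mpr (by rw [map_pow, hm]) x x.2))
  exact Nat.Coprime.coprime_dvd_right ((Subgroup.card_dvd_of_le (decomp_le_zpowers hKiff q hin hφ)).trans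
      (Nat.card_zpowers (AlgEquiv.restrictNormalHom K φ) ▸ orderOf_dvd_of_pow_eq_one hgm)) hmp

/-- A Frobenius of determinant one fixes the `p`-th roots of unity. -/
theorem frobenius_fix_zeta
    (hcyc : ∀ (σ : GQ) (a : ℕ), (∀ μ : QBar, μ ^ p = 1 → σ μ = μ ^ a) → (r σ).det = (a : k))
    {ζ : K} (hζ : IsPrimitiveRoot ζ p) {φ : GQ} (hdet : (r φ).det = 1) :
    AlgEquiv.restrictNormalHom K φ ζ = ζ := by
  haveI : NeZero p := ⟨hp.out.ne_zero⟩
  refine Subtype.ext ?_
  rw [show ((AlgEquiv.restrictNormalHom K φ ζ : K) : QBar) = φ (ζ : QBar) from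
    AlgEquiv.restrictNormal_commutes φ K ζ]
  have hζQ : IsPrimitiveRoot (ζ : QBar) p := hζ.map_of_injective (K.val.toRingHom.injective)
  obtain ⟨a, -, ha⟩ := hζQ.eq_pow_of_pow_eq_one
    (ξ := φ (ζ : QBar)) (by rw [← map_pow, hζQ.pow_eq_one, map_one])
  have hda := hcyc φ a fun μ hμ => by
    obtain ⟨i, -, rfl⟩ := hζQ.eq_pow_of_pow_eq_one hμ
    rw [map_pow, ← ha, pow_right_comm]
  rw [hdet, ← Nat.cast_one] at hda
  have hmod : a % p = 1 := by
    rw [← ((CharP.natCast_eq_natCast k p).mp hda : 1 ≡ a [MOD p]), Nat.one_mod_eq_one]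
    exact hp.out.ne_one
  rw [← ha, pow_eq_pow_mod a hζQ.pow_eq_one, hmod, pow_one]

/-- The invariants at a regular Frobenius form at most a line. -/
theorem lpN_fixPts_le (h2 : (2 : k) ≠ 0) (q : Nat.Primes) {φ : GQ}
    (hφ : (padicPlace (q : ℕ)).IsFrobeniusAt φ (q : ℕ)) (hdet : (r φ).det = 1)
    (htr : (r φ).trace ^ 2 ≠ 4) :
    lpN p (Nat.card (fixPts (decomp K q) (AdMod (repK hK)))) ≤ lpN p (Nat.card k) := by
  set C : M₂ := r φ - ((r φ).trace / 2) • 1 with hC
  have hCt : C.trace = 0 := by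
    rw [hC, Matrix.trace_sub, Matrix.trace_smul, Matrix.trace_one, Fintype.card_fin, smul_eq_mul]
    push_cast
    field_simp
    ring
  have hC0 : C ≠ 0 := fun h0 => htr (by
    have e : r φ = ((r φ).trace / 2) • (1 : M₂) := sub_eq_zero.mp h0
    have e2 := congrArg Matrix.det e
    rw [hdet, Matrix.det_smul, Matrix.det_one, Fintype.card_fin] at e2
    field_simp at e2
    linear_combination -e2)
  have hline : ∀ a : fixPts (decomp K q) (AdMod (repK hK)), ∃ c : k, a.1.val = c • C := by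
    intro a
    refine TWPrimes.exists_smul_of_commute h2 a.1.trace_val hCt hC0 ?_
    have e : ((⟨_, restrict_mem_decomp q hφ⟩ : decomp K q) • a.1).val = a.1.val :=
      congrArg AdMod.val (a.2 ⟨_, restrict_mem_decomp q hφ⟩)
    rw [Subgroup.smul_def, AdMod.val_smul, ← map_inv, repK_restrict, repK_restrict] at e
    have e1 : r φ * a.1.val = a.1.val * r φ := by
      conv_rhs => rw [← e]
      rw [mul_assoc, TWPrimes.rinv_mul, mul_one]
    rw [hC, mul_sub, sub_mul, ← e1, mul_smul_comm, smul_mul_assoc, mul_one, one_mul]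
  choose c hc using hline
  exact lpN_le_of_card_le (fun x => Subtype.ext (AdMod.nsmul_eq_zero (p := p) x.1)) nsmul_k_eq_zero
      (Nat.card_le_card_of_injective c fun a b e => Subtype.ext (AdMod.ext (by rw [hc, hc, e])))

/-- **Local sizes at a Taylor–Wiles prime.** -/
theorem tw_local (hp2 : p ≠ 2) (hKiff : ∀ σ : GQ, (∀ x ∈ K, σ x = x) ↔ r σ = 1)
    (hcyc : ∀ (σ : GQ) (a : ℕ), (∀ μ : QBar, μ ^ p = 1 → σ μ = μ ^ a) → (r σ).det = (a : k))
    {ζ : K} (hζ : IsPrimitiveRoot ζ p) (q : Nat.Primes) (hqp : (q : ℕ) ≠ p)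
    (hin : ∀ τ ∈ (padicPlace (q : ℕ)).inertiaSubgroupIn ℚ, r τ = 1)
    {φ : GQ} (hφ : (padicPlace (q : ℕ)).IsFrobeniusAt φ (q : ℕ)) (hdet : (r φ).det = 1)
    (htr : (r φ).trace ^ 2 ≠ 4) {α β : k} (hne : α ≠ β)
    (hchar : (r φ).charpoly =
      (Polynomial.X - Polynomial.C α) * (Polynomial.X - Polynomial.C β))
    (hM : ModPFinite p (Additive (E K q)ˣ))
    (X : Pres p (decomp K q) (AdMod (repK hK))) :
    lpN p (X.res (Additive (E K q)ˣ)).range.index ≤
      lpN p (Nat.card (fixPts (decomp K q) (AdMod (repK hK)))) + lpN p (Nat.card k) := by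
  have h2 : (2 : k) ≠ 0 := Ring.two_ne_zero (by rw [ringChar.eq k p]; exact hp2)
  have hfix : ∀ h ∈ decomp K q, h ζ = ζ := fun h hh => by
    obtain ⟨i, rfl⟩ := decomp_le_zpowers hKiff q hin hφ hh
    exact (Subgroup.zpow_mem (MulAction.stabilizer (K ≃ₐ[ℚ] K) ζ)
      (frobenius_fix_zeta hcyc hζ hdet) i :)
  have h := lpN_index_decomp_le K q (fun a => AdMod.nsmul_eq_zero (p := p) a) hp2 hqp hζ hfix
    (coprime_card_decomp hKiff q hin hφ hdet hne hchar) hM X
  have hfk := lpN_fixPts_le (hK := hK) (p := p) h2 q hφ hdet htr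
  linarith

end Fermat.Agent.CFT.Selmer
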