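import Fermat.Agent.CFT.Selmer.AdModule
import Fermat.Agent.CFT.Selmer.KData
import Fermat.Agent.CFT.Tangent.LocalPlace
import Fermat.Agent.CFT.Selmer.ClassesT

/-!
# The level of a finite space of adjoint classes

Over the field cut out by `ρ` a finite space of classes of `ad⁰ ρ` lives on a `p`-extension,
unramified where `ρ` and the classes are; the classes become cocycles of that level.
-/

set_option autoImplicit false
set_option synthInstance.maxHeartbeats 200000
set_option linter.unusedSectionVars false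
set_option linter.style.haveILetI false

noncomputable section

namespace Fermat.Agent.CFT.Selmer

open ExtCitation Fermat.Agent.Arith IntermediateField Fermat.Agent.CFT.Local Fermat.Agent.CFT.Idele
open Fermat.Agent.CFT.Duality Fermat.Agent.CFT.Tangent

local instance factPrimeUL (q : Nat.Primes) : Fact (q : ℕ).Prime := ⟨q.2⟩

variable {p : ℕ} [hp : Fact p.Prime] {k : Type} [Field k] [CharP k p]
  {r : GQ →* Matrix (Fin 2) (Fin 2) k} (Z : Submodule k (GQ → Matrix (Fin 2) (Fin 2) k))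

/-- The elements on which `r` and the classes in `Z` are trivial. -/
def killGroup (hcoc : ∀ b ∈ Z, IsAdCocycle r b) : Subgroup GQ where
  carrier := {σ | r σ = 1 ∧ ∀ b ∈ Z, b σ = 0}
  one_mem' := ⟨map_one r, fun b hb => (hcoc b hb).one⟩
  mul_mem' {a c} ha hc :=
    ⟨by rw [map_mul, ha.1, hc.1, one_mul], fun b hb => by
      rw [hcoc b hb, hc.2 b hb, ha.2 b hb]; simp⟩
  inv_mem' {a} ha := by
    have h1 : r a⁻¹ = 1 := by have h := map_inv_mul r a; rwa [ha.1, mul_one] at h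
    refine ⟨h1, fun b hb => ?_⟩
    have h := hcoc b hb a⁻¹ a
    rw [inv_mul_cancel, (hcoc b hb).one, ha.2 b hb, mul_zero, zero_mul, zero_add] at h
    exact h.symm

theorem normal_killGroup (hcoc : ∀ b ∈ Z, IsAdCocycle r b) : (killGroup Z hcoc).Normal :=
  ⟨fun σ hσ g => by
    refine ⟨by rw [map_mul, map_mul, hσ.1, mul_one, Tangent.map_mul_inv], fun b hb => ?_⟩
    have h1 : r (g * σ * g⁻¹) = 1 := by rw [map_mul, map_mul, hσ.1, mul_one, Tangent.map_mul_inv]
    have h1' : r (g * σ * g⁻¹)⁻¹ = 1 := by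
      have h := map_inv_mul r (g * σ * g⁻¹); rwa [h1, mul_one] at h
    rw [(hcoc b hb).conj, hσ.2 b hb, h1, h1', mul_zero, zero_mul, zero_add, one_mul, mul_one,
      sub_self]⟩

variable {Z} {K : IntermediateField ℚ QBar} [FiniteDimensional ℚ K] [Normal ℚ K]

/-- **The upper level.** -/
theorem exists_upperLevel [Module.Finite k Z] (hK : ∀ σ : GQ, (∀ x ∈ K, σ x = x) ↔ r σ = 1)
    (hcoc : ∀ b ∈ Z, IsAdCocycle r b) (hlev : ∀ b ∈ Z, IsFiniteLevel b)
    (hrfin : GaloisFactorsThroughFiniteLevel r) :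
    ∃ (L : IntermediateField ℚ QBar) (_ : FiniteDimensional ℚ L) (_ : Normal ℚ L) (h : K ≤ L),
      (∀ σ : GQ, (∀ x ∈ L, σ x = x) ↔ (r σ = 1 ∧ ∀ b ∈ Z, b σ = 0)) ∧
      IsPGroup p (levelRes h).ker ∧
      ∀ q : Nat.Primes, (∀ τ ∈ (padicPlace (q : ℕ)).inertiaSubgroupIn ℚ,
        r τ = 1 ∧ ∀ b ∈ Z, b τ = 0) → inertia (E L q) = ⊥ := by
  obtain ⟨L₀, hL₀, -, hL₀'⟩ := exists_common_level hrfin Z hlev
  haveI := hL₀
  obtain ⟨L, hLf, hLn, hL⟩ :=
    exists_fieldOf (killGroup Z hcoc) (normal_killGroup Z hcoc) L₀ hL₀'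
  haveI := hLf
  haveI := hLn
  haveI : Normal ℚ QBar := IsAlgClosure.normal ℚ QBar
  haveI : IsGalois ℚ QBar := ⟨⟩
  have hKL : K ≤ L := fun x hx => by
    refine (InfiniteGalois.fixedField_fixingSubgroup L).le ?_
    rw [IntermediateField.mem_fixedField_iff]
    intro σ hσ
    exact (hK σ).mpr ((hL σ).mp ((IntermediateField.mem_fixingSubgroup_iff L σ).mp hσ)).1 x hx
  refine ⟨L, hLf, hLn, hKL, hL, ?_, fun q hq => (Local.inertia_eq_bot_iff (q : ℕ) L).mpr
    fun g hg x => (hL g).mpr (hq g hg) x x.2⟩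
  intro g
  refine ⟨1, Subtype.ext ?_⟩
  obtain ⟨σ, hσ⟩ : ∃ σ, res L σ = (g : L ≃ₐ[ℚ] L) := ⟨lift L g, res_lift L g⟩
  have hσK : res K σ = 1 := by
    rw [← levelRes_res hKL, hσ]
    exact MonoidHom.mem_ker.mp g.2
  have hr1 : r σ = 1 := (hK σ).mp fun x hx => by
    have e := congrArg (fun f : K ≃ₐ[ℚ] K => ((f ⟨x, hx⟩ : K) : QBar)) hσK
    exact (AlgEquiv.restrictNormal_commutes σ K ⟨x, hx⟩).symm.trans e
  have hr1' : r σ⁻¹ = 1 := by have h := map_inv_mul r σ; rwa [hr1, mul_one] at h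
  have hfix : ∀ x ∈ L, (σ ^ p) x = x := (hL (σ ^ p)).mpr
    ⟨by rw [map_pow, hr1, one_pow], fun b hb => by
      have hn : ∀ n : ℕ, b (σ ^ n) = (n : k) • b σ := fun n => by
        induction n with
        | zero => simpa using (hcoc b hb).one
        | succ n ih =>
          rw [pow_succ', hcoc b hb, hr1, hr1', one_mul, mul_one, ih, Nat.cast_succ, add_smul,
            one_smul]
      rw [hn, CharP.cast_eq_zero, zero_smul]⟩
  rw [pow_one, SubmonoidClass.coe_pow, ← hσ, ← map_pow, OneMemClass.coe_one]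
  exact AlgEquiv.ext fun x => Subtype.ext
    ((AlgEquiv.restrictNormal_commutes (σ ^ p) L x).trans (hfix x x.2))

variable {L : IntermediateField ℚ QBar} [FiniteDimensional ℚ L] [Normal ℚ L] {h : K ≤ L}
  {hK : ∀ σ : GQ, (∀ x ∈ K, σ x = x) → r σ = 1}
  (hL : ∀ σ : GQ, (∀ x ∈ L, σ x = x) → ∀ b ∈ Z, b σ = 0)
  (hcoc : ∀ b ∈ Z, IsAdCocycle r b) (htr : ∀ b ∈ Z, ∀ σ, (b σ).trace = 0)

include hL hcoc in
theorem apply_lift_res {b : GQ → Matrix (Fin 2) (Fin 2) k} (hb : b ∈ Z) (σ : GQ) :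
    b (lift L (res L σ)) = b σ :=
  (hcoc b hb).congr (hL _ (fun x hx => by
    have e := congrArg (fun f : L ≃ₐ[ℚ] L => ((f ⟨x, hx⟩ : L) : QBar)) (res_lift L (res L σ))
    have e1 : lift L (res L σ) x = σ x :=
      ((AlgEquiv.restrictNormal_commutes (lift L (res L σ)) L ⟨x, hx⟩).symm.trans e).trans
        (AlgEquiv.restrictNormal_commutes σ L ⟨x, hx⟩)
    rw [AlgEquiv.mul_apply, e1]
    exact σ.symm_apply_apply x) b hb)

include hL hcoc in
theorem classFun_mem {b : GQ → Matrix (Fin 2) (Fin 2) k} (hb : b ∈ Z) :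
    (fun g => AdMod.mk (repK hK) (b (lift L g)) (htr b hb _)) ∈
      levelCocycles (levelRes h) (AdMod (repK hK)) := fun g g' => by
  obtain ⟨σ, rfl⟩ : ∃ σ, res L σ = g := ⟨lift L g, res_lift L g⟩
  obtain ⟨σ', rfl⟩ : ∃ σ', res L σ' = g' := ⟨lift L g', res_lift L g'⟩
  refine AdMod.ext ?_
  rw [map_add, AdMod.val_smul, AdMod.val_mk, AdMod.val_mk, AdMod.val_mk, ← map_mul,
    apply_lift_res hL hcoc hb, apply_lift_res hL hcoc hb, apply_lift_res hL hcoc hb, hcoc b hb,
    levelRes_res, ← map_inv, show res K σ = AlgEquiv.restrictNormalHom K σ from rfl,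
    show res K σ⁻¹ = AlgEquiv.restrictNormalHom K σ⁻¹ from rfl, repK_restrict, repK_restrict]

/-- A class as a cocycle of the upper level. -/
def classMap : Z →+ levelCocycles (levelRes h) (AdMod (repK hK)) :=
  AddMonoidHom.mk' (fun b => ⟨_, classFun_mem (hK := hK) (h := h) hL hcoc htr b.2⟩)
    fun _ _ => Subtype.ext (funext fun _ => AdMod.ext rfl)

theorem val_classMap (b : Z) (σ : GQ) :
    AdMod.val ((classMap (h := h) (hK := hK) hL hcoc htr b : (L ≃ₐ[ℚ] L) → AdMod (repK hK))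
      (res L σ)) = (b : GQ → Matrix (Fin 2) (Fin 2) k) σ :=
  apply_lift_res hL hcoc b.2 σ

/-- A class which is a coboundary of the upper level is a coboundary. -/
theorem eq_cobdLin_of_classMap (b : Z) (x : AdMod (repK hK))
    (hx : ∀ g, (classMap (h := h) (hK := hK) hL hcoc htr b : (L ≃ₐ[ℚ] L) → AdMod (repK hK)) g =
      levelRes h g • x - x) :
    (b : GQ → Matrix (Fin 2) (Fin 2) k) = cobdLin r x.val := funext fun σ => by
  rw [← val_classMap (h := h) (hK := hK) hL hcoc htr b σ, hx, map_sub, AdMod.val_smul,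
    levelRes_res, ← map_inv, show res K σ = AlgEquiv.restrictNormalHom K σ from rfl,
    show res K σ⁻¹ = AlgEquiv.restrictNormalHom K σ⁻¹ from rfl, repK_restrict, repK_restrict,
    cobdLin_apply]

/-- A local coboundary is one on the decomposition group of the upper level. -/
theorem exists_eq_of_mem_cobdOn (q : Nat.Primes) (b : Z)
    (hb : (b : GQ → Matrix (Fin 2) (Fin 2) k) ∈
      cobdOn r ((padicPlace (q : ℕ)).decompositionSubgroup ℚ)) :
    ∃ x : AdMod (repK hK), ∀ g ∈ decomp L q,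
      (classMap (h := h) (hK := hK) hL hcoc htr b : (L ≃ₐ[ℚ] L) → AdMod (repK hK)) g =
        levelRes h g • x - x := by
  obtain ⟨X, hX, hX'⟩ := hb
  refine ⟨AdMod.mk _ X hX, ?_⟩
  rintro g ⟨t, rfl⟩
  set σ := localGaloisToGlobal (q : ℕ) (t.liftNormal (PadicAlgCl (q : ℕ)))
  have e : res L σ = toGlobal (q : ℕ) L t := rfl
  refine AdMod.ext ?_
  rw [← e, val_classMap, map_sub, AdMod.val_smul, AdMod.val_mk, levelRes_res, ← map_inv,
    show res K σ = AlgEquiv.restrictNormalHom K σ from rfl,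
    show res K σ⁻¹ = AlgEquiv.restrictNormalHom K σ⁻¹ from rfl, repK_restrict, repK_restrict]
  exact hX' σ (localGaloisToGlobal_mem_decompositionSubgroup _ _)

end Fermat.Agent.CFT.Selmer
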