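import Fermat.Agent.CFT.Selmer.Detect
import Fermat.Agent.CFT.Selmer.DualClasses
import Fermat.Agent.CFT.Selmer.UpperLevel
import Fermat.Agent.CFT.Selmer.TWLocal
import Fermat.Agent.CFT.Selmer.LocalForm
import Fermat.Agent.CFT.Tangent.LocalBounds
import Fermat.Agent.CFT.Form.Global

/-!
# Classes at fixed Taylor–Wiles primes: the count
-/

set_option autoImplicit false
set_option synthInstance.maxHeartbeats 200000
set_option maxHeartbeats 1000000
set_option linter.unusedSectionVars false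
set_option linter.style.haveILetI false

noncomputable section

namespace Fermat.Agent.CFT.Selmer

open ExtCitation Fermat.Agent.Arith IntermediateField Fermat.Agent.CFT.Local Fermat.Agent.CFT.Idele
open Fermat.Agent.CFT.Duality Fermat.Agent.CFT.Euler Fermat.Agent.CFT.Tangent

local instance factPrimeBC (q : Nat.Primes) : Fact (q : ℕ).Prime := ⟨q.2⟩

variable {p : ℕ} [hp : Fact p.Prime] {k : Type} [Field k] [Finite k] [CharP k p]
  {r : GQ →* Matrix (Fin 2) (Fin 2) k}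
  {K : IntermediateField ℚ QBar} [FiniteDimensional ℚ K] [Normal ℚ K]
  {hK : ∀ σ : GQ, (∀ x ∈ K, σ x = x) → r σ = 1} {ι : Type} [Fintype ι]
  {ε : Lat (K ≃ₐ[ℚ] K) ι →+ AdMod (repK hK)} (hε : Presentation p ε)

theorem lpN_card_comap {M : Type} [AddCommGroup M] [Module k M] (Z P : Submodule k M)
    [Module.Finite k Z] :
    lpN p (Nat.card (P.comap Z.subtype : Submodule k Z)) =
      Module.finrank k (Z ⊓ P : Submodule k M) * lpN p (Nat.card k) := by
  rw [lpN_card_eq_finrank (k := k) (M := (P.comap Z.subtype : Submodule k Z)),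
    ← Submodule.finrank_map_subtype_eq Z (P.comap Z.subtype), Submodule.map_comap_subtype]

section Local

variable {L : IntermediateField ℚ QBar} [FiniteDimensional ℚ L] [Normal ℚ L] (h : K ≤ L)
  {u : NormCocycle (L ≃ₐ[ℚ] L) (C L)} (hu : IsClassFormation p u)
  (hk : IsPGroup p (levelRes h).ker) {Z : Submodule k (GQ → Matrix (Fin 2) (Fin 2) k)} [Module.Finite k Z]
  (hL : ∀ σ : GQ, (∀ x ∈ L, σ x = x) → ∀ b ∈ Z, b σ = 0)
  (hcoc : ∀ b ∈ Z, IsAdCocycle r b) (htr : ∀ b ∈ Z, ∀ σ, (b σ).trace = 0)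

include hε in
/-- The image of a local functional, bounded by a local bound on classes. -/
theorem lpN_index_local_le (q : Nat.Primes) [Fintype (decomp K q)] (δ : ℤ)
    (hloc : (Module.finrank k Z : ℤ) ≤
      Module.finrank k (Z ⊓ cobdOn r ((padicPlace (q : ℕ)).decompositionSubgroup ℚ) :
          Submodule k (GQ → Matrix (Fin 2) (Fin 2) k)) +
        Module.finrank k (fixedOn r ((padicPlace (q : ℕ)).decompositionSubgroup ℚ)) + δ) :
    lpN p (locFun h hε hu hk (classMap (h := h) (hK := hK) hL hcoc htr) q).ker.index ≤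
      lpN p (Nat.card (fixPts (decomp K q) (AdMod (repK hK)))) + δ * lpN p (Nat.card k) := by
  haveI : Finite Z := Module.finite_of_finite k
  let D := (padicPlace (q : ℕ)).decompositionSubgroup ℚ
  let W : Submodule k Z := (cobdOn r D).comap Z.subtype
  have h1 := lpN_index_ker_locFun_le h hε hu hk (classMap (h := h) (hK := hK) hL hcoc htr)
    (fun z => nsmul_kMod_eq_zero k z) q W.toAddSubgroup
    fun z hz => exists_eq_of_mem_cobdOn hL hcoc htr q z hz
  have h2 : lpN p (Nat.card W.toAddSubgroup) =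
      Module.finrank k (Z ⊓ cobdOn r D : Submodule k (GQ → Matrix (Fin 2) (Fin 2) k)) *
        lpN p (Nat.card k) := lpN_card_comap Z (cobdOn r D)
  have h3 := finrank_fixedOn_le (r := r) (hK := hK) (p := p) q
  have h4 := mul_le_mul_of_nonneg_right hloc (lpN_card_pos (p := p) (k := k)).le
  have h5 : lpN p (Nat.card Z) = Module.finrank k Z * lpN p (Nat.card k) := lpN_card_eq_finrank
  simp only [D] at h2
  rw [add_mul, add_mul] at h4
  linarith

end Local

theorem ite_subgroup_cases {G : Type*} [AddCommGroup G] {P : Prop} [Decidable P] {A B : AddSubgroup G}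
    {motive : AddSubgroup G → Prop} (hA : P → motive A) (hB : ¬P → motive B) :
    motive (if P then A else B) := by
  split_ifs with h
  exacts [hA h, hB h]

theorem lpN_ite_index_le {G : Type*} [AddCommGroup G] {P : Prop} [Decidable P] {A B : AddSubgroup G}
    {f x y : ℤ} (hA : P → lpN p A.index ≤ f + x) (hB : ¬P → lpN p B.index ≤ f + y) :
    lpN p (if P then A else B).index ≤ f + (if P then x else y) := by
  split_ifs with h
  exacts [hA h, hB h]

theorem fixPts_repK_eq_bot (hr : TWPrimes.TWHyp r) :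
    fixPts (K ≃ₐ[ℚ] K) (AdMod (repK hK)) = ⊥ := AdMod.fixPts_eq_bot
  { two := hr.two
    split := fun x => by
      obtain ⟨σ, rfl⟩ := restrictK_surjective x
      rw [repK_restrict]
      exact hr.split σ
    irred := fun ⟨w, hw, hst⟩ => hr.irred ⟨w, hw, fun σ _ => by
      rw [← repK_restrict hK σ]
      exact hst _ trivial⟩
    indexTwo := fun H hH ⟨w, hw, hst⟩ => hr.indexTwo (H.comap (AlgEquiv.restrictNormalHom K))
      (by rw [Subgroup.index_comap_of_surjective _ restrictK_surjective]; exact hH)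
      ⟨w, hw, fun σ hσ => by
        rw [← repK_restrict hK σ]
        exact hst _ hσ⟩ }

theorem lpN_le_fixDual (h2 : (2 : k) ≠ 0)
    (hcyc : ∀ (σ : GQ) (a : ℕ), (∀ μ : QBar, μ ^ p = 1 → σ μ = μ ^ a) → (r σ).det = (a : k))
    {ζ : K} (hζ : IsPrimitiveRoot ζ p) (c : Subgroup (K ≃ₐ[ℚ] K)) {g : K ≃ₐ[ℚ] K}
    (hc : ∀ h ∈ c, h = 1 ∨ h = g) (hgg : g * g = 1)
    (hgz : ∀ z : K, z ^ p = 1 → g z = z ^ (p - 1)) :
    lpN p (Nat.card k) ≤ lpN p (Nat.card (fixDual p c (AdMod (repK hK)))) := by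
  haveI : NeZero p := ⟨hp.out.ne_zero⟩
  haveI := finite_dual (A := AdMod (repK hK)) (p := p)
  refine lpN_le_of_card_le nsmul_k_eq_zero (fun ν => Subtype.ext (AddMonoidHom.ext fun a => by
    show p • ν.1 a = 0
    rw [nsmul_eq_mul, ZMod.natCast_self, zero_mul])) ?_
  refine AdMod.card_le_fixDual h2 c hc ?_ ?_
  · rw [← map_mul, hgg, map_one]
  · obtain ⟨σ, rfl⟩ := restrictK_surjective g
    rw [repK_restrict, hcyc σ (p - 1) fun μ hμ => ?_,
      Nat.cast_sub hp.out.one_le, CharP.cast_eq_zero, Nat.cast_one, zero_sub]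
    have hζQ : IsPrimitiveRoot (ζ : QBar) p := hζ.map_of_injective (K.val.toRingHom.injective)
    obtain ⟨i, -, rfl⟩ := hζQ.eq_pow_of_pow_eq_one hμ
    have e := congrArg Subtype.val (hgz (ζ ^ i) (by rw [← pow_mul, mul_comm, pow_mul,
      hζ.pow_eq_one, one_pow]))
    rw [SubmonoidClass.coe_pow, SubmonoidClass.coe_pow] at e
    exact ((AlgEquiv.restrictNormal_commutes σ K (ζ ^ i)).symm.trans e)

/-- Detection at the primes, in the form of the count. -/
theorem mem_range_of_detects {T₀ T : Finset Nat.Primes} (hgen : Generates K T₀) (hle : T₀ ⊆ T)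
    {m : ℕ} (qv : Fin m → Nat.Primes) (hqT : ∀ i, qv i ∈ T) (hqT₀ : ∀ i, qv i ∉ T₀)
    (hdet : Detects hε T₀ fun i => (qv i : ℕ))
    (f : equivHom (C := tUnits K T) (presOf hε).hS)
    (hf : ∀ q : ↥T, (q : Nat.Primes) ∉ T₀ →
      evComp (H := fun q : ↥T => decomp K (q : Nat.Primes)) hε
        (postHom (presOf hε).hS (unitsMap K T) (unitsMap_smul K T) f) q ∈
      (((presOf hε).restrict (decomp K (q : Nat.Primes))).res
        (Additive (E K (q : Nat.Primes))ˣ)).range) :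
    f ∈ ((presOf hε).res (tUnits K T)).range :=
  mem_range_of_locTriv hε hgen hle
    (fun f₀ hf₀ => hdet f₀ fun q ⟨i, hi⟩ => by
      obtain rfl : qv i = q := Subtype.ext hi
      exact hf₀ _ (hqT i) (hqT₀ i))
    f fun q hq hq₀ => by
      obtain ⟨y, hy, hys⟩ := (mem_range_res_restrict_iff hε _).mp (hf ⟨q, hq⟩ hq₀)
      exact ⟨y, hy, fun s => (hys s).symm⟩

omit [Finite k] [CharP k p] hp in
theorem tw_frobenius {m : ℕ} (qv : Fin m → Nat.Primes)
    (hfrob : ∀ i, ∀ φ : GQ, (padicPlace (qv i : ℕ)).IsFrobeniusAt φ (qv i : ℕ) →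
      (r φ).det = 1 ∧ (r φ).trace ^ 2 ≠ 4 ∧ ∃ α β : k, α ≠ β ∧ (r φ).charpoly =
        (Polynomial.X - Polynomial.C α) * (Polynomial.X - Polynomial.C β))
    {q : Nat.Primes} (hq : q ∈ Finset.univ.image qv) :
    ∃ φ : GQ, (padicPlace (q : ℕ)).IsFrobeniusAt φ (q : ℕ) ∧ (r φ).det = 1 ∧
      (r φ).trace ^ 2 ≠ 4 ∧ ∃ α β : k, α ≠ β ∧ (r φ).charpoly =
        (Polynomial.X - Polynomial.C α) * (Polynomial.X - Polynomial.C β) := by
  obtain ⟨i, -, rfl⟩ := Finset.mem_image.mp hq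
  obtain ⟨φ, hφ⟩ := exists_isFrobeniusAt (Local.padicPlace_liesOverPrime (qv i : ℕ)) (qv i).2
  exact ⟨φ, hφ, hfrob i φ hφ⟩

include hε in
/-- The bound at one of the Taylor–Wiles primes. -/
theorem tw_bound (hp2 : p ≠ 2) (hKiff : ∀ σ : GQ, (∀ x ∈ K, σ x = x) ↔ r σ = 1)
    (hcyc : ∀ (σ : GQ) (a : ℕ), (∀ μ : QBar, μ ^ p = 1 → σ μ = μ ^ a) → (r σ).det = (a : k))
    {ζ : K} (hζ : IsPrimitiveRoot ζ p) {m : ℕ} (qv : Fin m → Nat.Primes)
    (hfrob : ∀ i, ∀ φ : GQ, (padicPlace (qv i : ℕ)).IsFrobeniusAt φ (qv i : ℕ) →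
      (r φ).det = 1 ∧ (r φ).trace ^ 2 ≠ 4 ∧ ∃ α β : k, α ≠ β ∧ (r φ).charpoly =
        (Polynomial.X - Polynomial.C α) * (Polynomial.X - Polynomial.C β))
    (q : Nat.Primes) (hin : ∀ τ ∈ (padicPlace (q : ℕ)).inertiaSubgroupIn ℚ, r τ = 1)
    (hqp : (q : ℕ) ≠ p) (hq : q ∈ Finset.univ.image qv) :
    lpN p (((presOf hε).restrict (decomp K q)).res (Additive (E K q)ˣ)).range.index ≤
      lpN p (Nat.card (fixPts (decomp K q) (AdMod (repK hK)))) + lpN p (Nat.card k) := by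
  have hex : ∃ φ : GQ, (padicPlace (q : ℕ)).IsFrobeniusAt φ (q : ℕ) ∧ (r φ).det = 1 ∧
      (r φ).trace ^ 2 ≠ 4 ∧ ∃ α β : k, α ≠ β ∧ (r φ).charpoly =
        (Polynomial.X - Polynomial.C α) * (Polynomial.X - Polynomial.C β) :=
    tw_frobenius qv hfrob hq
  exact tw_local hp2 hKiff hcyc hζ _ hqp hin hex.choose_spec.1 hex.choose_spec.2.1
    hex.choose_spec.2.2.1 hex.choose_spec.2.2.2.choose_spec.choose_spec.1
    hex.choose_spec.2.2.2.choose_spec.choose_spec.2 (modPFinite_units hp2 _) _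

theorem sum_weights {T₀ T : Finset Nat.Primes} {m : ℕ} {qv : Fin m → Nat.Primes}
    (hT : T = T₀ ∪ Finset.univ.image qv) (hinj : Function.Injective qv)
    (hqT₀ : ∀ i, qv i ∉ T₀) (δ : Nat.Primes → ℤ) (d : ℤ) :
    (∑ q : ↥T, if (q : Nat.Primes) ∈ T₀ then δ q * d else d) = (∑ q ∈ T₀, δ q + m) * d := by
  rw [Finset.sum_coe_sort T fun q => if q ∈ T₀ then δ q * d else d, hT, Finset.sum_union
    (Finset.disjoint_left.mpr fun q hq hq' => by
      obtain ⟨i, -, rfl⟩ := Finset.mem_image.mp hq'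
      exact hqT₀ i hq),
    Finset.sum_congr rfl fun q hq => if_pos hq,
    Finset.sum_image fun i _ j _ hij => hinj hij,
    Finset.sum_congr rfl fun i _ => if_neg (hqT₀ i), ← Finset.sum_mul, Finset.sum_const,
    Finset.card_univ, Fintype.card_fin, nsmul_eq_mul, add_mul]

theorem le_bound_of_count {n m S d w f F sN sW : ℤ} (hd : 0 < d) (hcnt : w + f + F ≤ sN)
    (hw : w = n * d) (hf : d ≤ f) (hsum : sN ≤ F + sW) (he : sW = (S + m) * d) :
    n ≤ m + S - 1 := by
  refine le_of_mul_le_mul_right ?_ hd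
  have e1 : (m + S - 1) * d = (S + m) * d - d := by ring
  linarith

include hε in
/-- **The count at fixed Taylor–Wiles primes.** -/
theorem selmer_core (hp2 : p ≠ 2) (hr : TWPrimes.TWHyp r)
    (hrfin : GaloisFactorsThroughFiniteLevel r)
    (hcyc : ∀ (σ : GQ) (a : ℕ), (∀ μ : QBar, μ ^ p = 1 → σ μ = μ ^ a) → (r σ).det = (a : k))
    (hKiff : ∀ σ : GQ, (∀ x ∈ K, σ x = x) ↔ r σ = 1)
    (hLC : ∀ q : Nat.Primes, Form.LocalFormationProperty p K q)
    (T₀ : Finset Nat.Primes) (hne : T₀.Nonempty) (hgen : Generates K T₀)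
    (hT₀ : ∀ q : Nat.Primes, q ∉ T₀ → ∀ τ ∈ (padicPlace (q : ℕ)).inertiaSubgroupIn ℚ, r τ = 1)
    (hpT₀ : ⟨p, hp.out⟩ ∈ T₀)
    {m : ℕ} (qv : Fin m → Nat.Primes) (hinj : Function.Injective qv) (hqT₀ : ∀ i, qv i ∉ T₀)
    (hfrob : ∀ i, ∀ φ : GQ, (padicPlace (qv i : ℕ)).IsFrobeniusAt φ (qv i : ℕ) →
      (r φ).det = 1 ∧ (r φ).trace ^ 2 ≠ 4 ∧ ∃ α β : k, α ≠ β ∧ (r φ).charpoly =
        (Polynomial.X - Polynomial.C α) * (Polynomial.X - Polynomial.C β))
    (hdet : Detects hε T₀ fun i => (qv i : ℕ))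
    (Z : Submodule k (GQ → Matrix (Fin 2) (Fin 2) k)) [Module.Finite k Z] (hcoc : ∀ b ∈ Z, IsAdCocycle r b)
    (hlev : ∀ b ∈ Z, IsFiniteLevel b) (htr : ∀ b ∈ Z, ∀ σ, (b σ).trace = 0)
    (hunr : ∀ q : Nat.Primes, q ∉ T₀ → (∀ i, qv i ≠ q) →
      ∀ τ ∈ (padicPlace (q : ℕ)).inertiaSubgroupIn ℚ, ∀ b ∈ Z, b τ = 0)
    (hcob : ∀ b ∈ Z, ∀ X, b = cobdLin r X → b = 0) (δ : Nat.Primes → ℤ)
    (hloc : ∀ q ∈ T₀, (Module.finrank k Z : ℤ) ≤
      Module.finrank k (Z ⊓ cobdOn r ((padicPlace (q : ℕ)).decompositionSubgroup ℚ) :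
          Submodule k (GQ → Matrix (Fin 2) (Fin 2) k)) +
        Module.finrank k (fixedOn r ((padicPlace (q : ℕ)).decompositionSubgroup ℚ)) + δ q) :
    (Module.finrank k Z : ℤ) ≤ m + ∑ q ∈ T₀, δ q - 1 := by
  classical
  haveI : Finite Z := Module.finite_of_finite k
  haveI : Finite (Z →+ ZMod p) := finite_dual
  haveI : NeZero p := ⟨hp.out.ne_zero⟩
  obtain ⟨T, hT⟩ : ∃ T : Finset Nat.Primes, T = T₀ ∪ Finset.univ.image qv := ⟨_, rfl⟩
  have hTsub : T₀ ⊆ T := hT ▸ Finset.subset_union_left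
  have hTq : ∀ i, qv i ∈ T := fun i =>
    hT ▸ Finset.mem_union_right _ (Finset.mem_image.mpr ⟨i, Finset.mem_univ i, rfl⟩)
  have hTne : T.Nonempty := hne.mono hTsub
  obtain ⟨ζQ, hζQ⟩ := HasEnoughRootsOfUnity.exists_primitiveRoot QBar p
  have hζmem : ζQ ∈ K := mem_of_cyclotomic hcyc hK hζQ
  let ζ : K := ⟨ζQ, hζmem⟩
  have hζ : IsPrimitiveRoot ζ p :=
    IsPrimitiveRoot.of_map_of_injective (f := K.val.toRingHom) (by exact hζQ) K.val.toRingHom.injective
  have hunrK : ∀ q ∉ (T : Set Nat.Primes), inertia (E K q) = ⊥ := fun q hq =>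
    (Local.inertia_eq_bot_iff (q : ℕ) K).mpr fun g hg x =>
      (hKiff g).mpr (hT₀ q (fun h => hq (Finset.mem_coe.mpr (hTsub h))) g hg) x x.2
  -- the upper level
  obtain ⟨L, _, _, h, hL, hk, hLunr⟩ := exists_upperLevel (p := p) hKiff hcoc hlev hrfin
  have hζL : IsPrimitiveRoot (⟨ζQ, h hζmem⟩ : L) p :=
    IsPrimitiveRoot.of_map_of_injective (f := L.val.toRingHom) (by exact hζQ) L.val.toRingHom.injective
  obtain ⟨u, hu⟩ := Form.globalFormation hp2 L hζL
  have hunrL : ∀ q ∉ (T : Set Nat.Primes), inertia (E L q) = ⊥ := fun q hq => by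
    have hq₀ : q ∉ T₀ := fun h' => hq (Finset.mem_coe.mpr (hTsub h'))
    refine hLunr q fun τ hτ => ⟨hT₀ q hq₀ τ hτ, hunr q hq₀ (fun i hi => ?_) τ hτ⟩
    exact hq (Finset.mem_coe.mpr (hi ▸ hTq i))
  have hLv : ∀ σ : GQ, (∀ x ∈ L, σ x = x) → ∀ b ∈ Z, b σ = 0 := fun σ hσ => ((hL σ).mp hσ).2
  let Φ := classMap (h := h) (hK := hK) hLv hcoc htr
  have hA : ∀ a : AdMod (repK hK), p • a = 0 := fun a => AdMod.nsmul_eq_zero (p := p) a
  have hψs : Function.Surjective (pullFun h hε hu hk Φ) :=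
    pullFun_surjective h hε hu hk Φ hA (fun z => nsmul_kMod_eq_zero k z) fun z x hx =>
      Subtype.ext (hcob z z.2 x.val (eq_cobdLin_of_classMap hLv hcoc htr z x hx))
  -- formations
  obtain ⟨uK, huK⟩ := Form.globalFormation hp2 K hζ
  obtain ⟨uT, huT⟩ := exists_isClassFormation_CT K T huK (Idele.stepAxioms K hp2 hζ) hTne hunrK
  choose uE huE using fun q : ↥T => exists_decompFormation (q : Nat.Primes) (hLC q)
  obtain ⟨c, g, _, hgc, hc, hgg, hcard, hgz, hU⟩ := exists_unitChar (K := K) hp2 hζ T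
  have hcop : Nat.Coprime p (Nat.card c) := by
    rw [hcard]
    exact (Nat.coprime_primes hp.out Nat.prime_two).mpr hp2
  have hfix := fixPts_repK_eq_bot (hK := hK) hr
  -- the local groups
  let N : ∀ q : ↥T, AddSubgroup (equivHom (C := Additive (E K (q : Nat.Primes))ˣ)
      ((presOf hε).restrict (decomp K (q : Nat.Primes))).hS) := fun q =>
    if (q : Nat.Primes) ∈ T₀ then (locFun h hε hu hk Φ (q : Nat.Primes)).ker
    else (((presOf hε).restrict (decomp K (q : Nat.Primes))).res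
      (Additive (E K (q : Nat.Primes))ˣ)).range
  have hRN : ∀ q : ↥T, (((presOf hε).restrict (decomp K (q : Nat.Primes))).res
      (Additive (E K (q : Nat.Primes))ˣ)).range ≤ N q := fun q =>
    ite_subgroup_cases (fun _ f hf => AddMonoidHom.mem_ker.mpr
      (locFun_eq_zero_of_res h hε hu hk Φ _ hf)) fun _ => le_rfl
  have hNker : ∀ q : ↥T, N q ≤ (locFun h hε hu hk Φ (q : Nat.Primes)).ker := fun q =>
    ite_subgroup_cases (motive := fun S => S ≤ (locFun h hε hu hk Φ (q : Nat.Primes)).ker)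
      (fun _ => le_rfl) fun _ f hf => AddMonoidHom.mem_ker.mpr
      (locFun_eq_zero_of_res h hε hu hk Φ _ hf)
  have hcnt := count_le (H := fun q : ↥T => decomp K (q : Nat.Primes)) hε (classMapT K T)
    (classMapT_smul K T) (unitsMap K T) (unitsMap_smul K T) (unitsMap_injective K T hTne)
    (exists_unitsMap_eq K T) (classMapT_unitsMap K T)
    (classMapT_surjective K T (hgen.mono hTsub))
    (fun q : ↥T => (q : Nat.Primes) ∉ T₀)
    (fun f hf => mem_range_of_detects hε hgen hTsub qv hTq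
      hqT₀ hdet f hf)
    hA hfix huE (fun q => modPFinite_units hp2 _) huT
    (modPFinite_CT K T hp2 hTne (hgen.mono hTsub))
    (modPFinite_tUnits K T) hcop hU (classProj hε T) (pullFun h hε hu hk Φ) hψs
    (fun f hf => pullFun_eq_zero_of_classProj h hε hu hk Φ T hTne hunrL f hf) N hRN
    (fun q hq => ite_subgroup_cases (motive := fun S => S ≤ (((presOf hε).restrict
      (decomp K (q : Nat.Primes))).res (Additive (E K (q : Nat.Primes))ˣ)).range)
      (fun hq' => absurd hq' hq) fun _ => le_rfl)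
    (fun f hf => ⟨gammaC hε T f, classProj_gammaC hε T f, by
      rw [pullFun_gammaC]
      exact Finset.sum_eq_zero fun q _ => AddMonoidHom.mem_ker.mp (hNker q (hf q))⟩)
  -- sizes
  have hd0 : 0 < lpN p (Nat.card k) := lpN_card_pos
  have hdual := lpN_le_fixDual (hK := hK) hr.two hcyc hζ c hc hgg hgz
  have hN : ∀ q : ↥T, lpN p (N q).index ≤
      lpN p (Nat.card (fixPts (decomp K (q : Nat.Primes)) (AdMod (repK hK)))) +
        (if (q : Nat.Primes) ∈ T₀ then δ q * lpN p (Nat.card k) else lpN p (Nat.card k)) :=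
    fun q => lpN_ite_index_le (fun hq => lpN_index_local_le hε h hu hk hLv hcoc htr _ _ (hloc _ hq))
      fun hq => tw_bound hε hp2 hKiff hcyc hζ qv hfrob q (hT₀ _ hq)
        (fun e' => hq ((Subtype.ext e' : (q : Nat.Primes) = ⟨p, hp.out⟩).symm ▸ hpT₀))
        ((Finset.mem_union.mp (hT ▸ q.2)).resolve_left hq)
  have hsum := (Finset.sum_le_sum fun q (_ : q ∈ (Finset.univ : Finset ↥T)) => hN q).trans_eq
    Finset.sum_add_distrib
  have he := sum_weights (T := T) hT hinj hqT₀ δ (lpN p (Nat.card k))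
  have hcard : lpN p (Nat.card (Z →+ ZMod p)) = Module.finrank k Z * lpN p (Nat.card k) :=
    (congrArg (lpN p) (card_dual (p := p) fun z : Z => nsmul_kMod_eq_zero k z)).trans
      lpN_card_eq_finrank
  exact le_bound_of_count hd0 hcnt hcard hdual hsum he

end Fermat.Agent.CFT.Selmer
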