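import Fermat.Agent.CFT.Selmer.Lattice
import Fermat.Agent.CFT.Euler.Count

/-!
# Bounding functionals on classes by the Euler count

Abstract form of the count: functionals that factor through classes, killing prescribed local
groups, are bounded by the local indices of those groups.
-/

set_option autoImplicit false
set_option maxHeartbeats 1000000
set_option linter.unusedSectionVars false
set_option linter.style.haveILetI false

noncomputable section

namespace Fermat.Agent.CFT.Selmer

open Fermat.Agent.CFT Fermat.Agent.CFT.Euler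

variable {p : ℕ} [hp : Fact p.Prime] {G : Type} [Group G] [Fintype G]
  {A : Type} [AddCommGroup A] [DistribMulAction G A] {ι : Type} [Fintype ι] {ε : Lat G ι →+ A}
  (hε : Presentation p ε)
  {τ : Type} [Fintype τ] {H : τ → Subgroup G} [∀ i, Fintype (H i)]
  {E : τ → Type} [∀ i, AddCommGroup (E i)] [∀ i, DistribMulAction (H i) (E i)]

/-- Families of local maps as one semilocal map. -/
def piCoind {R : AddSubgroup (Lat G ι)} (hR : IsStable G R) :
    (∀ i, equivHom (C := E i) (IsStable.restrict hR (H i))) →+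
      equivHom (C := ∀ i, CoInd (H i) (E i)) hR :=
  AddMonoidHom.mk' (fun f => ⟨AddMonoidHom.pi fun i => (coindHom hR (f i)).1,
      fun g s => funext fun i => (coindHom hR (f i)).2 g s⟩)
    fun f f' => Subtype.ext (AddMonoidHom.ext fun s => funext fun i => by
      show (coindHom hR (f i + f' i)).1 s = (coindHom hR (f i)).1 s + (coindHom hR (f' i)).1 s
      rw [map_add]
      rfl)

theorem ev_piCoind {R : AddSubgroup (Lat G ι)} (hR : IsStable G R)
    (f : ∀ i, equivHom (C := E i) (IsStable.restrict hR (H i))) (i : τ) (s : R) :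
    CoInd.ev ((piCoind hR f).1 s i) = (f i).1 s :=
  ev_coindHom hR (f i) s

theorem ev_smul_apply (i : τ) (h : H i) (F : ∀ j, CoInd (H j) (E j)) :
    CoInd.ev (((h : G) • F) i) = h • CoInd.ev (F i) :=
  CoInd.ev_smul_mem h (F i)

variable {D : Type} [AddCommGroup D] [DistribMulAction G D] {U : Type} [AddCommGroup U]
  [DistribMulAction G U] (qD : (∀ i, CoInd (H i) (E i)) →+ D)
  (hqD : ∀ (g : G) (x : ∀ i, CoInd (H i) (E i)), qD (g • x) = g • qD x)

/-- Families of local maps as one map into classes. -/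
def gamma {R : AddSubgroup (Lat G ι)} (hR : IsStable G R) :
    (∀ i, equivHom (C := E i) (IsStable.restrict hR (H i))) →+ equivHom (C := D) hR :=
  (postHom hR qD hqD).comp (piCoind hR)

/-- The component of a semilocal map at one prime, as a local map on the relations. -/
def evComp (f : equivHom (C := ∀ i, CoInd (H i) (E i)) (presOf hε).hS) (i : τ) :
    equivHom (C := E i) ((presOf hε).restrict (H i)).hS :=
  ⟨CoInd.ev.comp ((Pi.evalAddMonoidHom _ i).comp f.1), fun h s => by
    show CoInd.ev (f.1 (smulS (presOf hε).hS (h : G) s) i) = h • CoInd.ev (f.1 s i)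
    rw [f.2, ev_smul_apply]⟩

variable (iU : U →+ ∀ i, CoInd (H i) (E i)) (hiU : ∀ (g : G) (x : U), iU (g • x) = g • iU x)
  (hinj : Function.Injective iU) (hex : ∀ y, qD y = 0 → ∃ x, iU x = y)
  (hqi : ∀ x, qD (iU x) = 0) (hqs : Function.Surjective qD)
  (isQ : τ → Prop)
  (hdet : ∀ h : equivHom (C := U) (presOf hε).hS,
    (∀ i, isQ i → evComp hε (postHom (presOf hε).hS iU hiU h) i ∈
      (((presOf hε).restrict (H i)).res (E i)).range) →
    h ∈ ((presOf hε).res U).range)

include hqD hiU hinj hex hqi hdet in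
/-- Local maps which are trivial at `isQ` and whose image in classes is trivial are trivial. -/
theorem mem_range_of_gamma_mem
    (f : ∀ i, equivHom (C := E i) ((presOf hε).restrict (H i)).hS)
    (hQ : ∀ i, isQ i → f i ∈ (((presOf hε).restrict (H i)).res (E i)).range)
    (YD : Lat G ι →+ D) (hYD : ∀ (g : G) x, YD (g • x) = g • YD x)
    (hlift : ∀ i, ∃ m, qD m = YD (Lat.e i 1))
    (hf : ∀ s : ε.ker, (gamma qD hqD (presOf hε).hS f).1 s = YD s) :
    ∃ Y : Lat G ι →+ ∀ i, CoInd (H i) (E i), (∀ (g : G) x, Y (g • x) = g • Y x) ∧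
      (∀ x, qD (Y x) = YD x) ∧ ∀ (i : τ) (s : ε.ker), (f i).1 s = CoInd.ev (Y s i) := by
  obtain ⟨Y, hY, hYq⟩ := exists_equivariant_lift qD hqD YD hYD hlift
  set F := (piCoind (presOf hε).hS f).1 with hF
  have hFq : ∀ s : ε.ker, qD (F s - Y s) = 0 := fun s => by
    rw [map_sub, hYq, sub_eq_zero]
    exact hf s
  choose h hh using fun s => hex _ (hFq s)
  let hU : equivHom (C := U) (presOf hε).hS :=
    ⟨AddMonoidHom.mk' h fun s t => hinj (by
        rw [map_add iU, hh, hh, hh, map_add, AddSubgroup.coe_add, map_add]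
        abel),
      fun g s => hinj (by
        show iU (h (smulS (presOf hε).hS g s)) = iU (g • h s)
        rw [hiU, hh, hh, hF, (piCoind (presOf hε).hS f).2, coe_smulS, hY, smul_sub])⟩
  obtain ⟨Y₁, hY₁, hY₁s⟩ := (mem_range_res_iff hε hU).mp (hdet hU fun i hi => by
    obtain ⟨y, hy, hys⟩ := (mem_range_res_restrict_iff hε (f i)).mp (hQ i hi)
    refine (mem_range_res_restrict_iff hε _).mpr
      ⟨y - CoInd.ev.comp ((Pi.evalAddMonoidHom (fun j => CoInd (H j) (E j)) i).comp Y),
        fun d x => ?_, fun s => ?_⟩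
    · simp only [AddMonoidHom.sub_apply, AddMonoidHom.comp_apply, Pi.evalAddMonoidHom_apply, hy, hY,
        ev_smul_apply, smul_sub]
    · show CoInd.ev (iU (h s) i) = y s - CoInd.ev (Y s i)
      rw [hh, Pi.sub_apply, map_sub, ev_piCoind]
      exact congrArg (· - CoInd.ev (Y s i)) (hys s))
  refine ⟨Y + iU.comp Y₁, fun g x => ?_, fun x => ?_, fun i s => ?_⟩
  · simp only [AddMonoidHom.add_apply, AddMonoidHom.comp_apply, hY, hY₁, hiU, smul_add]
  · simp only [AddMonoidHom.add_apply, AddMonoidHom.comp_apply, map_add, hYq, hqi, add_zero]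
  · have e : h s = Y₁ s := hY₁s s
    rw [AddMonoidHom.add_apply, AddMonoidHom.comp_apply, ← e, hh, add_sub_cancel, ev_piCoind]
    rfl

omit hp in
/-- The index of a product of subgroups of different groups. -/
theorem index_pi_dep {σ : Type*} [Fintype σ] {M : σ → Type*} [∀ i, AddCommGroup (M i)]
    (S : ∀ i, AddSubgroup (M i)) :
    (AddSubgroup.pi Set.univ S).index = ∏ i, (S i).index := by
  let π : (∀ i, M i) →+ ∀ i, M i ⧸ S i :=
    AddMonoidHom.pi fun i => (QuotientAddGroup.mk' (S i)).comp (Pi.evalAddMonoidHom M i)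
  have hπ : Function.Surjective π := fun y => by
    choose x hx using fun i => QuotientAddGroup.mk'_surjective (S i) (y i)
    exact ⟨x, funext hx⟩
  have hk : π.ker = AddSubgroup.pi Set.univ S := by
    ext x
    rw [AddMonoidHom.mem_ker, AddSubgroup.mem_pi]
    exact ⟨fun h i _ => (QuotientAddGroup.eq_zero_iff _).mp (congrFun h i),
      fun h => funext fun i => (QuotientAddGroup.eq_zero_iff _).mpr (h i trivial)⟩
  rw [← hk, AddSubgroup.index_ker, AddMonoidHom.range_eq_top.mpr hπ, AddSubgroup.card_top,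
    Nat.card_pi]
  rfl

omit hp in
/-- The abstract counting step. -/
theorem card_mul_relIndex_dvd {P Q C W : Type*} [AddCommGroup P] [AddCommGroup Q] [AddCommGroup C]
    [AddCommGroup W] (Γ : P →+ Q) (RP N : AddSubgroup P) (RD : AddSubgroup Q) (j : C →+ Q)
    (ψ : C →+ W) (hψ : Function.Surjective ψ) (hmem : ∀ n ∈ N, Γ n ∈ RD → n ∈ RP)
    (hN : ∀ n ∈ N, ∃ c, j c = Γ n ∧ ψ c = 0) (hj : ∀ c, j c ∈ RD → ψ c = 0) :
    Nat.card W * RP.relIndex N ∣ RD.index := by
  let π : Q →+ Q ⧸ RD := QuotientAddGroup.mk' RD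
  have hπ : ∀ x, π x = 0 ↔ x ∈ RD := fun x => QuotientAddGroup.eq_zero_iff x
  set A1 : AddSubgroup (Q ⧸ RD) := ψ.ker.map (π.comp j) with hA1
  have h1 : Nat.card W ∣ A1.index := by
    have e : A1.comap (π.comp j) = ψ.ker := by
      refine le_antisymm (fun c hc => ?_) fun c hc => ⟨c, hc, rfl⟩
      obtain ⟨c', hc', he⟩ := hc
      have hd : j (c - c') ∈ RD := (hπ _).mp (by
        rw [map_sub, map_sub, sub_eq_zero]
        exact he.symm)
      have h0 := hj _ hd
      rwa [map_sub, show ψ c' = 0 from hc', sub_zero] at h0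
    rw [show Nat.card W = ψ.ker.index by
        rw [AddSubgroup.index_ker, AddMonoidHom.range_eq_top.mpr hψ, AddSubgroup.card_top],
      ← e, AddSubgroup.index_comap]
    exact AddSubgroup.relIndex_dvd_index_of_normal _ _
  have h2 : RP.relIndex N ∣ Nat.card A1 := by
    have hle : RD.comap Γ ⊓ N ≤ RP := fun n hn => hmem n hn.2 hn.1
    have hd : RP.relIndex N ∣ (RD.comap Γ ⊓ N).relIndex N :=
      AddSubgroup.relIndex_dvd_of_le_left N hle
    rw [AddSubgroup.inf_relIndex_right] at hd
    refine hd.trans ?_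
    have e : (RD.comap Γ).relIndex N = Nat.card (N.map (π.comp Γ)) := by
      rw [show RD.comap Γ = (π.comp Γ).ker from AddSubgroup.ext fun x => (hπ _).symm,
        AddSubgroup.relIndex, ← AddSubgroup.map_comap_eq_self (AddSubgroup.map_le_range (π.comp Γ) N)]
      rw [show (π.comp Γ).ker.addSubgroupOf N = ((π.comp Γ).comp N.subtype).ker from rfl,
        AddSubgroup.index_ker]
      refine congrArg (fun S : AddSubgroup (Q ⧸ RD) => Nat.card S) ?_
      rw [AddSubgroup.map_comap_eq_self (AddSubgroup.map_le_range (π.comp Γ) N),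
        AddMonoidHom.range_comp, AddSubgroup.range_subtype]
    rw [e]
    refine AddSubgroup.card_dvd_of_le ?_
    rintro _ ⟨n, hn, rfl⟩
    obtain ⟨c, hc, hc0⟩ := hN n hn
    exact ⟨c, hc0, congrArg π hc⟩
  have h3 : Nat.card A1 * A1.index = RD.index := A1.card_mul_index
  rw [← h3, mul_comm]
  exact mul_dvd_mul h2 h1

variable [Finite A] {uE : ∀ i, NormCocycle (H i) (E i)} {uD : NormCocycle G D}
  {c : Subgroup G} [Fintype c]

include hqD hiU hinj hex hqi hqs hdet in
/-- **The count.** -/
theorem count_le (hA : ∀ a : A, p • a = 0) (hfix : fixPts G A = ⊥)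
    (hE : ∀ i, IsClassFormation p (uE i)) (hEfin : ∀ i, ModPFinite p (E i))
    (hD : IsClassFormation p uD) (hDfin : ModPFinite p D) (hUfin : ModPFinite p U)
    (hc : Nat.Coprime p (Nat.card c)) (hU : UnitChar p H c U)
    {C W : Type} [AddCommGroup C] [AddCommGroup W] [Finite W]
    (j : C →+ equivHom (C := D) (presOf hε).hS) (ψ : C →+ W) (hψ : Function.Surjective ψ)
    (hj : ∀ x, j x ∈ ((presOf hε).res D).range → ψ x = 0)
    (N : ∀ i, AddSubgroup (equivHom (C := E i) ((presOf hε).restrict (H i)).hS))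
    (hRN : ∀ i, (((presOf hε).restrict (H i)).res (E i)).range ≤ N i)
    (hNQ : ∀ i, isQ i → N i ≤ (((presOf hε).restrict (H i)).res (E i)).range)
    (hNψ : ∀ f : ∀ i, equivHom (C := E i) ((presOf hε).restrict (H i)).hS, (∀ i, f i ∈ N i) →
      ∃ x, j x = gamma qD hqD (presOf hε).hS f ∧ ψ x = 0) :
    lpN p (Nat.card W) + lpN p (Nat.card (fixDual p c A)) +
        ∑ i, lpN p (Nat.card (fixPts (H i) A)) ≤ ∑ i, lpN p (N i).index := by
  classical
  have hcount := euler_count hA (presOf hε) (presOf_full hε) hfix hE hEfin hD hDfin hUfin hc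
    iU hiU qD hqD hinj hex hqi hqs hU
  set R := fun i => (((presOf hε).restrict (H i)).res (E i)).range with hR
  set RD := ((presOf hε).res D).range with hRD
  have hRfin : ∀ i, (R i).index ≠ 0 := fun i =>
    (((presOf hε).restrict (H i)).finiteIndexHom (hEfin i)).index
  have hRDfin : RD.index ≠ 0 := ((presOf hε).finiteIndexHom hDfin).index
  have hNfin : ∀ i, (N i).index ≠ 0 := fun i h0 =>
    hRfin i (zero_dvd_iff.mp (h0 ▸ AddSubgroup.index_dvd_of_le (hRN i)))
  -- the product groups
  set RP := AddSubgroup.pi Set.univ R with hRP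
  set NP := AddSubgroup.pi Set.univ N with hNP
  have hdvd : Nat.card W * RP.relIndex NP ∣ RD.index := by
    refine card_mul_relIndex_dvd (gamma qD hqD (presOf hε).hS) RP NP RD j ψ hψ
      (fun n hn hnD i _ => ?_) (fun n hn => hNψ n fun i => hn i trivial) hj
    obtain ⟨YD, hYD, hYDs⟩ := (mem_range_res_iff hε _).mp hnD
    obtain ⟨Y, hY, -, hYs⟩ := mem_range_of_gamma_mem hε qD hqD iU hiU hinj hex hqi isQ hdet n
      (fun i hi => hNQ i hi (hn i trivial)) YD hYD (fun i => hqs _) hYDs
    refine (mem_range_res_restrict_iff hε (n i)).mpr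
      ⟨CoInd.ev.comp ((Pi.evalAddMonoidHom (fun j => CoInd (H j) (E j)) i).comp Y),
        fun d x => ?_, fun s => hYs i s⟩
    simp only [AddMonoidHom.comp_apply, Pi.evalAddMonoidHom_apply, hY, ev_smul_apply]
  have hmul : RP.relIndex NP * NP.index = RP.index :=
    AddSubgroup.relIndex_mul_index fun f hf i hi => hRN i (hf i hi)
  rw [hRP, hNP, index_pi_dep, index_pi_dep, ← hRP, ← hNP] at hmul
  have hW : Nat.card W ≠ 0 := Nat.card_pos.ne'
  have hprodR : ∏ i, (R i).index ≠ 0 := Finset.prod_ne_zero_iff.mpr fun i _ => hRfin i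
  have hprodN : ∏ i, (N i).index ≠ 0 := Finset.prod_ne_zero_iff.mpr fun i _ => hNfin i
  have hrel : RP.relIndex NP ≠ 0 := fun h0 => hprodR (by rw [← hmul, h0, zero_mul])
  have hlp : ∀ (f : τ → ℕ), (∀ i, f i ≠ 0) → lpN p (∏ i, f i) = ∑ i, lpN p (f i) := by
    intro f hf
    have key : ∀ s : Finset τ, lpN p (∏ i ∈ s, f i) = ∑ i ∈ s, lpN p (f i) := fun s => by
      induction s using Finset.induction_on with
      | empty => simp
      | @insert a s ha ih =>
        rw [Finset.prod_insert ha, Finset.sum_insert ha,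
          lpN_mul (p := p) (hf a) (Finset.prod_ne_zero_iff.mpr fun i _ => hf i), ih]
    exact key Finset.univ
  have h1 : lpN p (Nat.card W) + lpN p (RP.relIndex NP) ≤ lpN p RD.index := by
    rw [← lpN_mul (p := p) hW hrel]
    exact lpN_mono (p := p) hdvd hRDfin
  have h2 : lpN p (RP.relIndex NP) + ∑ i, lpN p (N i).index = ∑ i, lpN p (R i).index := by
    rw [← hlp _ hNfin, ← hlp _ hRfin, ← lpN_mul (p := p) hrel hprodN, hmul]
  -- the homomorphisms into classes come from the local ones
  let kerL := fun i => (((presOf hε).restrict (H i)).res (E i)).ker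
  haveI : ∀ i, Finite (kerL i) := fun i =>
    (((presOf hε).restrict (H i)).finiteIndexHom (hEfin i)).ker
  let θ : (∀ i, kerL i) →+ equivHom (C := D) (presOf hε).hK :=
    AddMonoidHom.mk' (fun f => gamma qD hqD (presOf hε).hK fun i => (f i).1) fun f f' => by
      rw [← map_add]
      rfl
  have hker : ((presOf hε).res D).ker ≤ θ.range := by
    intro y hy
    obtain ⟨Y, hY, hYq, hYs⟩ := mem_range_of_gamma_mem hε qD hqD iU hiU hinj hex hqi isQ hdet 0
      (fun i _ => zero_mem _) (y.1.comp ((AddMonoidHom.id _).codRestrict ⊤ fun _ => trivial))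
      (fun g x => y.2 g ⟨x, trivial⟩) (fun i => hqs _) fun s => by
        refine (DFunLike.congr_fun (congrArg Subtype.val
          (map_zero (gamma qD hqD (presOf hε).hS))) s).trans ?_
        exact (DFunLike.congr_fun (congrArg Subtype.val (AddMonoidHom.mem_ker.mp hy)) s).symm
    refine ⟨fun i => ⟨⟨(CoInd.ev.comp ((Pi.evalAddMonoidHom (fun j => CoInd (H j) (E j)) i).comp
      Y)).comp (⊤ : AddSubgroup (Lat G ι)).subtype, fun d x => ?_⟩, ?_⟩,
      Subtype.ext (AddMonoidHom.ext fun x => ?_)⟩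
    · exact (congrArg (fun z : ∀ j, CoInd (H j) (E j) => CoInd.ev (z i))
        (hY (d : G) (x.1 : Lat G ι))).trans (ev_smul_apply i d _)
    · exact AddMonoidHom.mem_ker.mpr (Subtype.ext (AddMonoidHom.ext fun s => (hYs i s).symm))
    · show qD ((piCoind (presOf hε).hK _).1 x) = y.1 x
      refine (congrArg qD ?_).trans (hYq (x.1 : Lat G ι))
      funext i
      refine CoInd.ext fun g => ?_
      rw [← CoInd.ev_smul, ← Pi.smul_apply, ← (piCoind (presOf hε).hK _).2, ev_piCoind,
        ← CoInd.ev_smul, ← Pi.smul_apply, ← hY]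
      rfl
  have h3 : lpN p (Nat.card ((presOf hε).res D).ker) ≤ ∑ i, lpN p (Nat.card (kerL i)) := by
    rw [← hlp (fun i => Nat.card (kerL i)) fun i => Nat.card_pos.ne', ← Nat.card_pi]
    exact lpN_mono (p := p)
      ((AddSubgroup.card_dvd_of_le hker).trans (AddSubgroup.card_range_dvd θ)) Nat.card_pos.ne'
  rw [Pres.index, lpIndex] at hcount
  simp only [Pres.index, lpIndex, Finset.sum_sub_distrib] at hcount
  linarith

end Fermat.Agent.CFT.Selmer
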