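import Fermat.Agent.CFT.Euler.UnitChar
import Mathlib.NumberTheory.NumberField.Units.DirichletTheorem
import Mathlib.NumberTheory.NumberField.InfinitePlace.Ramification
import Fermat.Agent.CFT.Local.Units

/-!
# A Minkowski unit of a totally complex Galois number field

The conjugates of a suitable unit fixed by a complex conjugation `c` span, up to finite index, the
units, and their only relation is that they sum to zero.
-/

set_option autoImplicit false
set_option linter.unusedSectionVars false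
set_option linter.style.haveILetI false

noncomputable section

namespace Fermat.Agent.CFT.Selmer

open NumberField Fermat.Agent.CFT Fermat.Agent.CFT.Euler
open scoped NumberField

/-- A subgroup of full rank has finite index. -/
theorem index_ne_zero_of_finrank_eq {M : Type*} [AddCommGroup M] [Module.Finite ℤ M]
    (S : AddSubgroup M)
    (h : Module.finrank ℤ (AddSubgroup.toIntSubmodule S) = Module.finrank ℤ M) : S.index ≠ 0 := by
  set S' := AddSubgroup.toIntSubmodule S
  have h1 := S'.finrank_quotient_add_finrank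
  have h2 : Module.finrank ℤ (M ⧸ S') = 0 := by omega
  haveI : Finite (M ⧸ S') :=
    Module.finite_of_fg_torsion _ (Module.finrank_eq_zero_iff_isTorsion.mp h2)
  have h3 : S.index = Nat.card (M ⧸ S') := Nat.card_congr (Equiv.refl _)
  rw [h3]
  exact Nat.card_pos.ne'

variable {F : Type} [Field F] [NumberField F]

/-- The units of the integers inside the units of the field. -/
def unitsIncF (F : Type) [Field F] : Additive (𝓞 F)ˣ →+ Additive Fˣ :=
  MonoidHom.toAdditive (Units.map (algebraMap (𝓞 F) F).toMonoidHom)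

theorem val_unitsIncF (u : Additive (𝓞 F)ˣ) :
    (((unitsIncF F u).toMul : Fˣ) : F) = ((u.toMul : (𝓞 F)ˣ) : F) := rfl

theorem unitsIncF_injective : Function.Injective (unitsIncF F) := fun _ _ h =>
  Units.ext (NumberField.RingOfIntegers.ext (congrArg Units.val h))

theorem finrank_range_unitsIncF :
    Module.finrank ℤ (AddSubgroup.toIntSubmodule (unitsIncF F).range) = Units.rank F := by
  rw [← NumberField.Units.finrank_eq F]
  exact (LinearEquiv.ofInjective (unitsIncF F).toIntLinearMap unitsIncF_injective).finrank_eq.symm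

theorem smul_mem_range_unitsIncF (g : F ≃ₐ[ℚ] F) {x : Additive Fˣ}
    (hx : x ∈ (unitsIncF F).range) : g • x ∈ (unitsIncF F).range := by
  obtain ⟨u, rfl⟩ := hx
  exact ⟨Additive.ofMul (Units.map (RingOfIntegers.mapRingEquiv g.toRingEquiv :
    𝓞 F →* 𝓞 F) u.toMul), Units.ext rfl⟩

/-- The logarithm of the absolute value at an infinite place. -/
def logAbs (w : InfinitePlace F) : Additive Fˣ →+ ℝ :=
  AddMonoidHom.mk' (fun x => Real.log (w ((x.toMul : Fˣ) : F))) fun x y => by
    rw [toMul_add, Units.val_mul, map_mul, Real.log_mul]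
    · exact (InfinitePlace.pos_iff.mpr x.toMul.ne_zero).ne'
    · exact (InfinitePlace.pos_iff.mpr y.toMul.ne_zero).ne'

theorem logAbs_smul (w : InfinitePlace F) (g : F ≃ₐ[ℚ] F) (x : Additive Fˣ) :
    logAbs w (g • x) = logAbs (g⁻¹ • w) x := rfl

variable [IsGalois ℚ F]

/-- A totally complex field has a conjugation at each infinite place. -/
theorem exists_conj (hF : ∀ w : InfinitePlace F, w.IsComplex) (w : InfinitePlace F) :
    ∃ g : F ≃ₐ[ℚ] F, g ≠ 1 ∧ g * g = 1 ∧ ComplexEmbedding.IsConj w.embedding g ∧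
      g ∈ MulAction.stabilizer (F ≃ₐ[ℚ] F) w ∧
      ∀ h ∈ MulAction.stabilizer (F ≃ₐ[ℚ] F) w, h = 1 ∨ h = g := by
  have hr : w.IsRamified ℚ := by
    rw [InfinitePlace.isRamified_iff, Subsingleton.elim (w.comap (algebraMap ℚ F)) Rat.infinitePlace]
    exact ⟨hF w, Rat.isReal_infinitePlace⟩
  obtain ⟨g, hg⟩ := InfinitePlace.exists_isConj_of_isRamified (φ := w.embedding)
    (by rwa [InfinitePlace.mk_embedding])
  refine ⟨g, fun e => ?_, ?_, hg, ?_, fun h hh => ?_⟩
  · rw [e, ComplexEmbedding.isConj_one_iff] at hg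
    exact InfinitePlace.isComplex_iff.mp (hF w) hg
  · refine AlgEquiv.ext fun x => w.embedding.injective ?_
    rw [AlgEquiv.mul_apply, hg.eq, hg.eq, star_star, AlgEquiv.one_apply]
  · rw [← InfinitePlace.mk_embedding w, InfinitePlace.mem_stabilizer_mk_iff]
    exact Or.inr hg
  · rw [← InfinitePlace.mk_embedding w, InfinitePlace.mem_stabilizer_mk_iff] at hh
    exact hh.imp id fun h' => h'.ext hg

/-- The map from the lattice on `c \ G` given by the conjugates of an element. -/
def conjMap (c : Subgroup (F ≃ₐ[ℚ] F)) [Fintype c] (u : Additive Fˣ) :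
    CoInd c (TrivZ c) →+ Additive Fˣ :=
  AddMonoidHom.mk' (fun f => ∑ x : F ≃ₐ[ℚ] F, TrivZ.of.symm (CoInd.fn f x) • (x⁻¹ • u))
    fun f f' => by
      rw [← Finset.sum_add_distrib]
      refine Finset.sum_congr rfl fun x _ => ?_
      rw [map_add CoInd.fn, Pi.add_apply, map_add]
      exact add_zsmul _ _ _

theorem conjMap_apply (c : Subgroup (F ≃ₐ[ℚ] F)) [Fintype c] (u : Additive Fˣ)
    (f : CoInd c (TrivZ c)) :
    conjMap c u f = ∑ x : F ≃ₐ[ℚ] F, TrivZ.of.symm (CoInd.fn f x) • (x⁻¹ • u) := rfl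

theorem conjMap_smul (c : Subgroup (F ≃ₐ[ℚ] F)) [Fintype c] (u : Additive Fˣ)
    (g : F ≃ₐ[ℚ] F) (f : CoInd c (TrivZ c)) : conjMap c u (g • f) = g • conjMap c u f := by
  rw [conjMap_apply, conjMap_apply, Finset.smul_sum]
  refine Fintype.sum_equiv (Equiv.mulRight g) _ _ fun x => ?_
  rw [Equiv.coe_mulRight, CoInd.fn_smul, smul_comm g (TrivZ.of.symm _) ((x * g)⁻¹ • u),
    smul_smul g, mul_inv_rev, mul_inv_cancel_left]

/-- **A Minkowski unit.** -/
theorem exists_minkowski (hF : ∀ w : InfinitePlace F, w.IsComplex) :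
    ∃ (c : Subgroup (F ≃ₐ[ℚ] F)) (g : F ≃ₐ[ℚ] F) (φ : F →+* ℂ) (u : Additive Fˣ)
      (_ : Fintype c),
      g ∈ c ∧ g * g = 1 ∧ (∀ h ∈ c, h = 1 ∨ h = g) ∧ ComplexEmbedding.IsConj φ g ∧
      Nat.card c = 2 ∧ (∀ f, conjMap c u f ∈ (unitsIncF F).range) ∧
      (conjMap c u).ker = (constCoInd c).range ∧
      (conjMap c u).range.relIndex (unitsIncF F).range ≠ 0 := by
  classical
  obtain ⟨w₁⟩ : Nonempty (InfinitePlace F) := inferInstance
  obtain ⟨g, hg1, hgg, hgφ, hgc, hc⟩ := exists_conj hF w₁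
  set c := MulAction.stabilizer (F ≃ₐ[ℚ] F) w₁
  letI : Fintype c := Fintype.ofFinite c
  have hcard : Nat.card c = 2 := Nat.card_eq_two_iff.mpr ⟨⟨1, one_mem c⟩, ⟨g, hgc⟩,
    fun e => hg1 (congrArg Subtype.val e).symm,
    Set.eq_univ_of_forall fun x => (hc x.1 x.2).imp (fun h => Subtype.ext h) fun h => Subtype.ext h⟩
  obtain ⟨v, hv⟩ := NumberField.Units.dirichletUnitTheorem.exists_unit F w₁
  set a : Additive Fˣ := unitsIncF F (Additive.ofMul v)
  have ha : a ∈ (unitsIncF F).range := ⟨_, rfl⟩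
  set u : Additive Fˣ := 2 • (a + g • a) with hu
  have huR : u ∈ (unitsIncF F).range :=
    nsmul_mem (add_mem ha (smul_mem_range_unitsIncF g ha)) 2
  -- the norm
  have hnorm : ∑ x : F ≃ₐ[ℚ] F, x • u = 0 := by
    have hg' : ∑ x : F ≃ₐ[ℚ] F, x • g • a = ∑ x : F ≃ₐ[ℚ] F, x • a :=
      Fintype.sum_equiv (Equiv.mulRight g) _ _ fun x => by rw [smul_smul]; rfl
    have e : ∑ x : F ≃ₐ[ℚ] F, x • u = 2 • 2 • ∑ x : F ≃ₐ[ℚ] F, x • a := by
      have h1 : ∀ x : F ≃ₐ[ℚ] F, x • u = 2 • (x • a) + 2 • (x • g • a) := fun x => by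
        rw [hu, two_nsmul, two_nsmul, two_nsmul, smul_add, smul_add]
        abel
      have hs : ∀ f : (F ≃ₐ[ℚ] F) → Additive Fˣ, ∑ x, 2 • f x = 2 • ∑ x, f x := fun f =>
        (map_sum (nsmulAddMonoidHom 2) f Finset.univ).symm
      rw [Finset.sum_congr rfl fun x _ => h1 x, Finset.sum_add_distrib, hs, hs, hg', ← two_nsmul]
    rw [e, smul_smul]
    refine Additive.toMul.injective (Units.ext ?_)
    rw [toMul_nsmul, toMul_sum, Units.val_pow_eq_pow_val, Units.coe_prod]
    show (∏ x : F ≃ₐ[ℚ] F, x ((v : 𝓞 F) : F)) ^ (2 * 2) = 1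
    rw [← Algebra.norm_eq_prod_automorphisms ℚ, ← map_pow]
    have h1 : (Algebra.norm ℚ ((v : 𝓞 F) : F)) ^ 2 = 1 := by
      rw [← sq_abs, NumberField.Units.norm, one_pow]
    rw [pow_mul, h1, one_pow, map_one]
  -- the logarithms at `w₁`
  let lam : (F ≃ₐ[ℚ] F) → ℝ := fun x => logAbs w₁ (x • u)
  have hlamsum : ∑ x, lam x = 0 := by
    simp only [lam, ← map_sum, hnorm, map_zero]
  have hneg : ∀ x ∉ c, lam x < 0 := by
    intro x hx
    have key : ∀ y : F ≃ₐ[ℚ] F, y⁻¹ • w₁ ≠ w₁ → logAbs w₁ (y • a) < 0 := fun y hy => by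
      rw [logAbs_smul]
      exact hv _ hy
    have h1 : x⁻¹ • w₁ ≠ w₁ := fun e => hx (by
      rw [inv_smul_eq_iff] at e
      exact MulAction.mem_stabilizer_iff.mpr e.symm)
    have h2 : (x * g)⁻¹ • w₁ ≠ w₁ := fun e => hx (by
      rw [inv_smul_eq_iff, mul_smul, MulAction.mem_stabilizer_iff.mp hgc] at e
      exact MulAction.mem_stabilizer_iff.mpr e.symm)
    simp only [lam, hu, smul_comm x 2 (a + g • a), smul_add, map_add, map_nsmul, nsmul_eq_mul]
    push_cast
    rw [smul_smul]
    linarith [key x h1, key (x * g) h2]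
  have hequi : ∀ (f : CoInd c (TrivZ c)) (h : F ≃ₐ[ℚ] F), h ∈ c → ∀ x,
      CoInd.fn f (h * x) = CoInd.fn f x := fun f h hh x => by
    rw [show h * x = ((⟨h, hh⟩ : c) : F ≃ₐ[ℚ] F) * x from rfl, CoInd.fn_equi, TrivZ.smul_eq]
  have hker : (conjMap c u).ker = (constCoInd c).range := by
    ext f
    constructor
    · intro hf
      let m : (F ≃ₐ[ℚ] F) → ℤ := fun x => TrivZ.of.symm (CoInd.fn f x)
      obtain ⟨y, -, hy⟩ := Finset.exists_max_image Finset.univ m Finset.univ_nonempty
      have h0 : ∑ x, (m x : ℝ) * lam (y * x⁻¹) = 0 := by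
        have e := congrArg (fun z => logAbs w₁ (y • z)) (AddMonoidHom.mem_ker.mp hf)
        simp only [conjMap_apply, Finset.smul_sum, map_sum, smul_zero, map_zero] at e
        rw [← e]
        refine Finset.sum_congr rfl fun x _ => ?_
        rw [smul_comm y (TrivZ.of.symm _) (x⁻¹ • u), map_zsmul, smul_smul, zsmul_eq_mul]
      have h1 : ∑ x, lam (y * x⁻¹) = 0 := by
        rw [← hlamsum]
        exact Fintype.sum_equiv ((Equiv.inv _).trans (Equiv.mulLeft y)) _ _ fun x => rfl
      have h2 : ∑ x, ((m x : ℝ) - m y) * lam (y * x⁻¹) = 0 := by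
        simp only [sub_mul, Finset.sum_sub_distrib, h0, ← Finset.mul_sum, h1, mul_zero, sub_zero]
      have hcst : ∀ x, y * x⁻¹ ∈ c → m x = m y := fun x hx => by
        have e := hequi f _ hx x
        rw [inv_mul_cancel_right] at e
        simp only [m, e]
      have h3 : ∀ x ∈ Finset.univ, 0 ≤ ((m x : ℝ) - m y) * lam (y * x⁻¹) := by
        intro x _
        by_cases hx : y * x⁻¹ ∈ c
        · rw [hcst x hx, sub_self, zero_mul]
        · exact mul_nonneg_of_nonpos_of_nonpos
            (sub_nonpos.mpr (Int.cast_le.mpr (hy x (Finset.mem_univ x)))) (hneg _ hx).le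
      have h4 : ∀ x, m x = m y := fun x => by
        by_cases hx : y * x⁻¹ ∈ c
        · exact hcst x hx
        · have := (Finset.sum_eq_zero_iff_of_nonneg h3).mp h2 x (Finset.mem_univ x)
          rcases mul_eq_zero.mp this with h | h
          · exact_mod_cast sub_eq_zero.mp h
          · exact absurd h (hneg _ hx).ne
      refine ⟨TrivZ.of (m y), CoInd.ext fun x => ?_⟩
      rw [fn_constCoInd, AddEquiv.symm_apply_apply, ← h4 x]
      exact AddEquiv.apply_symm_apply _ _
    · rintro ⟨n, rfl⟩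
      rw [AddMonoidHom.mem_ker, conjMap_apply]
      simp only [fn_constCoInd, AddEquiv.symm_apply_apply]
      rw [← show TrivZ.of.symm n • ∑ x : F ≃ₐ[ℚ] F, x⁻¹ • u =
        ∑ x : F ≃ₐ[ℚ] F, TrivZ.of.symm n • x⁻¹ • u from
          map_sum (zsmulAddGroupHom (TrivZ.of.symm n) : Additive Fˣ →+ Additive Fˣ) _ _, show ∑ x : F ≃ₐ[ℚ] F, x⁻¹ • u = ∑ x : F ≃ₐ[ℚ] F, x • u from
        Fintype.sum_equiv (Equiv.inv _) _ _ fun x => rfl, hnorm, zsmul_zero]
  have hmem : ∀ f, conjMap c u f ∈ (unitsIncF F).range := fun f => by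
    rw [conjMap_apply]
    exact sum_mem fun x _ => zsmul_mem (smul_mem_range_unitsIncF _ huR) _
  refine ⟨c, g, w₁.embedding, u, inferInstance, hgc, hgg, hc, hgφ, hcard, hmem, hker, ?_⟩
  -- the rank
  haveI : Module.Finite ℤ (CoInd c (TrivZ c)) :=
    Module.Finite.equiv
      ((CoInd.coords (H := c) (N := TrivZ c)).symm.toIntLinearEquiv.symm.trans
        (LinearEquiv.piCongrRight fun _ => (TrivZ.of (G := c)).symm.toIntLinearEquiv)).symm
  have hcoind : Module.finrank ℤ (CoInd c (TrivZ c)) = Fintype.card (InfinitePlace F) := by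
    rw [((CoInd.coords (H := c) (N := TrivZ c)).symm.toIntLinearEquiv.symm.trans
        (LinearEquiv.piCongrRight fun _ => (TrivZ.of (G := c)).symm.toIntLinearEquiv)).finrank_eq]
    letI : Fintype ((F ≃ₐ[ℚ] F) ⧸ c) := Fintype.ofFinite _
    rw [Module.finrank_pi, ← Nat.card_eq_fintype_card, ← Nat.card_eq_fintype_card]
    refine Nat.card_congr ((MulAction.orbitEquivQuotientStabilizer _ w₁).symm.trans
      (Equiv.subtypeUnivEquiv fun w => ?_))
    rw [MulAction.mem_orbit_iff]
    exact InfinitePlace.exists_smul_eq_of_comap_eq (Subsingleton.elim _ _)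
  have hk : Module.finrank ℤ (AddSubgroup.toIntSubmodule (constCoInd c).range) = 1 := by
    rw [show Module.finrank ℤ (AddSubgroup.toIntSubmodule (constCoInd c).range) = _ from
      (LinearEquiv.ofInjective (constCoInd c).toIntLinearMap
        (constCoInd_injective c)).finrank_eq.symm,
      (TrivZ.of (G := F ≃ₐ[ℚ] F)).toIntLinearEquiv.finrank_eq.symm]
    exact Module.finrank_self ℤ
  have hrk := Submodule.finrank_quotient_add_finrank (LinearMap.ker (conjMap c u).toIntLinearMap)
  rw [(conjMap c u).toIntLinearMap.quotKerEquivRange.finrank_eq] at hrk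
  have hker' : LinearMap.ker (conjMap c u).toIntLinearMap =
      AddSubgroup.toIntSubmodule (constCoInd c).range := by
    rw [← hker]; rfl
  rw [hker', hk, hcoind] at hrk
  haveI : Module.Finite ℤ (AddSubgroup.toIntSubmodule (unitsIncF F).range) :=
    Module.Finite.equiv (LinearEquiv.ofInjective (unitsIncF F).toIntLinearMap unitsIncF_injective)
  rw [AddSubgroup.relIndex]
  haveI : Module.Finite ℤ (unitsIncF F).range :=
    (inferInstance : Module.Finite ℤ (AddSubgroup.toIntSubmodule (unitsIncF F).range))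
  refine index_ne_zero_of_finrank_eq _ ?_
  rw [show Module.finrank ℤ (unitsIncF F).range = Units.rank F from finrank_range_unitsIncF,
    Units.rank]
  have hle : (conjMap c u).range ≤ (unitsIncF F).range := by
    rintro _ ⟨f, rfl⟩; exact hmem f
  rw [show Module.finrank ℤ (AddSubgroup.toIntSubmodule
      ((conjMap c u).range.addSubgroupOf (unitsIncF F).range)) =
      Module.finrank ℤ (LinearMap.range (conjMap c u).toIntLinearMap) from
    (AddSubgroup.addSubgroupOfEquivOfLe hle).toIntLinearEquiv.finrank_eq]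
  omega

end Fermat.Agent.CFT.Selmer
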