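import Fermat.Agent.CFT.Selmer.ClassesT
import Fermat.Agent.CFT.Selmer.Minkowski
import Fermat.Agent.CFT.Local.PowIndex

/-!
# Finiteness of `p`-torsion and `p`-cotorsion: local units, `T`-units, classes outside `T`
-/

set_option autoImplicit false
set_option synthInstance.maxHeartbeats 200000
set_option maxHeartbeats 1000000
set_option linter.unusedSectionVars false
set_option linter.style.haveILetI false

noncomputable section

namespace Fermat.Agent.CFT.Selmer

open ExtCitation Fermat.Agent.Arith IntermediateField Fermat.Agent.CFT.Local Fermat.Agent.CFT.Idele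
open Fermat.Agent.CFT.Duality Fermat.Agent.CFT.Euler
open scoped NumberField

local instance factPrimeFin (q : Nat.Primes) : Fact (q : ℕ).Prime := ⟨q.2⟩

variable {p : ℕ} [hp : Fact p.Prime]

/-- Finitely generated groups. -/
theorem modPFinite_of_finite_int (M : Type*) [AddCommGroup M] [Module.Finite ℤ M] :
    ModPFinite p M := by
  set μ := (nsmulAddMonoidHom p : M →+ M)
  refine ⟨?_, ?_⟩
  · haveI : Module.Finite ℤ (AddSubgroup.toIntSubmodule μ.ker) := inferInstance
    refine Module.finite_of_fg_torsion (AddSubgroup.toIntSubmodule μ.ker) fun x => ?_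
    refine ⟨⟨(p : ℤ), mem_nonZeroDivisors_of_ne_zero (Int.natCast_ne_zero.mpr hp.out.ne_zero)⟩,
      Subtype.ext ?_⟩
    show (p : ℤ) • (x : M) = 0
    rw [natCast_zsmul]
    exact x.2
  · haveI : Finite (M ⧸ AddSubgroup.toIntSubmodule μ.range) := by
      refine Module.finite_of_fg_torsion _ fun x => ?_
      refine ⟨⟨(p : ℤ), mem_nonZeroDivisors_of_ne_zero (Int.natCast_ne_zero.mpr hp.out.ne_zero)⟩,
        ?_⟩
      induction x using Submodule.Quotient.induction_on with
      | H y =>
        show (p : ℤ) • Submodule.Quotient.mk y = (0 : M ⧸ AddSubgroup.toIntSubmodule μ.range)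
        rw [← Submodule.Quotient.mk_smul, Submodule.Quotient.mk_eq_zero, natCast_zsmul]
        exact ⟨y, rfl⟩
    show Nat.card (M ⧸ μ.range) ≠ 0
    exact (Nat.card_pos (α := M ⧸ AddSubgroup.toIntSubmodule μ.range)).ne'

/-- The quotient in a short exact sequence. -/
theorem modPFinite_of_quotient {A B C : Type*} [AddCommGroup A] [AddCommGroup B] [AddCommGroup C]
    (i : A →+ B) (q : B →+ C) (hi : Function.Injective i) (hex : ∀ y, q y = 0 → ∃ x, i x = y)
    (hq : Function.Surjective q) (hqi : ∀ x, q (i x) = 0) (hA : ModPFinite p A)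
    (hB : ModPFinite p B) : ModPFinite p C := by
  classical
  refine ⟨?_, hB.of_surjective q hq⟩
  haveI := hB.tors
  haveI : Finite (A ⧸ (nsmulAddMonoidHom p : A →+ A).range) := Nat.finite_of_card_ne_zero hA.quot
  have hlift : ∀ y : (nsmulAddMonoidHom p : C →+ C).ker, ∃ z : B, ∃ x : A,
      q z = y.1 ∧ i x = p • z := fun y => by
    obtain ⟨z, hz⟩ := hq y.1
    obtain ⟨x, hx⟩ := hex (p • z) (by rw [map_nsmul, hz]; exact y.2)
    exact ⟨z, x, hz, hx⟩
  choose z x hz hx using hlift
  let cls : (nsmulAddMonoidHom p : C →+ C).ker → A ⧸ (nsmulAddMonoidHom p : A →+ A).range :=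
    fun y => QuotientAddGroup.mk (x y)
  let base : A ⧸ (nsmulAddMonoidHom p : A →+ A).range → (nsmulAddMonoidHom p : C →+ C).ker :=
    fun v => if h : ∃ y, cls y = v then h.choose else 0
  have hdiff : ∀ y, ∃ b : (nsmulAddMonoidHom p : B →+ B).ker,
      q b.1 = y.1 - (base (cls y)).1 := fun y => by
    have hb : cls (base (cls y)) = cls y := by
      simp only [base, dif_pos (⟨y, rfl⟩ : ∃ y', cls y' = cls y)]
      exact (⟨y, rfl⟩ : ∃ y', cls y' = cls y).choose_spec
    obtain ⟨a, ha⟩ := QuotientAddGroup.eq.mp hb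
    replace ha : p • a = -x (base (cls y)) + x y := ha
    refine ⟨⟨z y - z (base (cls y)) - i a, ?_⟩, ?_⟩
    · show p • (z y - z (base (cls y)) - i a) = 0
      rw [smul_sub, smul_sub, ← hx, ← hx, ← map_nsmul, ha, map_add, map_neg]
      abel
    · rw [map_sub, map_sub, hqi, sub_zero, hz, hz]
  choose b hb using hdiff
  refine Finite.of_injective (fun y => (cls y, b y)) fun y y' e => ?_
  obtain ⟨e1, e2⟩ := Prod.ext_iff.mp e
  have h1 := hb y
  rw [show b y = b y' from e2, hb, show cls y = cls y' from e1, sub_left_inj] at h1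
  exact Subtype.ext h1.symm

/-- Local multiplicative groups. -/
theorem modPFinite_units (hp2 : p ≠ 2) {q : ℕ} [Fact q.Prime]
    (E : IntermediateField ℚ_[q] (PadicAlgCl q)) [FiniteDimensional ℚ_[q] E] :
    ModPFinite p (Additive Eˣ) := by
  haveI : NeZero p := ⟨hp.out.ne_zero⟩
  haveI : Finite (powMonoidHom p : Eˣ →* Eˣ).ker :=
    Finite.of_equiv (rootsOfUnity p E) (Equiv.subtypeEquivRight fun _ => Iff.rfl)
  refine ⟨Finite.of_injective
      (fun x => (⟨x.1.toMul, congrArg Additive.toMul x.2⟩ : (powMonoidHom p : Eˣ →* Eˣ).ker))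
      fun a b h => Subtype.ext (congrArg Subtype.val h), ?_⟩
  have h : (powMonoidHom p : Eˣ →* Eˣ).range.index ≠ 0 := by
    rw [Local.index_range_pow hp2]
    refine mul_ne_zero (mul_ne_zero hp.out.ne_zero Nat.card_pos.ne') ?_
    split_ifs
    · exact pow_ne_zero _ hp.out.ne_zero
    · exact one_ne_zero
  rw [← Subgroup.index_toAddSubgroup] at h
  exact h

variable (K : IntermediateField ℚ QBar) [FiniteDimensional ℚ K] [Normal ℚ K]
  (T : Finset Nat.Primes)

theorem numberFieldK : NumberField K := ⟨⟩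

/-- Units of the integers are the elements which are units at every prime. -/
theorem diag_mem_unitIdl_iff (x : Additive Kˣ) :
    (diag K x).toMul ∈ unitIdl K ↔ x ∈ (unitsIncF K).range := by
  show x.toMul ∈ unitsL K ↔ _
  rw [unitsL_eq_range]
  exact ⟨fun ⟨u, hu⟩ => ⟨Additive.ofMul u, congrArg Additive.ofMul hu⟩,
    fun ⟨u, hu⟩ => ⟨u.toMul, congrArg Additive.toMul hu⟩⟩

theorem mem_tUnits_of_mem_range {x : Additive Kˣ} (hx : x ∈ (unitsIncF K).range) :
    x ∈ tUnits K T := fun q _ g => by
  rw [← PT.norm_val_eq, ← Local.mem_unitGroup]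
  exact (diag_mem_unitIdl_iff K x).mpr hx q _

/-- The orders at one place. -/
def ordAt (q : Nat.Primes) :
    Additive Kˣ →+ CoInd (decomp K q) (TrivZ (decomp K q)) :=
  AddMonoidHom.mk' (fun x => CoInd.mk
      (fun σ => TrivZ.of (Local.ordZ (E K q) (val (diag K x).toMul q σ))) fun h σ => by
        rw [TrivZ.smul_eq, ← toGlobal_decompEquiv_symm, val_toGlobal_mul]
        exact congrArg (fun n => TrivZ.of (Multiplicative.toAdd n)) (ord_smul_unit _ _))
    fun x y => CoInd.ext fun σ => by
      rw [map_add CoInd.fn]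
      show TrivZ.of (Local.ordZ (E K q) (val (diag K (x + y)).toMul q σ)) = TrivZ.of _ + TrivZ.of _
      rw [map_add (diag K), PT.val_add_J, Local.ordZ_mul, map_add]

theorem fn_ordAt (q : Nat.Primes) (x : Additive Kˣ) (σ : K ≃ₐ[ℚ] K) :
    CoInd.fn (ordAt K q x) σ = TrivZ.of (Local.ordZ (E K q) (val (diag K x).toMul q σ)) := rfl

theorem ordAt_smul (q : Nat.Primes) (g : K ≃ₐ[ℚ] K) (x : Additive Kˣ) :
    ordAt K q (g • x) = g • ordAt K q x := CoInd.ext fun σ => by
  rw [CoInd.fn_smul, fn_ordAt, fn_ordAt, diag_smul, val_smul_J]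

/-- The orders at the places over `T`. -/
def ordT : tUnits K T →+ ∀ q : ↥T, CoInd (decomp K q) (TrivZ (decomp K q)) :=
  (Pi.addMonoidHom fun q : ↥T => ordAt K (q : Nat.Primes)).comp (tUnits K T).subtype

theorem ordT_apply (x : tUnits K T) (q : ↥T) : ordT K T x q = ordAt K q (x : Additive Kˣ) := rfl

theorem ordT_smul (g : K ≃ₐ[ℚ] K) (x : tUnits K T) : ordT K T (g • x) = g • ordT K T x :=
  funext fun q => by
    rw [ordT_apply, coe_smul_tUnits, ordAt_smul]
    rfl

theorem ordT_eq_zero_iff (x : tUnits K T) :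
    ordT K T x = 0 ↔ (x : Additive Kˣ) ∈ (unitsIncF K).range := by
  rw [← diag_mem_unitIdl_iff, mem_unitIdl]
  constructor
  · intro h q σ
    by_cases hq : q ∈ T
    · have h1 := congrArg (fun F => TrivZ.of.symm (CoInd.fn (F ⟨q, hq⟩) σ)) h
      simp only [ordT_apply, fn_ordAt, AddEquiv.symm_apply_apply, Pi.zero_apply, map_zero] at h1
      exact (Local.ord_eq_one_iff _).mp (Multiplicative.toAdd.injective (h1.trans toAdd_one.symm))
    · rw [Local.mem_unitGroup, ← res_lift K σ, PT.norm_val_eq]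
      exact x.2 q (fun h' => hq (Finset.mem_coe.mp h')) _
  · intro h
    funext q
    refine CoInd.ext fun σ => ?_
    rw [ordT_apply, fn_ordAt, Local.ordZ, (Local.ord_eq_one_iff _).mpr (h q σ), toAdd_one,
      map_zero]
    rfl

theorem finite_coInd_trivZ (H : Subgroup (K ≃ₐ[ℚ] K)) :
    Module.Finite ℤ (CoInd H (TrivZ H)) :=
  Module.Finite.equiv
    ((CoInd.coords (H := H) (N := TrivZ H)).symm.toIntLinearEquiv.symm.trans
      (LinearEquiv.piCongrRight fun _ => (TrivZ.of (G := H)).symm.toIntLinearEquiv)).symm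

theorem modPFinite_tUnits : ModPFinite p (tUnits K T) := by
  haveI := numberFieldK K
  set o := ordT K T
  haveI : ∀ q : ↥T, Module.Finite ℤ (CoInd (decomp K q) (TrivZ (decomp K q))) := fun q =>
    finite_coInd_trivZ K _
  haveI : Module.Finite ℤ (Additive (𝓞 K)ˣ) :=
    Module.Finite.iff_addGroup_fg.mpr (by
      haveI : Group.FG (𝓞 K)ˣ := Group.fg_iff_monoid_fg.mpr inferInstance
      exact AddGroup.fg_of_group_fg)
  refine ModPFinite.ses
    ((unitsIncF K).codRestrict (tUnits K T) fun u => mem_tUnits_of_mem_range K T ⟨u, rfl⟩)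
    o.rangeRestrict (fun a b h => unitsIncF_injective (congrArg Subtype.val h)) (fun y hy => ?_)
    o.rangeRestrict_surjective (fun u => Subtype.ext ((ordT_eq_zero_iff K T _).mpr ⟨u, rfl⟩))
    (modPFinite_of_finite_int _) (@modPFinite_of_finite_int _ _ _ _ ?_)
  · obtain ⟨u, hu⟩ := (ordT_eq_zero_iff K T y).mp (congrArg Subtype.val hy)
    exact ⟨u, Subtype.ext hu⟩
  · exact (inferInstance : Module.Finite ℤ (AddSubgroup.toIntSubmodule o.range))

theorem modPFinite_CT (hp2 : p ≠ 2) (hT : T.Nonempty) (hgen : Generates K T) :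
    ModPFinite p (CT K T) := by
  refine modPFinite_of_quotient (unitsMap K T) (classMapT K T) (unitsMap_injective K T hT)
    (exists_unitsMap_eq K T) (classMapT_surjective K T hgen) (classMapT_unitsMap K T)
    (modPFinite_tUnits K T) (ModPFinite.pi fun q => CoInd.modPFinite (modPFinite_units hp2 _))

end Fermat.Agent.CFT.Selmer
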