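import Fermat.Agent.CFT.Euler.CoInd
import Fermat.Agent.CFT.Coh.Level

/-!
# The free presentation of a module as a presentation inside an induced lattice

Restriction from the free lattice to the relations, in terms of equivariant maps on the lattice,
and coinduction of equivariant maps.
-/

set_option autoImplicit false
set_option linter.unusedSectionVars false
set_option linter.style.haveILetI false

noncomputable section

namespace Fermat.Agent.CFT.Selmer

open Fermat.Agent.CFT Fermat.Agent.CFT.Euler

variable {p : ℕ} [hp : Fact p.Prime] {G : Type} [Group G] [Fintype G] {A : Type} [AddCommGroup A]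
  [DistribMulAction G A] {ι : Type} [Fintype ι] {ε : Lat G ι →+ A}

/-- The free presentation. -/
abbrev presOf (hε : Presentation p ε) : Pres p G A where
  P := Lat G ι
  induced := Lat.isInduced
  K := ⊤
  S := ε.ker
  hK _ _ _ := trivial
  hS := hε.isStable_ker
  le := le_top
  level := hε.smul_mem
  π := ε.comp (⊤ : AddSubgroup (Lat G ι)).subtype
  surj a := by
    obtain ⟨x, hx⟩ := hε.surjective a
    exact ⟨⟨x, trivial⟩, hx⟩
  ker _ := Iff.rfl
  equi g x := hε.map_smul g (x : Lat G ι)

variable (hε : Presentation p ε)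

theorem presOf_full (x : (presOf hε).P) : x ∈ (presOf hε).K := trivial

variable {M : Type} [AddCommGroup M]

theorem mem_range_res_iff [DistribMulAction G M] (f : equivHom (C := M) (presOf hε).hS) :
    f ∈ ((presOf hε).res M).range ↔
      ∃ Y : Lat G ι →+ M, (∀ (g : G) x, Y (g • x) = g • Y x) ∧ ∀ s : ε.ker, f.1 s = Y s := by
  constructor
  · rintro ⟨F, rfl⟩
    exact ⟨F.1.comp ((AddMonoidHom.id _).codRestrict ⊤ fun _ => trivial),
      fun g x => F.2 g ⟨x, trivial⟩, fun s => rfl⟩
  · rintro ⟨Y, hY, hYs⟩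
    exact ⟨⟨Y.comp (⊤ : AddSubgroup (Lat G ι)).subtype, fun g x => hY g (x : Lat G ι)⟩,
      Subtype.ext (AddMonoidHom.ext fun s => (hYs s).symm)⟩

variable {H : Subgroup G} [Fintype H]

theorem mem_range_res_restrict_iff [DistribMulAction H M]
    (f : equivHom (C := M) ((presOf hε).restrict H).hS) :
    f ∈ (((presOf hε).restrict H).res M).range ↔
      ∃ Y : Lat G ι →+ M, (∀ (h : H) x, Y ((h : G) • x) = h • Y x) ∧
        ∀ s : ε.ker, f.1 s = Y s := by
  constructor
  · rintro ⟨F, rfl⟩
    exact ⟨F.1.comp ((AddMonoidHom.id _).codRestrict ⊤ fun _ => trivial),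
      fun h x => F.2 h ⟨x, trivial⟩, fun s => rfl⟩
  · rintro ⟨Y, hY, hYs⟩
    exact ⟨⟨Y.comp (⊤ : AddSubgroup (Lat G ι)).subtype,
      fun h (x : (⊤ : AddSubgroup (Lat G ι))) => hY h (x : Lat G ι)⟩,
      Subtype.ext (AddMonoidHom.ext fun s => (hYs s).symm)⟩

/-- Equivariant maps on the free lattice lift through equivariant maps hitting their values. -/
theorem exists_equivariant_lift {N : Type} [AddCommGroup N] [DistribMulAction G M]
    [DistribMulAction G N] (q : M →+ N) (hq : ∀ (g : G) (m : M), q (g • m) = g • q m)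
    (Y : Lat G ι →+ N) (hY : ∀ (g : G) x, Y (g • x) = g • Y x)
    (hsur : ∀ i, ∃ m, q m = Y (Lat.e i 1)) :
    ∃ Y' : Lat G ι →+ M, (∀ (g : G) x, Y' (g • x) = g • Y' x) ∧ ∀ x, q (Y' x) = Y x := by
  choose m hm using hsur
  refine ⟨Lat.ofBasis fun i x => x • m i, fun g x => ?_, fun x => ?_⟩
  · exact Lat.map_smul_of_basis _ g
      (fun i y => by rw [Lat.ofBasis_e, Lat.ofBasis_e, mul_smul]) x
  · refine DFunLike.congr_fun (Lat.hom_ext (φ := q.comp _) (ψ := Y) fun i y => ?_) x
    rw [AddMonoidHom.comp_apply, Lat.ofBasis_e, hq, hm, ← hY, Lat.smul_e, mul_one]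

variable [DistribMulAction H M]

/-- Evaluation at `1` of maps into a coinduced module. -/
def evHom {R : AddSubgroup (Lat G ι)} (hR : IsStable G R) :
    equivHom (C := CoInd H M) hR →+ equivHom (C := M) (IsStable.restrict hR H) :=
  AddMonoidHom.mk' (fun f => ⟨CoInd.ev.comp f.1, fun h s => by
    show CoInd.ev (f.1 (smulS hR (h : G) s)) = h • CoInd.ev (f.1 s)
    rw [f.2, CoInd.ev_smul_mem]⟩) fun f f' =>
      Subtype.ext (AddMonoidHom.ext fun s => map_add CoInd.ev _ _)

theorem evHom_bijective {R : AddSubgroup (Lat G ι)} (hR : IsStable G R) :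
    Function.Bijective (evHom (M := M) (H := H) hR) :=
  CoInd.postEv_bijective hR

/-- Coinduction of an equivariant map. -/
def coindHom {R : AddSubgroup (Lat G ι)} (hR : IsStable G R) :
    equivHom (C := M) (IsStable.restrict hR H) →+ equivHom (C := CoInd H M) hR :=
  (AddEquiv.ofBijective (evHom hR) (evHom_bijective hR)).symm.toAddMonoidHom

theorem evHom_coindHom {R : AddSubgroup (Lat G ι)} (hR : IsStable G R)
    (f : equivHom (C := M) (IsStable.restrict hR H)) : evHom hR (coindHom hR f) = f :=
  (AddEquiv.ofBijective (evHom hR) (evHom_bijective hR)).apply_symm_apply f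

theorem coindHom_evHom {R : AddSubgroup (Lat G ι)} (hR : IsStable G R)
    (f : equivHom (C := CoInd H M) hR) : coindHom hR (evHom hR f) = f :=
  (AddEquiv.ofBijective (evHom hR) (evHom_bijective hR)).symm_apply_apply f

theorem ev_coindHom {R : AddSubgroup (Lat G ι)} (hR : IsStable G R)
    (f : equivHom (C := M) (IsStable.restrict hR H)) (s : R) :
    CoInd.ev ((coindHom hR f).1 s) = f.1 s :=
  DFunLike.congr_fun (congrArg Subtype.val (evHom_coindHom hR f)) s

/-- The coinduced map of a restriction is a restriction. -/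
theorem coindHom_mem_range {f : equivHom (C := M) ((presOf hε).restrict H).hS}
    (hf : f ∈ (((presOf hε).restrict H).res M).range) :
    coindHom hε.isStable_ker f ∈ ((presOf hε).res (CoInd H M)).range := by
  obtain ⟨F, rfl⟩ := hf
  obtain ⟨F', hF'⟩ := (evHom_bijective (M := M) (H := H) (presOf hε).hK).2 F
  refine ⟨F', (evHom_bijective hε.isStable_ker).1 ?_⟩
  rw [evHom_coindHom, ← hF']
  rfl

/-- Postcomposition with an equivariant map preserves restrictions. -/
theorem postHom_mem_range [DistribMulAction G M] {N : Type} [AddCommGroup N]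
    [DistribMulAction G N] (φ : M →+ N) (hφ : ∀ (g : G) (m : M), φ (g • m) = g • φ m)
    {f : equivHom (C := M) (presOf hε).hS} (hf : f ∈ ((presOf hε).res M).range) :
    postHom (presOf hε).hS φ hφ f ∈ ((presOf hε).res N).range := by
  obtain ⟨F, rfl⟩ := hf
  exact ⟨postHom (presOf hε).hK φ hφ F, rfl⟩

end Fermat.Agent.CFT.Selmer
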