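import Fermat.Agent.CFT.Selmer.KummerLocal
import Fermat.Agent.CFT.Selmer.Finiteness
import Fermat.Agent.CFT.Selmer.Lattice
import Fermat.Agent.CFT.TWPrimes.Main

/-!
# Taylor–Wiles primes detect the families of units on relations

For a finite `T₀` there is `m` such that every depth has `m` Taylor–Wiles primes at which local
triviality of a family of `T₀`-units forces it to be trivial; if moreover `T₀` generates the
classes, the same holds for families of units at `T₀` and these primes.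
-/

set_option autoImplicit false
set_option synthInstance.maxHeartbeats 200000
set_option maxHeartbeats 1000000
set_option linter.unusedSectionVars false
set_option linter.style.haveILetI false

noncomputable section

namespace Fermat.Agent.CFT.Selmer

open ExtCitation Fermat.Agent.Arith IntermediateField Fermat.Agent.CFT.Local Fermat.Agent.CFT.Idele
open Fermat.Agent.CFT.Duality Fermat.Agent.CFT.Euler

local instance factPrimeDet (q : Nat.Primes) : Fact (q : ℕ).Prime := ⟨q.2⟩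

variable {K : IntermediateField ℚ QBar} [FiniteDimensional ℚ K] [Normal ℚ K]

/-- The component at the chosen place over `q`. -/
def locK (q : Nat.Primes) : Additive Kˣ →+ Additive (E K q)ˣ :=
  ((CoInd.ev (H := decomp K q)).comp (comp q)).comp (diag K)

theorem locK_apply (q : Nat.Primes) (x : Additive Kˣ) :
    locK q x = Additive.ofMul (val (diag K x).toMul q 1) := rfl

theorem locK_smul (q : Nat.Primes) (d : decomp K q) (x : Additive Kˣ) :
    locK q ((d : K ≃ₐ[ℚ] K) • x) = d • locK q x := by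
  show CoInd.ev (comp q (diag K ((d : K ≃ₐ[ℚ] K) • x))) = d • CoInd.ev (comp q (diag K x))
  rw [diag_smul, comp_smul, CoInd.ev_smul_mem]

/-- The order at the chosen place. -/
def ordE (q : Nat.Primes) : Additive (E K q)ˣ →+ TrivZ (decomp K q) :=
  AddMonoidHom.mk' (fun y => TrivZ.of (Local.ordZ (E K q) y.toMul)) fun y z => by
    rw [toMul_add, Local.ordZ_mul, map_add]

theorem ordE_smul (q : Nat.Primes) (d : decomp K q) (y : Additive (E K q)ˣ) :
    ordE q (d • y) = d • ordE q y := by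
  rw [TrivZ.smul_eq, decomp_smul_def]
  exact congrArg (fun n => TrivZ.of (Multiplicative.toAdd n)) (ord_smul_unit _ _)

theorem ordE_surjective (q : Nat.Primes) : Function.Surjective (ordE (K := K) q) := fun n => by
  obtain ⟨x, hx⟩ := Local.ord_surjective (E K q) (Multiplicative.ofAdd (TrivZ.of.symm n))
  refine ⟨Additive.ofMul x, ?_⟩
  show TrivZ.of (Local.ordZ (E K q) x) = n
  rw [Local.ordZ, hx, toAdd_ofAdd, AddEquiv.apply_symm_apply]

theorem ordAt_eq_map (q : Nat.Primes) (x : Additive Kˣ) :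
    ordAt K q x = CoInd.map (ordE q) (ordE_smul q) (comp q (diag K x)) :=
  CoInd.ext fun _ => rfl

/-- An element whose power is a unit at a place is a unit there. -/
theorem mem_tUnits_of_nsmul {p : ℕ} (hp0 : p ≠ 0) {T : Finset Nat.Primes} {x : Additive Kˣ}
    (hx : p • x ∈ tUnits K T) : x ∈ tUnits K T := fun q hq g => by
  have hn : ∀ n : ℕ, PT.normAt K q g (diag K (n • x)) = PT.normAt K q g (diag K x) ^ n := fun n => by
    induction n with
    | zero => rw [zero_smul, map_zero, PT.normAt_zero, pow_zero]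
    | succ n ih => rw [succ_nsmul, map_add, PT.normAt_add, ih, pow_succ]
  have h1 : PT.normAt K q g (diag K x) ^ p = 1 := (hn p).symm.trans (hx q hq g)
  exact (pow_eq_one_iff_of_nonneg (show 0 ≤ PT.normAt K q g (diag K x) from norm_nonneg _) hp0).mp h1

/-- Orders at `Q` can be prescribed, when `T₀` generates the classes. -/
theorem exists_ordAt_eq {T₀ T : Finset Nat.Primes} (hgen : Generates K T₀) (hle : T₀ ⊆ T)
    (F : ∀ q : ↥(T \ T₀), CoInd (decomp K q) (TrivZ (decomp K q))) :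
    ∃ x : tUnits K T, ∀ q : ↥(T \ T₀), ordAt K q (x : Additive Kˣ) = F q := by
  choose G hG using fun q : ↥(T \ T₀) =>
    CoInd.map_surjective (G := K ≃ₐ[ℚ] K) (ordE (q : Nat.Primes)) (ordE_smul (q : Nat.Primes))
      (ordE_surjective (q : Nat.Primes)) (-F q)
  set f := assemble (T \ T₀) G with hf
  obtain ⟨a, ha⟩ := hgen f
  refine ⟨⟨a, fun q hq g => ?_⟩, fun q => ?_⟩
  · have h1 := ha q (fun h => hq (Finset.coe_subset.mpr hle h)) g
    rw [PT.normAt_add] at h1
    have h2 : PT.normAt K q g f = 1 := by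
      rw [← PT.norm_val_eq, hf, val_assemble_notMem _ _
        (fun h => hq (Finset.mem_coe.mpr (Finset.mem_sdiff.mp h).1))]
      simp
    rwa [h2, one_mul] at h1
  · refine CoInd.ext fun σ => ?_
    obtain ⟨g, hg⟩ : ∃ g, res K g = σ := ⟨lift K σ, res_lift K σ⟩
    have h1 := ha (q : Nat.Primes) (fun h => (Finset.mem_sdiff.mp q.2).2 (Finset.mem_coe.mp h)) g
    rw [← PT.norm_val_eq, hg, ← Local.mem_unitGroup, ← Local.ord_eq_one_iff, PT.val_add_J,
      map_mul, hf, val_assemble_mem _ _ q σ] at h1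
    have h2 := congrArg Multiplicative.toAdd h1
    rw [toAdd_mul, toAdd_one] at h2
    have h3 : TrivZ.of (Local.ordZ (E K (q : Nat.Primes)) (CoInd.fn (G q) σ).toMul) =
        -CoInd.fn (F q) σ := by
      show CoInd.fn (CoInd.map (ordE (q : Nat.Primes)) (ordE_smul _) (G q)) σ = _
      rw [hG, map_neg, Pi.neg_apply]
    rw [fn_ordAt]
    rw [show Local.ordZ (E K (q : Nat.Primes)) (val (diag K a).toMul (q : Nat.Primes) σ) =
      -Local.ordZ (E K (q : Nat.Primes)) (CoInd.fn (G q) σ).toMul from eq_neg_of_add_eq_zero_right h2,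
      map_neg, h3, neg_neg]

variable {p : ℕ} [hp : Fact p.Prime] {A ι : Type} [AddCommGroup A]
  [DistribMulAction (K ≃ₐ[ℚ] K) A] [Fintype ι] {ε : Lat (K ≃ₐ[ℚ] K) ι →+ A}

/-- A family on the relations extends equivariantly at `q`. -/
def LocTriv (ε : Lat (K ≃ₐ[ℚ] K) ι →+ A) (q : Nat.Primes) (h : ε.ker →+ Additive Kˣ) : Prop :=
  ∃ y : Lat (K ≃ₐ[ℚ] K) ι →+ Additive (E K q)ˣ,
    (∀ (d : decomp K q) x, y ((d : K ≃ₐ[ℚ] K) • x) = d • y x) ∧ ∀ s : ε.ker, y s = locK q (h s)

variable (hε : Presentation p ε)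

/-- From detection on `T₀` to detection on `T`. -/
theorem mem_range_of_locTriv {T₀ T : Finset Nat.Primes} (hgen : Generates K T₀) (hle : T₀ ⊆ T)
    (hdet : ∀ h : equivHom (C := tUnits K T₀) (presOf hε).hS,
      (∀ q ∈ T, q ∉ T₀ → LocTriv ε q ((tUnits K T₀).subtype.comp h.1)) →
      h ∈ ((presOf hε).res (tUnits K T₀)).range)
    (h : equivHom (C := tUnits K T) (presOf hε).hS)
    (hloc : ∀ q ∈ T, q ∉ T₀ → LocTriv ε q ((tUnits K T).subtype.comp h.1)) :
    h ∈ ((presOf hε).res (tUnits K T)).range := by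
  classical
  choose y hy hys using fun q : ↥(T \ T₀) =>
    hloc q (Finset.mem_sdiff.mp q.2).1 (Finset.mem_sdiff.mp q.2).2
  let YZ : Lat (K ≃ₐ[ℚ] K) ι →+ ∀ q : ↥(T \ T₀), CoInd (decomp K q) (TrivZ (decomp K q)) :=
    AddMonoidHom.mk'
      (fun x q => CoInd.mk (fun σ => ordE (q : Nat.Primes) (y q (σ • x))) fun d σ => by
        rw [mul_smul, hy, ordE_smul])
      fun x x' => funext fun q => CoInd.ext fun σ => by
        show ordE _ (y q (σ • (x + x'))) = ordE _ (y q (σ • x)) + ordE _ (y q (σ • x'))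
        rw [smul_add, map_add, map_add]
  have hYZ : ∀ (g : K ≃ₐ[ℚ] K) x, YZ (g • x) = g • YZ x := fun g x => funext fun q =>
    CoInd.ext fun σ => by
      show ordE _ (y q (σ • g • x)) = ordE _ (y q ((σ * g) • x))
      rw [mul_smul]
  let oQ : tUnits K T →+ ∀ q : ↥(T \ T₀), CoInd (decomp K q) (TrivZ (decomp K q)) :=
    (Pi.addMonoidHom fun q : ↥(T \ T₀) => ordAt K (q : Nat.Primes)).comp (tUnits K T).subtype
  obtain ⟨Y, hY, hYo⟩ := exists_equivariant_lift (M := tUnits K T) oQ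
    (fun g x => funext fun q => ordAt_smul K (q : Nat.Primes) g (x : Additive Kˣ)) YZ hYZ fun i => by
      obtain ⟨x, hx⟩ := exists_ordAt_eq hgen hle (YZ (Lat.e i 1))
      exact ⟨x, funext hx⟩
  have hord : ∀ (s : ε.ker) (q : ↥(T \ T₀)),
      ordAt K q ((h.1 s : tUnits K T) : Additive Kˣ) =
        ordAt K q ((Y s : tUnits K T) : Additive Kˣ) := by
    intro s q
    rw [show ordAt K q ((Y s : tUnits K T) : Additive Kˣ) = YZ (s : Lat (K ≃ₐ[ℚ] K) ι) q from
      congrFun (hYo s) q]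
    refine CoInd.ext fun σ => ?_
    show _ = ordE (q : Nat.Primes) (y q (σ • (s : Lat (K ≃ₐ[ℚ] K) ι)))
    rw [show σ • (s : Lat (K ≃ₐ[ℚ] K) ι) = ((smulS hε.isStable_ker σ s : ε.ker) :
      Lat (K ≃ₐ[ℚ] K) ι) from rfl, hys, AddMonoidHom.comp_apply, h.2]
    show _ = ordE (q : Nat.Primes) (CoInd.ev (comp q (diag K (σ • ((h.1 s : tUnits K T) :
      Additive Kˣ)))))
    rw [diag_smul, comp_smul, CoInd.ev_smul, ordAt_eq_map, CoInd.fn_map]
  have hmem : ∀ s : ε.ker, ((h.1 s : tUnits K T) : Additive Kˣ) - (Y s : tUnits K T) ∈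
      tUnits K T₀ := by
    intro s q hq g
    have hxT : ((h.1 s : tUnits K T) : Additive Kˣ) - (Y s : tUnits K T) ∈ tUnits K T :=
      sub_mem (h.1 s).2 (Y s).2
    by_cases hqT : q ∈ T
    · have hq' : q ∈ T \ T₀ := Finset.mem_sdiff.mpr ⟨hqT, fun h' => hq (Finset.mem_coe.mpr h')⟩
      have h0 : ordAt K q (((h.1 s : tUnits K T) : Additive Kˣ) - (Y s : tUnits K T)) = 0 := by
        rw [map_sub, sub_eq_zero]
        exact hord s ⟨q, hq'⟩
      have h1 := congrArg (fun F => CoInd.fn F (res K g)) h0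
      simp only [fn_ordAt, map_zero, Pi.zero_apply] at h1
      rw [← PT.norm_val_eq, ← Local.mem_unitGroup, ← Local.ord_eq_one_iff]
      exact Multiplicative.toAdd.injective (TrivZ.of.injective (h1.trans (map_zero _).symm))
    · exact hxT q (fun h' => hqT (Finset.mem_coe.mp h')) g
  let h₀ : equivHom (C := tUnits K T₀) (presOf hε).hS :=
    ⟨(((tUnits K T).subtype.comp h.1) -
      ((tUnits K T).subtype.comp (Y.comp ε.ker.subtype))).codRestrict (tUnits K T₀) hmem,
      fun g s => Subtype.ext (by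
        show ((h.1 _ : tUnits K T) : Additive Kˣ) - (Y _ : tUnits K T) =
          g • (((h.1 s : tUnits K T) : Additive Kˣ) - (Y s : tUnits K T))
        rw [h.2, show Y (ε.ker.subtype (smulS (presOf hε).hS g s)) =
          g • Y (s : Lat (K ≃ₐ[ℚ] K) ι) from hY g _, smul_sub]
        rfl)⟩
  obtain ⟨Y₀, hY₀, hY₀s⟩ := (mem_range_res_iff hε h₀).mp (hdet h₀ fun q hqT hq₀ => by
    refine ⟨y ⟨q, Finset.mem_sdiff.mpr ⟨hqT, hq₀⟩⟩ -
      (locK q).comp ((tUnits K T).subtype.comp Y), fun d x => ?_, fun s => ?_⟩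
    · simp only [AddMonoidHom.sub_apply, AddMonoidHom.comp_apply, hy, hY, smul_sub]
      rw [show ((tUnits K T).subtype ((d : K ≃ₐ[ℚ] K) • Y x)) =
        (d : K ≃ₐ[ℚ] K) • (tUnits K T).subtype (Y x) from rfl, locK_smul]
    · rw [AddMonoidHom.sub_apply, hys]
      exact (map_sub (locK q) _ _).symm)
  have hsub : tUnits K T₀ ≤ tUnits K T := fun x hx q hq g =>
    hx q (fun h' => hq (Finset.coe_subset.mpr hle h')) g
  refine (mem_range_res_iff hε h).mpr ⟨Y + (AddSubgroup.inclusion hsub).comp Y₀,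
    fun g x => ?_, fun s => Subtype.ext ?_⟩
  · rw [AddMonoidHom.add_apply, AddMonoidHom.add_apply, AddMonoidHom.comp_apply,
      AddMonoidHom.comp_apply, hY, hY₀, smul_add]
    rfl
  · have e : ((h.1 s : tUnits K T) : Additive Kˣ) - (Y s : tUnits K T) = (Y₀ s : tUnits K T₀) :=
      congrArg Subtype.val (hY₀s s)
    show ((h.1 s : tUnits K T) : Additive Kˣ) =
      (Y s : tUnits K T) + ((Y₀ s : tUnits K T₀) : Additive Kˣ)
    rw [← e, add_sub_cancel]

end Fermat.Agent.CFT.Selmer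

namespace Fermat.Agent.CFT.Selmer

open ExtCitation Fermat.Agent.Arith IntermediateField Fermat.Agent.CFT.Local Fermat.Agent.CFT.Idele
open Fermat.Agent.CFT.Duality Fermat.Agent.CFT.Euler

local instance factPrimeDet' (q : Nat.Primes) : Fact (q : ℕ).Prime := ⟨q.2⟩

variable {p : ℕ} [hp : Fact p.Prime] {k : Type} [Field k] [Finite k] [CharP k p]
  {r : GQ →* Matrix (Fin 2) (Fin 2) k}

local notation "M₂" => Matrix (Fin 2) (Fin 2) k

/-- The twisted cocycles of finite level. -/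
def twCocycles (r : GQ →* M₂) : Submodule k (GQ → M₂) where
  carrier := {b | TWPrimes.IsCocycle r b ∧ ∃ L : IntermediateField ℚ QBar, FiniteDimensional ℚ L ∧
    ∀ σ : GQ, (∀ x ∈ L, σ x = x) → b σ = 0}
  add_mem' := by
    rintro b b' ⟨hb, L, hL, h⟩ ⟨hb', L', hL', h'⟩
    haveI := hL; haveI := hL'
    refine ⟨⟨fun g => by rw [Pi.add_apply, Matrix.trace_add, hb.trace, hb'.trace, add_zero],
      fun g g' => by
        simp only [Pi.add_apply, hb.map_mul, hb'.map_mul, map_add]; abel⟩, L ⊔ L', inferInstance,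
      fun σ hσ => ?_⟩
    rw [Pi.add_apply, h σ fun x hx => hσ x ((le_sup_left : L ≤ L ⊔ L') hx),
      h' σ fun x hx => hσ x ((le_sup_right : L' ≤ L ⊔ L') hx), add_zero]
  zero_mem' := ⟨⟨fun _ => Matrix.trace_zero _ _, fun g g' => by simp⟩, ⊥, inferInstance,
    fun _ _ => rfl⟩
  smul_mem' := by
    rintro c b ⟨hb, L, hL, h⟩
    exact ⟨⟨fun g => by rw [Pi.smul_apply, Matrix.trace_smul, hb.trace, smul_zero],
      fun g g' => by simp only [Pi.smul_apply, hb.map_mul, smul_add, map_smul]⟩, L, hL,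
      fun σ hσ => by rw [Pi.smul_apply, h σ hσ, smul_zero]⟩

/-- Twisted coboundaries, as a linear map. -/
def twCobd (r : GQ →* M₂) : tr0 k →ₗ[k] (GQ → M₂) where
  toFun X := TWPrimes.cobd r X.1
  map_add' X Y := funext fun g => by
    simp only [TWPrimes.cobd, Pi.add_apply, Submodule.coe_add, map_add]; abel
  map_smul' c X := funext fun g => by
    simp only [TWPrimes.cobd, Pi.smul_apply, Submodule.coe_smul, RingHom.id_apply, map_smul,
      smul_sub]

variable {K : IntermediateField ℚ QBar} [FiniteDimensional ℚ K] [Normal ℚ K]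
  {hK : ∀ σ : GQ, (∀ x ∈ K, σ x = x) → r σ = 1} {ι : Type} [Fintype ι]
  {ε : Lat (K ≃ₐ[ℚ] K) ι →+ AdMod (repK hK)} (hε : Presentation p ε)

variable {ζ : QBar} (hζ : IsPrimitiveRoot ζ p) (l : k →+ ZMod p)

/-- A map on the lattice extending a family, with its Kummer cocycle. -/
structure KummerData (h : ε.ker →+ Additive Kˣ) (b : GQ → M₂) : Prop where
  cocycle : b ∈ twCocycles r
  root : ∃ e : Lat (K ≃ₐ[ℚ] K) ι →+ Additive QBarˣ, (∀ s : ε.ker, e s = toQ K (h s)) ∧
    ∀ σ x, defect e σ x = nu ε hζ l (b σ) x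

include hε in
/-- Every equivariant family has a Kummer cocycle. -/
theorem exists_kummerData (hl : l 1 = 1) (h2 : (2 : k) ≠ 0)
    (hcyc : ∀ (σ : GQ) (a : ℕ), (∀ μ : QBar, μ ^ p = 1 → σ μ = μ ^ a) → (r σ).det = (a : k))
    (h : ε.ker →+ Additive Kˣ) (heq : ∀ (g : K ≃ₐ[ℚ] K) (s : ε.ker),
      h (smulS hε.isStable_ker g s) = g • h s) :
    ∃ b, KummerData hζ l (ε := ε) h b := by
  obtain ⟨e, he⟩ := exists_root hε ((toQ K).comp h)
  obtain ⟨b, h1, h3, h4⟩ := exists_kummer_cocycle hε hζ l hl h2 hcyc e fun σ s => by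
    have e1 := he (smulS hε.isStable_ker (AlgEquiv.restrictNormalHom K σ)⁻¹ s)
    rw [coe_smulS] at e1
    rw [defect_apply, e1, he, AddMonoidHom.comp_apply, AddMonoidHom.comp_apply, heq, ← toQ_smul,
      smul_inv_smul, sub_self]
  exact ⟨b, ⟨h1, h3⟩, e, he, h4⟩

/-- Adding an equivariant map on the lattice does not change the cocycle. -/
theorem KummerData.add_res {h : ε.ker →+ Additive Kˣ} {b : GQ → M₂}
    (hd : KummerData hζ l (ε := ε) h b) (Y : Lat (K ≃ₐ[ℚ] K) ι →+ Additive Kˣ)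
    (hY : ∀ (g : K ≃ₐ[ℚ] K) x, Y (g • x) = g • Y x) :
    KummerData hζ l (ε := ε) (h + Y.comp ε.ker.subtype) b := by
  obtain ⟨hc, e, he, hb⟩ := hd
  refine ⟨hc, e + (toQ K).comp Y, fun s => ?_, fun σ x => ?_⟩
  · simp only [AddMonoidHom.add_apply, AddMonoidHom.comp_apply, AddSubgroup.coe_subtype, he,
      map_add]
  · rw [← hb, defect_apply, defect_apply]
    simp only [AddMonoidHom.add_apply, AddMonoidHom.comp_apply, smul_add, hY]
    rw [← toQ_smul σ, smul_inv_smul]
    abel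

include hε in
/-- The trace function of a locally trivial family vanishes at Frobenius. -/
theorem KummerData.phi_eq_zero (hl : l 1 = 1) (h2 : (2 : k) ≠ 0)
    (hrfin : GaloisFactorsThroughFiniteLevel r)
    (hcyc : ∀ (σ : GQ) (a : ℕ), (∀ μ : QBar, μ ^ p = 1 → σ μ = μ ^ a) → (r σ).det = (a : k))
    {h : ε.ker →+ Additive Kˣ} {b : GQ → M₂} (hd : KummerData hζ l (ε := ε) h b) (q : Nat.Primes)
    (hq : LocTriv ε q h) {φ : GQ} (hφ : (padicPlace (q : ℕ)).IsFrobeniusAt φ (q : ℕ))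
    (hdet : (r φ).det = 1) : TWPrimes.phi r b φ = 0 := by
  obtain ⟨hc, e, he, hb⟩ := hd
  obtain ⟨y, hy, hys⟩ := hq
  obtain ⟨Y, -, hloc⟩ :=
    exists_local_cobd hε hζ l hl h2 hcyc q h e he b hc.1.trace hb y hy hys
  obtain ⟨L₁, hL₁, hL₁'⟩ := hc.2
  obtain ⟨L₂, hL₂, hL₂'⟩ := hrfin
  haveI : Normal ℚ QBar := IsAlgClosure.normal ℚ QBar
  haveI : IsGalois ℚ QBar := ⟨⟩
  haveI := hL₁
  haveI := hL₂
  set L := normalClosure ℚ ↥(L₁ ⊔ L₂) QBar
  haveI : Normal ℚ L := normalClosure.normal ℚ _ QBar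
  haveI : FiniteDimensional ℚ L := normalClosure.is_finiteDimensional ℚ _ QBar
  have hLle : L₁ ⊔ L₂ ≤ L := (L₁ ⊔ L₂).le_normalClosure
  obtain ⟨τ, hτ⟩ := exists_local_agree q L hφ.1
  set g := localGaloisToGlobal (q : ℕ) τ with hg
  have hfix : ∀ x ∈ L, (g⁻¹ * φ) x = x := fun x hx => by
    rw [AlgEquiv.mul_apply, hτ x hx]
    exact g.symm_apply_apply x
  have hrg : r (g⁻¹ * φ) = 1 :=
    hL₂' _ fun x hx => hfix x (hLle ((le_sup_right : L₂ ≤ L₁ ⊔ L₂) hx))
  have hr' : r φ = r g := by rw [← mul_one (r g), ← hrg, ← map_mul, mul_inv_cancel_left]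
  have hbφ : b φ = b g := cocycle_congr hc.1
    (hL₁' _ fun x hx => hfix x (hLle ((le_sup_left : L₁ ≤ L₁ ⊔ L₂) hx)))
  rw [TWPrimes.phi, hbφ, hr', hg, hloc τ, ← hg]
  exact TWPrimes.phi_cobd (by rw [← hr']; exact hdet)

include hε in
/-- A family with a coboundary as cocycle is a restriction. -/
theorem KummerData.exists_extend
    (hcyc : ∀ (σ : GQ) (a : ℕ), (∀ μ : QBar, μ ^ p = 1 → σ μ = μ ^ a) → (r σ).det = (a : k))
    {h : ε.ker →+ Additive Kˣ} {b : GQ → M₂} (hd : KummerData hζ l (ε := ε) h b) (X : M₂)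
    (hbX : ∀ g, b g = TWPrimes.cobd r X g) :
    ∃ Y : Lat (K ≃ₐ[ℚ] K) ι →+ Additive Kˣ,
      (∀ (g : K ≃ₐ[ℚ] K) x, Y (g • x) = g • Y x) ∧ ∀ s : ε.ker, Y s = h s := by
  obtain ⟨-, e, he, hb⟩ := hd
  obtain ⟨Y, hY, hYe⟩ := exists_descend (e - nu ε hζ l X) fun σ x => by
    rw [defect_sub, hb, defect_nu hε hζ l hcyc, hbX, sub_self]
  exact ⟨Y, hY, fun s => toQ_injective (by
    rw [hYe, AddMonoidHom.sub_apply, he, nu_eq_zero_on_ker hε hζ l, sub_zero])⟩

/-- Local triviality at the primes of `qv` makes a family of `T₀`-units a restriction. -/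
def Detects {m : ℕ} (T₀ : Finset Nat.Primes) (qv : Fin m → ℕ) : Prop :=
  ∀ h : equivHom (C := tUnits K T₀) (presOf hε).hS,
    (∀ q : Nat.Primes, (∃ i, qv i = (q : ℕ)) →
      LocTriv ε q ((tUnits K T₀).subtype.comp h.1)) →
    h ∈ ((presOf hε).res (tUnits K T₀)).range

/-- A basis of a span of cocycles modulo coboundaries. -/
theorem exists_cocycle_basis {α : Type} [Finite α] (bb : α → GQ → M₂)
    (hbb : ∀ a, bb a ∈ twCocycles r) :
    ∃ (m : ℕ) (v : Fin m → GQ → M₂), (∀ i, v i ∈ twCocycles r) ∧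
      (∀ c : Fin m → k, ∀ X : M₂, X.trace = 0 →
        (∀ g, ∑ i, c i • v i g = TWPrimes.cobd r X g) → c = 0) ∧
      ∀ a, ∃ (c : Fin m → k) (X : M₂), X.trace = 0 ∧
        ∀ g, bb a g = ∑ i, c i • v i g + TWPrimes.cobd r X g := by
  classical
  set C : Submodule k (GQ → M₂) := LinearMap.range (twCobd r) with hC
  set V : Submodule k (GQ → M₂) := Submodule.span k (Set.range bb) with hV
  set W : Submodule k ((GQ → M₂) ⧸ C) := V.map C.mkQ with hW
  haveI : Module.Finite k V := Module.Finite.span_of_finite k (Set.finite_range bb)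
  haveI : Module.Finite k W := Module.Finite.map _ _
  let B := Module.finBasis k W
  choose v hvV hv using fun i => Submodule.mem_map.mp (B i).2
  have hVle : V ≤ twCocycles r := Submodule.span_le.mpr (by
    rintro _ ⟨a, rfl⟩; exact hbb a)
  refine ⟨Module.finrank k W, v, fun i => hVle (hvV i), fun c X hX h => ?_, fun a => ?_⟩
  · have h0 : C.mkQ (∑ i, c i • v i) = 0 := (Submodule.Quotient.mk_eq_zero _).mpr
      ⟨⟨X, mem_tr0.mpr hX⟩, funext fun g => by
        rw [Finset.sum_apply]; exact (h g).symm⟩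
    have h1 : ∑ i, c i • B i = 0 := Subtype.ext (by
      rw [Submodule.coe_sum, Submodule.coe_zero, ← h0, map_sum]
      exact Finset.sum_congr rfl fun i _ => by rw [map_smul, hv, Submodule.coe_smul])
    exact funext (Fintype.linearIndependent_iff.mp B.linearIndependent c h1)
  · have hmemW : C.mkQ (bb a) ∈ W := Submodule.mem_map_of_mem (Submodule.subset_span ⟨a, rfl⟩)
    set c : Fin (Module.finrank k W) → k := fun i => B.repr ⟨_, hmemW⟩ i with hc
    have hsum : bb a - ∑ i, c i • v i ∈ C := by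
      rw [← Submodule.Quotient.mk_eq_zero]
      show C.mkQ (bb a - ∑ i, c i • v i) = 0
      rw [map_sub, map_sum, sub_eq_zero]
      have e1 := congrArg Subtype.val (B.sum_repr ⟨_, hmemW⟩)
      rw [Submodule.coe_sum] at e1
      refine e1.symm.trans (Finset.sum_congr rfl fun i _ => ?_)
      rw [map_smul, hv, Submodule.coe_smul]
    obtain ⟨⟨X, hX⟩, hX'⟩ := hsum
    refine ⟨c, X, mem_tr0.mp hX, fun g => ?_⟩
    have h1 : TWPrimes.cobd r X g = bb a g - (∑ i, c i • v i) g := congrFun hX' g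
    rw [h1, Finset.sum_apply]
    exact (add_sub_cancel _ _).symm

include hε in
/-- Cocycles of families differing by a restriction. -/
theorem KummerData.of_sub_mem {T₀ : Finset Nat.Primes}
    {h h' : equivHom (C := tUnits K T₀) (presOf hε).hS}
    (hdiff : h - h' ∈ ((presOf hε).res (tUnits K T₀)).range) {b : GQ → M₂}
    (hd : KummerData hζ l (ε := ε) ((tUnits K T₀).subtype.comp h'.1) b) :
    KummerData hζ l (ε := ε) ((tUnits K T₀).subtype.comp h.1) b := by
  obtain ⟨Y₀, hY₀, hY₀s⟩ := (mem_range_res_iff hε _).mp hdiff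
  have e1 := hd.add_res hζ l ((tUnits K T₀).subtype.comp Y₀) fun g x =>
    congrArg Subtype.val (hY₀ g x)
  refine (?_ : (tUnits K T₀).subtype.comp h'.1 +
      ((tUnits K T₀).subtype.comp Y₀).comp ε.ker.subtype = (tUnits K T₀).subtype.comp h.1) ▸ e1
  refine AddMonoidHom.ext fun s => ?_
  have e3 : h.1 s - h'.1 s = Y₀ s := hY₀s s
  show ((h'.1 s : tUnits K T₀) : Additive Kˣ) + (Y₀ s : tUnits K T₀) = _
  rw [← e3, ← AddSubgroup.coe_add, add_sub_cancel]
  rfl

include hε in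
/-- Finitely many independent cocycles represent those of all families. -/
theorem exists_reps (hl : l 1 = 1) (h2 : (2 : k) ≠ 0)
    (hcyc : ∀ (σ : GQ) (a : ℕ), (∀ μ : QBar, μ ^ p = 1 → σ μ = μ ^ a) → (r σ).det = (a : k))
    (T₀ : Finset Nat.Primes) :
    ∃ (m : ℕ) (v : Fin m → GQ → M₂), (∀ i, v i ∈ twCocycles r) ∧
      (∀ c : Fin m → k, ∀ X : M₂, X.trace = 0 →
        (∀ g, ∑ i, c i • v i g = TWPrimes.cobd r X g) → c = 0) ∧
      ∀ h : equivHom (C := tUnits K T₀) (presOf hε).hS, ∃ (b : GQ → M₂) (c : Fin m → k) (X : M₂),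
        KummerData hζ l (ε := ε) ((tUnits K T₀).subtype.comp h.1) b ∧
          ∀ g, b g = ∑ i, c i • v i g + TWPrimes.cobd r X g := by
  classical
  choose b hb using fun h : equivHom (C := tUnits K T₀) (presOf hε).hS =>
    exists_kummerData hε hζ l hl h2 hcyc ((tUnits K T₀).subtype.comp h.1) fun g s =>
      congrArg Subtype.val (h.2 g s)
  have hfin : ((presOf hε).res (tUnits K T₀)).range.index ≠ 0 :=
    ((presOf hε).finiteIndexHom (modPFinite_tUnits (p := p) K T₀)).index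
  haveI : Finite (equivHom (C := tUnits K T₀) (presOf hε).hS ⧸
      ((presOf hε).res (tUnits K T₀)).range) := Nat.finite_of_card_ne_zero hfin
  obtain ⟨m, v, hv, hind, hrep⟩ := exists_cocycle_basis
    (fun j : equivHom (C := tUnits K T₀) (presOf hε).hS ⧸
      ((presOf hε).res (tUnits K T₀)).range => b (Quotient.out j)) fun j => (hb _).cocycle
  refine ⟨m, v, hv, hind, fun h => ?_⟩
  obtain ⟨c, X, -, hbX⟩ := hrep (QuotientAddGroup.mk h)
  exact ⟨_, c, X, (hb _).of_sub_mem hε hζ l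
    (QuotientAddGroup.eq_iff_sub_mem.mp (QuotientAddGroup.out_eq' _).symm), hbX⟩

include hε in
/-- Detection from the independence of the trace functions at Frobenius. -/
theorem detects_of_reps (hl : l 1 = 1) (h2 : (2 : k) ≠ 0)
    (hrfin : GaloisFactorsThroughFiniteLevel r)
    (hcyc : ∀ (σ : GQ) (a : ℕ), (∀ μ : QBar, μ ^ p = 1 → σ μ = μ ^ a) → (r σ).det = (a : k))
    {T₀ : Finset Nat.Primes} {m : ℕ} {v : Fin m → GQ → M₂}
    (hrep : ∀ h : equivHom (C := tUnits K T₀) (presOf hε).hS, ∃ (b : GQ → M₂) (c : Fin m → k)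
      (X : M₂), KummerData hζ l (ε := ε) ((tUnits K T₀).subtype.comp h.1) b ∧
          ∀ g, b g = ∑ i, c i • v i g + TWPrimes.cobd r X g)
    {qv : Fin m → ℕ} (hq : ∀ i, (qv i).Prime)
    (hdet : ∀ i, ∀ P : ValuationSubring QBar, P.LiesOverPrime (qv i) → ∀ φ : GQ,
      P.IsFrobeniusAt φ (qv i) → (r φ).det = 1)
    (hdetect : ∀ (P : Fin m → ValuationSubring QBar) (φ : Fin m → GQ),
      (∀ i, (P i).LiesOverPrime (qv i)) → (∀ i, (P i).IsFrobeniusAt (φ i) (qv i)) →
      ∀ c : Fin m → k, (∀ i, ∑ j, c j * TWPrimes.phi r (v j) (φ i) = 0) → c = 0) :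
    Detects hε T₀ qv := by
  intro h hloc
  obtain ⟨b, c, X, hdata, hbX⟩ := hrep h
  have hc0 : c = 0 := by
    haveI : ∀ i, Fact (qv i).Prime := fun i => ⟨hq i⟩
    choose φ hφ using fun i =>
      exists_isFrobeniusAt (Local.padicPlace_liesOverPrime (qv i)) (hq i)
    refine hdetect (fun i => padicPlace (qv i)) φ (fun i => Local.padicPlace_liesOverPrime _) hφ c
      fun i => ?_
    have hd := hdet i _ (Local.padicPlace_liesOverPrime _) (φ i) (hφ i)
    have h0 := hdata.phi_eq_zero hε hζ l hl h2 hrfin hcyc ⟨qv i, hq i⟩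
      (hloc _ ⟨i, rfl⟩) (hφ i) hd
    have h3 : TWPrimes.phi r (TWPrimes.cobd r X) (φ i) = 0 := TWPrimes.phi_cobd hd
    rw [TWPrimes.phi] at h3
    rw [TWPrimes.phi, hbX, add_mul, Matrix.trace_add, h3, add_zero, Finset.sum_mul,
      Matrix.trace_sum] at h0
    refine (Finset.sum_congr rfl fun j _ => ?_).trans h0
    rw [smul_mul_assoc, Matrix.trace_smul, smul_eq_mul]
    rfl
  obtain ⟨Y, hY, hYs⟩ := hdata.exists_extend hε hζ l hcyc X fun g => by
    rw [hbX g, hc0]
    simp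
  have hmem : ∀ x, Y x ∈ tUnits K T₀ := fun x => mem_tUnits_of_nsmul (p := p) hp.out.ne_zero (by
    rw [← map_nsmul]
    exact (hYs ⟨_, hε.smul_mem x⟩).symm ▸ (h.1 ⟨_, hε.smul_mem x⟩).2)
  exact (mem_range_res_iff hε h).mpr ⟨Y.codRestrict _ hmem,
    fun g x => Subtype.ext (hY g x), fun s => Subtype.ext (hYs s).symm⟩

include hε in
/-- **Taylor–Wiles primes detect families of `T₀`-units on the relations.** -/
theorem exists_detecting_primes (hr : TWPrimes.TWHyp r) (hrfin : GaloisFactorsThroughFiniteLevel r)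
    (hcyc : ∀ (σ : GQ) (a : ℕ), (∀ μ : QBar, μ ^ p = 1 → σ μ = μ ^ a) → (r σ).det = (a : k))
    (T₀ : Finset Nat.Primes) :
    ∃ m : ℕ, ∀ (n : ℕ) (S : Finset ℕ), ∃ qv : Fin m → ℕ, Function.Injective qv ∧
      (∀ i, (qv i).Prime ∧ qv i ∉ S ∧ qv i ≠ p ∧ p ^ (n + 1) ∣ qv i - 1) ∧
      (∀ i, ∀ P : ValuationSubring QBar, P.LiesOverPrime (qv i) → ∀ τ ∈ P.inertiaSubgroupIn ℚ,
        r τ = 1) ∧
      (∀ i, ∀ P : ValuationSubring QBar, P.LiesOverPrime (qv i) → ∀ φ : GQ,
        P.IsFrobeniusAt φ (qv i) → (r φ).det = 1 ∧ (r φ).trace ^ 2 ≠ 4 ∧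
          ∃ α β : k, α ≠ β ∧ (r φ).charpoly =
            (Polynomial.X - Polynomial.C α) * (Polynomial.X - Polynomial.C β)) ∧
      Detects hε T₀ qv := by
  haveI : NeZero p := ⟨hp.out.ne_zero⟩
  have hl := (exists_functional_ne_zero (p := p) k).choose_spec
  have hζ := (HasEnoughRootsOfUnity.exists_primitiveRoot QBar p).choose_spec
  obtain ⟨m, v, hv, hind, hrep⟩ := exists_reps hε hζ _ hl hr.two hcyc T₀
  refine ⟨m, fun n S => ?_⟩
  obtain ⟨qv, hinj, hq, hin, hfr, hdetect⟩ := TWPrimes.exists_taylorWilesPrimes p r hr hrfin hcyc v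
    (fun i => (hv i).1) (fun i => (hv i).2) hind S n
  exact ⟨qv, hinj, hq, fun i P hP τ hτ => (hin i P hP τ hτ).1, hfr,
    detects_of_reps hε hζ _ hl hr.two hrfin hcyc hrep (fun i => (hq i).1)
      (fun i P hP φ hφ => (hfr i P hP φ hφ).1) hdetect⟩

end Fermat.Agent.CFT.Selmer
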