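import Fermat.Agent.CFT.Selmer.AdModule
import Fermat.Agent.CFT.Selmer.ClassesT
import Fermat.Agent.CFT.Selmer.KData
import Fermat.Agent.CFT.Euler.Extension
import Fermat.Agent.CFT.TWPrimes.Phi

/-!
# Kummer cocycles of families of `T`-units indexed by relations

An equivariant map on the relations of a presentation of `ad⁰ ρ`, with values in `Kˣ`, extends to
the lattice with values in `ℚ̄ˣ`; the defect of equivariance is a cocycle in `ad⁰ ρ (1)`.
-/

set_option autoImplicit false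
set_option synthInstance.maxHeartbeats 200000
set_option maxHeartbeats 1000000
set_option linter.unusedSectionVars false
set_option linter.style.haveILetI false

noncomputable section

namespace Fermat.Agent.CFT.Selmer

open ExtCitation Fermat.Agent.Arith IntermediateField Fermat.Agent.CFT.Local Fermat.Agent.CFT.Idele
open Fermat.Agent.CFT.Duality Fermat.Agent.CFT.Euler

section Roots

variable {p : ℕ} [hp : Fact p.Prime]

/-- The powers of a root of unity. -/
def zhom {ζ : QBar} (hζ : IsPrimitiveRoot ζ p) : ZMod p →+ Additive QBarˣ :=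
  ZMod.lift p ⟨zmultiplesHom _ (Additive.ofMul (Units.mk0 ζ (hζ.ne_zero hp.out.ne_zero))), by
    rw [zmultiplesHom_apply, natCast_zsmul, ← ofMul_pow, ← ofMul_one]
    refine congrArg Additive.ofMul (Units.ext ?_)
    rw [Units.val_pow_eq_pow_val, Units.val_mk0, hζ.pow_eq_one, Units.val_one]⟩

variable {ζ : QBar} (hζ : IsPrimitiveRoot ζ p)

theorem zhom_natCast (n : ℕ) :
    (((zhom hζ (n : ZMod p)).toMul : QBarˣ) : QBar) = ζ ^ n := by
  rw [zhom, show ((n : ℕ) : ZMod p) = ((n : ℤ) : ZMod p) from (Int.cast_natCast n).symm,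
    ZMod.lift_coe]
  show (((n : ℤ) • Additive.ofMul (Units.mk0 ζ _)).toMul : QBarˣ).val = _
  rw [natCast_zsmul, toMul_nsmul, toMul_ofMul, Units.val_pow_eq_pow_val, Units.val_mk0]

theorem zhom_injective : Function.Injective (zhom hζ) := fun i j h => by
  haveI : NeZero p := ⟨hp.out.ne_zero⟩
  have e := congrArg (fun y : Additive QBarˣ => ((y.toMul : QBarˣ) : QBar)) h
  rw [← ZMod.natCast_zmod_val i, ← ZMod.natCast_zmod_val j, zhom_natCast, zhom_natCast] at e
  exact ZMod.val_injective p (hζ.pow_inj (ZMod.val_lt i) (ZMod.val_lt j) e)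

theorem exists_zhom_eq {y : Additive QBarˣ} (hy : p • y = 0) : ∃ i, zhom hζ i = y := by
  haveI : NeZero p := ⟨hp.out.ne_zero⟩
  have h1 : ((y.toMul : QBarˣ) : QBar) ^ p = 1 := by
    rw [← Units.val_pow_eq_pow_val, ← toMul_nsmul, hy]; rfl
  obtain ⟨n, -, hn⟩ := hζ.eq_pow_of_pow_eq_one h1
  exact ⟨n, Additive.toMul.injective (Units.ext ((zhom_natCast hζ n).trans hn))⟩

theorem nsmul_zhom (i : ZMod p) : p • zhom hζ i = 0 := by
  rw [← map_nsmul, nsmul_eq_mul, ZMod.natCast_self, zero_mul, map_zero]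

theorem smul_zhom (σ : GQ) (a : ℕ) (ha : σ ζ = ζ ^ a) (i : ZMod p) :
    σ • zhom hζ i = zhom hζ (a * i) := by
  haveI : NeZero p := ⟨hp.out.ne_zero⟩
  refine Additive.toMul.injective (Units.ext ?_)
  rw [galUnits_smul_val, ← ZMod.natCast_zmod_val i, ← Nat.cast_mul, zhom_natCast, zhom_natCast,
    map_pow, ha, ← pow_mul]

end Roots

variable {p : ℕ} [hp : Fact p.Prime] {k : Type} [Field k] [CharP k p]
  {r : GQ →* Matrix (Fin 2) (Fin 2) k}
  {K : IntermediateField ℚ QBar} [FiniteDimensional ℚ K] [Normal ℚ K]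

local notation "M₂" => Matrix (Fin 2) (Fin 2) k

/-- The units of `K` in those of `ℚ̄`. -/
def toQ (K : IntermediateField ℚ QBar) : Additive Kˣ →+ Additive QBarˣ :=
  MonoidHom.toAdditive (Units.map (K.val.toRingHom.toMonoidHom))

theorem toQ_val (x : Additive Kˣ) :
    (((toQ K x).toMul : QBarˣ) : QBar) = (((x.toMul : Kˣ) : K) : QBar) := rfl

theorem toQ_injective : Function.Injective (toQ K) := fun x y h =>
  Additive.toMul.injective (Units.ext (Subtype.ext
    (congrArg (fun z : Additive QBarˣ => ((z.toMul : QBarˣ) : QBar)) h)))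

theorem toQ_smul (σ : GQ) (x : Additive Kˣ) :
    toQ K (AlgEquiv.restrictNormalHom K σ • x) = σ • toQ K x := by
  refine Additive.toMul.injective (Units.ext ?_)
  rw [galUnits_smul_val, toQ_val, toQ_val]
  exact AlgEquiv.restrictNormal_commutes σ K _

variable {ι : Type} [Fintype ι]

/-- The defect of equivariance of a map into `ℚ̄ˣ`. -/
def defect (e : Lat (K ≃ₐ[ℚ] K) ι →+ Additive QBarˣ) (σ : GQ) :
    Lat (K ≃ₐ[ℚ] K) ι →+ Additive QBarˣ :=
  (DistribSMul.toAddMonoidHom (Additive QBarˣ) σ).comp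
    (e.comp (DistribSMul.toAddMonoidHom _ (AlgEquiv.restrictNormalHom K σ)⁻¹)) - e

theorem defect_apply (e : Lat (K ≃ₐ[ℚ] K) ι →+ Additive QBarˣ) (σ : GQ)
    (x : Lat (K ≃ₐ[ℚ] K) ι) :
    defect e σ x = σ • e ((AlgEquiv.restrictNormalHom K σ)⁻¹ • x) - e x := rfl

theorem defect_mul (e : Lat (K ≃ₐ[ℚ] K) ι →+ Additive QBarˣ) (σ τ : GQ)
    (x : Lat (K ≃ₐ[ℚ] K) ι) :
    defect e (σ * τ) x =
      σ • defect e τ ((AlgEquiv.restrictNormalHom K σ)⁻¹ • x) + defect e σ x := by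
  simp only [defect_apply, map_mul, mul_inv_rev, mul_smul, smul_sub]
  abel

theorem defect_sub (e e' : Lat (K ≃ₐ[ℚ] K) ι →+ Additive QBarˣ) (σ : GQ)
    (x : Lat (K ≃ₐ[ℚ] K) ι) : defect (e - e') σ x = defect e σ x - defect e' σ x := by
  simp only [defect_apply, AddMonoidHom.sub_apply, smul_sub]
  abel

/-- Equivariant maps into `ℚ̄ˣ` take values in `Kˣ`. -/
theorem exists_descend (e : Lat (K ≃ₐ[ℚ] K) ι →+ Additive QBarˣ) (he : ∀ σ x, defect e σ x = 0) :
    ∃ Y : Lat (K ≃ₐ[ℚ] K) ι →+ Additive Kˣ,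
      (∀ (g : K ≃ₐ[ℚ] K) x, Y (g • x) = g • Y x) ∧ ∀ x, toQ K (Y x) = e x := by
  haveI : Normal ℚ QBar := IsAlgClosure.normal ℚ QBar
  haveI : IsGalois ℚ QBar := ⟨⟩
  have hmem : ∀ x, (((e x).toMul : QBarˣ) : QBar) ∈ K := fun x => by
    refine (InfiniteGalois.fixedField_fixingSubgroup K).le ?_
    rw [IntermediateField.mem_fixedField_iff]
    intro σ hσ
    have hres : AlgEquiv.restrictNormalHom K σ = 1 := AlgEquiv.ext fun z => Subtype.ext
      ((AlgEquiv.restrictNormal_commutes σ K z).trans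
        ((IntermediateField.mem_fixingSubgroup_iff K σ).mp hσ z z.2))
    have h := he σ x
    rw [defect_apply, hres, inv_one, one_smul, sub_eq_zero] at h
    exact congrArg (fun y : Additive QBarˣ => ((y.toMul : QBarˣ) : QBar)) h
  let Y : Lat (K ≃ₐ[ℚ] K) ι →+ Additive Kˣ := AddMonoidHom.mk'
    (fun x => Additive.ofMul (Units.mk0 (⟨_, hmem x⟩ : K) fun h0 =>
      ((e x).toMul : QBarˣ).ne_zero (congrArg Subtype.val h0)))
    fun x y => toQ_injective (Additive.toMul.injective (Units.ext (by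
      show (((e (x + y)).toMul : QBarˣ) : QBar) =
        (((e x).toMul : QBarˣ) : QBar) * (((e y).toMul : QBarˣ) : QBar)
      rw [map_add, toMul_add, Units.val_mul])))
  have hY : ∀ x, toQ K (Y x) = e x := fun x => Additive.toMul.injective (Units.ext rfl)
  refine ⟨Y, fun g x => toQ_injective ?_, hY⟩
  obtain ⟨σ, rfl⟩ := restrictK_surjective g
  have h := he σ (AlgEquiv.restrictNormalHom K σ • x)
  rw [defect_apply, inv_smul_smul, sub_eq_zero] at h
  rw [toQ_smul, hY, hY, ← h]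

variable {hK : ∀ σ : GQ, (∀ x ∈ K, σ x = x) → r σ = 1}
  {ε : Lat (K ≃ₐ[ℚ] K) ι →+ AdMod (repK hK)} (hε : Presentation p ε)
  {ζ : QBar} (hζ : IsPrimitiveRoot ζ p) (l : k →+ ZMod p)

variable (ε) in
/-- The map of the lattice into roots of unity attached to a matrix. -/
def nu (Y : M₂) : Lat (K ≃ₐ[ℚ] K) ι →+ Additive QBarˣ :=
  (zhom hζ).comp ((AdMod.pairing (repK hK) l Y).comp ε)

theorem nu_apply (Y : M₂) (x : Lat (K ≃ₐ[ℚ] K) ι) :
    nu ε hζ l Y x = zhom hζ (AdMod.pairing (repK hK) l Y (ε x)) := rfl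

theorem nu_sub (Y Y' : M₂) (x : Lat (K ≃ₐ[ℚ] K) ι) :
    nu ε hζ l (Y - Y') x = nu ε hζ l Y x - nu ε hζ l Y' x := by
  rw [nu_apply, nu_apply, nu_apply, ← map_sub]
  congr 1
  simp only [AdMod.pairing_apply, mul_sub, Matrix.trace_sub, map_sub]

theorem nu_add (Y Y' : M₂) (x : Lat (K ≃ₐ[ℚ] K) ι) :
    nu ε hζ l (Y + Y') x = nu ε hζ l Y x + nu ε hζ l Y' x := by
  rw [nu_apply, nu_apply, nu_apply, ← map_add]
  congr 1
  simp only [AdMod.pairing_apply, mul_add, Matrix.trace_add, map_add]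

include hε in
theorem nu_eq_zero_on_ker (Y : M₂) (s : ε.ker) : nu ε hζ l Y s = 0 := by
  rw [nu_apply, AddMonoidHom.mem_ker.mp s.2, map_zero, map_zero]

include hε in
/-- The twist: Galois acts through `ad⁰ ρ (1)`. -/
theorem smul_nu
    (hcyc : ∀ (σ : GQ) (a : ℕ), (∀ μ : QBar, μ ^ p = 1 → σ μ = μ ^ a) → (r σ).det = (a : k))
    (σ : GQ) (Y : M₂) (x : Lat (K ≃ₐ[ℚ] K) ι) :
    σ • nu ε hζ l Y ((AlgEquiv.restrictNormalHom K σ)⁻¹ • x) =
      nu ε hζ l (TWPrimes.ad r σ Y) x := by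
  haveI : NeZero p := ⟨hp.out.ne_zero⟩
  obtain ⟨a, -, ha⟩ := hζ.eq_pow_of_pow_eq_one
    (ξ := σ ζ) (by rw [← map_pow, hζ.pow_eq_one, map_one])
  have hd : (r σ).det = (a : k) := hcyc σ a fun μ hμ => by
    obtain ⟨i, -, rfl⟩ := hζ.eq_pow_of_pow_eq_one hμ
    rw [map_pow, ← ha, pow_right_comm]
  rw [nu_apply, nu_apply, smul_zhom hζ σ a ha.symm, hε.map_smul, AdMod.pairing_smul]
  congr 1
  rw [TWPrimes.ad_apply, hd, inv_inv, ← map_inv, repK_restrict, repK_restrict,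
    AdMod.pairing_apply, AdMod.pairing_apply, mul_smul_comm, Matrix.trace_smul, smul_eq_mul,
    ← nsmul_eq_mul, ← nsmul_eq_mul, map_nsmul]

include hε in
theorem nu_injective (hl : l 1 = 1) (h2 : (2 : k) ≠ 0) {Y : M₂} (hY : Y.trace = 0)
    (h : ∀ x, nu ε hζ l Y x = 0) : Y = 0 := by
  refine AdMod.eq_zero_of_pairing (r := repK hK) hl h2 hY fun a => ?_
  obtain ⟨x, rfl⟩ := hε.surjective a
  exact zhom_injective hζ ((h x).trans (map_zero _).symm)

include hε in
/-- Roots on the lattice. -/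
theorem exists_root (h : ε.ker →+ Additive QBarˣ) :
    ∃ e : Lat (K ≃ₐ[ℚ] K) ι →+ Additive QBarˣ, ∀ s : ε.ker, e s = h s := by
  have hroot : ∀ y : Additive QBarˣ, ∃ z : Additive QBarˣ, p • z = y := fun y => by
    obtain ⟨z, hz⟩ := IsAlgClosed.exists_pow_nat_eq ((y.toMul : QBarˣ) : QBar) hp.out.pos
    have hz0 : z ≠ 0 := fun h0 => (y.toMul : QBarˣ).ne_zero (by
      rw [← hz, h0, zero_pow hp.out.ne_zero])
    refine ⟨Additive.ofMul (Units.mk0 z hz0), Additive.toMul.injective (Units.ext ?_)⟩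
    rw [toMul_nsmul, toMul_ofMul, Units.val_pow_eq_pow_val, Units.val_mk0, hz]
  choose rt hrt using hroot
  let e0 : Lat (K ≃ₐ[ℚ] K) ι →+ Additive QBarˣ :=
    Lat.ofBasis fun i g => rt (h ⟨p • Lat.e i g, hε.smul_mem _⟩)
  let pS : Lat (K ≃ₐ[ℚ] K) ι →+ ε.ker :=
    (nsmulAddMonoidHom p).codRestrict ε.ker fun x => hε.smul_mem x
  let d : ε.ker →+ Additive QBarˣ := h - e0.comp ε.ker.subtype
  have hdp : ∀ x, d (pS x) = 0 := by
    have e : d.comp pS = 0 := Lat.hom_ext fun i g => by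
      show h ⟨p • Lat.e i g, _⟩ - e0 (p • Lat.e i g) = 0
      rw [map_nsmul, Lat.ofBasis_e, hrt, sub_self]
    exact fun x => DFunLike.congr_fun e x
  have hdk : ∀ s : ε.ker, p • d s = 0 := fun s => by
    rw [← map_nsmul]
    exact hdp (s : Lat (K ≃ₐ[ℚ] K) ι)
  let N : AddSubgroup (Additive QBarˣ) := (nsmulAddMonoidHom p).ker
  obtain ⟨g, hg⟩ := exists_extend_killed (p := p) (M := N) (fun m => Subtype.ext m.2)
    (le_top : ε.ker ≤ ⊤) (fun x _ => hε.smul_mem x) (d.codRestrict N hdk)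
    fun x _ => Subtype.ext (hdp x)
  refine ⟨e0 + N.subtype.comp (g.comp ((AddMonoidHom.id _).codRestrict ⊤ fun _ => trivial)),
    fun s => ?_⟩
  show e0 (s : Lat (K ≃ₐ[ℚ] K) ι) + ((g (AddSubgroup.inclusion le_top s) : N) : Additive QBarˣ) = h s
  rw [hg]
  exact add_sub_cancel _ _

variable [Finite k]

include hε in
/-- **The Kummer cocycle.** -/
theorem exists_kummer_cocycle (hl : l 1 = 1) (h2 : (2 : k) ≠ 0)
    (hcyc : ∀ (σ : GQ) (a : ℕ), (∀ μ : QBar, μ ^ p = 1 → σ μ = μ ^ a) → (r σ).det = (a : k))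
    (e : Lat (K ≃ₐ[ℚ] K) ι →+ Additive QBarˣ) (he : ∀ σ (s : ε.ker), defect e σ s = 0) :
    ∃ b : GQ → M₂, TWPrimes.IsCocycle r b ∧
      (∃ L : IntermediateField ℚ QBar, FiniteDimensional ℚ L ∧
        ∀ σ : GQ, (∀ x ∈ L, σ x = x) → b σ = 0) ∧
      ∀ σ x, defect e σ x = nu ε hζ l (b σ) x := by
  classical
  have hval : ∀ σ, ∃ Y : M₂, Y.trace = 0 ∧ ∀ x, defect e σ x = nu ε hζ l Y x := by
    intro σ
    have hk : ∀ x, p • defect e σ x = 0 := fun x => by
      rw [← map_nsmul]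
      exact he σ ⟨_, hε.smul_mem x⟩
    choose i hi using fun x => exists_zhom_eq hζ (hk x)
    let iH : Lat (K ≃ₐ[ℚ] K) ι →+ ZMod p :=
      AddMonoidHom.mk' i fun x y => zhom_injective hζ (by rw [hi, map_add, map_add, hi, hi])
    have hker : ε.ker ≤ iH.ker := fun x hx => zhom_injective hζ (by
      show zhom hζ (i x) = zhom hζ 0
      rw [hi, map_zero]
      exact he σ ⟨x, hx⟩)
    let ψ : AdMod (repK hK) →+ ZMod p :=
      AddMonoidHom.liftOfSurjective ε hε.surjective ⟨iH, hker⟩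
    obtain ⟨Y, hY⟩ := (AdMod.pairing_bijective (r := repK hK) hl h2).2 ψ
    refine ⟨Y.1, mem_tr0.mp Y.2, fun x => ?_⟩
    rw [nu_apply, show AdMod.pairing (repK hK) l Y.1 = ψ from hY,
      show ψ (ε x) = iH x from
        AddMonoidHom.liftOfRightInverse_comp_apply ε _ _ ⟨iH, hker⟩ x]
    exact (hi x).symm
  choose b htr hb using hval
  refine ⟨b, ⟨htr, fun g h => ?_⟩, ?_, hb⟩
  · refine sub_eq_zero.mp (nu_injective hε hζ l hl h2 ?_ fun x => ?_)
    · rw [Matrix.trace_sub, Matrix.trace_add, TWPrimes.trace_ad, htr, htr, htr, mul_zero, add_zero,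
        sub_zero]
    · rw [nu_sub, nu_add, ← hb, ← hb, ← smul_nu hε hζ l hcyc, ← hb, defect_mul, sub_self]
  · let V : Set QBar := Set.range fun q : ι × (K ≃ₐ[ℚ] K) =>
      (((e (Lat.e q.1 q.2)).toMul : QBarˣ) : QBar)
    haveI : Finite V := (Set.finite_range _).to_subtype
    haveI : FiniteDimensional ℚ (adjoin ℚ V) :=
      finiteDimensional_adjoin fun x _ => Algebra.IsIntegral.isIntegral x
    refine ⟨K ⊔ adjoin ℚ V, inferInstance, fun σ hσ => nu_injective hε hζ l hl h2 (htr σ) fun x => ?_⟩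
    rw [← hb]
    have hres : AlgEquiv.restrictNormalHom K σ = 1 := AlgEquiv.ext fun z => Subtype.ext
      ((AlgEquiv.restrictNormal_commutes σ K z).trans
        (hσ z ((le_sup_left : K ≤ K ⊔ adjoin ℚ V) z.2)))
    have h0 : defect e σ = 0 := Lat.hom_ext fun i g => by
      rw [defect_apply, hres, inv_one, one_smul, AddMonoidHom.zero_apply, sub_eq_zero]
      exact Additive.toMul.injective (Units.ext ((galUnits_smul_val σ _).trans
        (hσ _ ((le_sup_right : adjoin ℚ V ≤ K ⊔ adjoin ℚ V)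
          (subset_adjoin ℚ V ⟨(i, g), rfl⟩)))))
    rw [h0, AddMonoidHom.zero_apply]

include hε in
theorem defect_nu
    (hcyc : ∀ (σ : GQ) (a : ℕ), (∀ μ : QBar, μ ^ p = 1 → σ μ = μ ^ a) → (r σ).det = (a : k))
    (σ : GQ) (X : M₂) (x : Lat (K ≃ₐ[ℚ] K) ι) :
    defect (nu ε hζ l X) σ x = nu ε hζ l (TWPrimes.cobd r X σ) x := by
  rw [defect_apply, smul_nu hε hζ l hcyc, TWPrimes.cobd, nu_sub]

end Fermat.Agent.CFT.Selmer
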