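import Fermat.Agent.CFT.Selmer.ClassesT
import Fermat.Agent.CFT.Selmer.AdModule
import Fermat.Agent.CFT.Euler.Extension
import Fermat.Agent.CFT.Euler.Values
import Fermat.Agent.CFT.Local.PowIndex
import Fermat.Agent.CFT.Local.Fixed

/-!
# The local index at a prime with decomposition group of order prime to `p`

If `ζ_p` is fixed by the decomposition group `H` at `q ≠ p` and `p ∤ #H`, then `H` acts trivially
on `K_qˣ / p`, of order `p²`, and the local cokernel is bounded by
`2 lp #Hom_H(A, ℤ/p)`.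
-/

set_option autoImplicit false
set_option synthInstance.maxHeartbeats 200000
set_option maxHeartbeats 1000000
set_option linter.unusedSectionVars false
set_option linter.style.haveILetI false

noncomputable section

namespace Fermat.Agent.CFT.Selmer

open ExtCitation Fermat.Agent.Arith IntermediateField Fermat.Agent.CFT.Local Fermat.Agent.CFT.Idele
open Fermat.Agent.CFT.Duality Fermat.Agent.CFT.Euler

local instance factPrimeLE (q : Nat.Primes) : Fact (q : ℕ).Prime := ⟨q.2⟩

section Generic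

variable {p : ℕ} [hp : Fact p.Prime] {H : Type} [Group H] [Fintype H]
  {A : Type} [AddCommGroup A] [DistribMulAction H A]

/-- Coordinates on a `ZMod p`-module of order `p ^ r`. -/
theorem exists_coords_aux {Q : Type} [AddCommGroup Q] [Module (ZMod p) Q] [Finite Q] {r : ℕ}
    (hcard : Nat.card Q = p ^ r) :
    ∃ c : Fin r → Q →+ ZMod p, ∀ z, (∀ i, c i z = 0) → z = 0 := by
  have hr : Module.finrank (ZMod p) Q = r := by
    have e := Module.natCard_eq_pow_finrank (K := ZMod p) (V := Q)
    rw [hcard, Nat.card_zmod] at e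
    exact (Nat.pow_right_injective hp.out.two_le e).symm
  let b : Module.Basis (Fin r) (ZMod p) Q := Module.finBasisOfFinrankEq (ZMod p) Q hr
  exact ⟨fun i => (b.coord i).toAddMonoidHom, fun z hz => b.ext_elem fun i => by
    simpa using hz i⟩

theorem exists_coords {Q : Type} [AddCommGroup Q] [Finite Q] (hQ : ∀ z : Q, p • z = 0) {r : ℕ}
    (hcard : Nat.card Q = p ^ r) :
    ∃ c : Fin r → Q →+ ZMod p, ∀ z, (∀ i, c i z = 0) → z = 0 :=
  @exists_coords_aux p _ Q _ (AddCommGroup.zmodModule hQ) _ r hcard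

/-- With trivial action on `M / p M` and a group of order prime to `p`, the index is bounded by
the invariant homomorphisms into `M / p M`. -/
theorem index_le_of_trivial {M : Type} [AddCommGroup M] [DistribMulAction H M]
    (hH : Nat.Coprime p (Nat.card H)) (X : Pres p H A) [Finite A]
    (hM : ModPFinite p M) {r : ℕ}
    (htriv : ∀ (h : H) (x : M), ∃ y : M, p • y = h • x - x)
    (hcard : (nsmulAddMonoidHom p : M →+ M).range.index = p ^ r) :
    lpN p (X.res M).range.index ≤ r * lpN p (Nat.card (fixDual p H A)) := by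
  classical
  set μ := (nsmulAddMonoidHom p : M →+ M)
  haveI hfq : Finite (M ⧸ μ.range) := Nat.finite_of_card_ne_zero hM.quot
  have hkill : ∀ z : M ⧸ μ.range, p • z = 0 := fun z => by
    obtain ⟨x, rfl⟩ := QuotientAddGroup.mk'_surjective μ.range z
    rw [← map_nsmul]
    exact (QuotientAddGroup.eq_zero_iff _).mpr ⟨x, rfl⟩
  obtain ⟨cQ, hcQ⟩ := exists_coords (r := r) hkill hcard
  -- the map to invariant homomorphisms
  let δ₀ : equivHom (C := M) X.hS → A →+ M ⧸ μ.range := fun f =>
    AddMonoidHom.liftOfSurjective X.π X.surj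
      ⟨(QuotientAddGroup.mk' μ.range).comp (f.1.comp ((mulP X.level).comp X.K.subtype)),
        fun x hx => by
          show QuotientAddGroup.mk' μ.range (f.1 ⟨p • (x : X.P), _⟩) = 0
          refine (QuotientAddGroup.eq_zero_iff _).mpr ⟨f.1 ⟨x, (X.ker x).mp hx⟩, ?_⟩
          show p • f.1 _ = _
          rw [← map_nsmul]
          rfl⟩
  have hδ₀ : ∀ f x, δ₀ f (X.π x) = QuotientAddGroup.mk' μ.range (f.1 (mulP X.level (x : X.P))) :=
    fun f x => AddMonoidHom.liftOfRightInverse_comp_apply X.π _ _ _ x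
  have hinv : ∀ (f : equivHom (C := M) X.hS) (h : H) (a : A), δ₀ f (h • a) = δ₀ f a := by
    intro f h a
    obtain ⟨x, rfl⟩ := X.surj a
    rw [← X.equi, hδ₀, hδ₀,
      show mulP X.level ((smulS X.hK h x : X.K) : X.P) = smulS X.hS h (mulP X.level (x : X.P)) from
        Subtype.ext (smul_comm h p (x : X.P)).symm, f.2]
    obtain ⟨y, hy⟩ := htriv h (f.1 (mulP X.level (x : X.P)))
    have hmem : h • f.1 (mulP X.level (x : X.P)) - f.1 (mulP X.level (x : X.P)) ∈ μ.range :=
      ⟨y, hy⟩
    rw [← sub_eq_zero, ← map_sub]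
    exact (QuotientAddGroup.eq_zero_iff _).mpr hmem
  let δ : equivHom (C := M) X.hS →+ (Fin r → fixDual p H A) :=
    AddMonoidHom.mk' (fun f i => ⟨(cQ i).comp (δ₀ f), fun h a => by
      show cQ i (δ₀ f (h • a)) = cQ i (δ₀ f a)
      rw [hinv]⟩) fun f f' => funext fun i => Subtype.ext (AddMonoidHom.ext fun a => by
      obtain ⟨x, rfl⟩ := X.surj a
      show cQ i (δ₀ (f + f') (X.π x)) = cQ i (δ₀ f (X.π x)) + cQ i (δ₀ f' (X.π x))
      rw [hδ₀, hδ₀, hδ₀, ← map_add (cQ i), ← map_add]
      rfl)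
  have hker : δ.ker ≤ (X.res M).range := by
    intro f hf
    have hdiv : ∀ x : X.K, ∃ m : M, p • m = f.1 (mulP X.level (x : X.P)) := fun x => by
      have h0 : δ₀ f (X.π x) = 0 := hcQ _ fun i =>
        DFunLike.congr_fun (congrArg Subtype.val (congrFun (AddMonoidHom.mem_ker.mp hf) i))
          (X.π x)
      rw [hδ₀] at h0
      exact (QuotientAddGroup.eq_zero_iff _).mp h0
    haveI := free_subgroup (P := X.P) X.K
    let bK := Module.Free.chooseBasis ℤ X.K
    choose m hm using fun i => hdiv (bK i)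
    let fμ : X.K →+ M := f.1.comp ((mulP X.level).comp X.K.subtype)
    let g₀ : X.K →+ M := (bK.constr ℤ m).toAddMonoidHom
    have hg₀ : ∀ x, p • g₀ x = fμ x := fun x => by
      have e : (p • g₀).toIntLinearMap = fμ.toIntLinearMap := bK.ext fun i => by
        show p • (bK.constr ℤ m (bK i)) = fμ (bK i)
        rw [Module.Basis.constr_basis, hm]
        rfl
      exact LinearMap.congr_fun e x
    have hfμ : IsEquivariantOn X.hK fμ := fun h x => by
      show f.1 (mulP X.level ((smulS X.hK h x : X.K) : X.P)) = h • f.1 (mulP X.level (x : X.P))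
      rw [show mulP X.level ((smulS X.hK h x : X.K) : X.P) = smulS X.hS h (mulP X.level (x : X.P))
        from Subtype.ext (smul_comm h p (x : X.P)).symm, f.2]
    obtain ⟨s, t, hst⟩ : IsCoprime (p : ℤ) (Nat.card H : ℤ) := Nat.isCoprime_iff_coprime.mpr hH
    let g : equivHom (C := M) X.hK :=
      ⟨t • normOn X.hK g₀ + s • fμ, fun h x => by
        show t • normOn X.hK g₀ (smulS X.hK h x) + s • fμ (smulS X.hK h x) =
          h • (t • normOn X.hK g₀ x + s • fμ x)
        rw [isEquivariantOn_normOn X.hK g₀ h x, hfμ h x, smul_add, smul_comm h t, smul_comm h s]⟩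
    have hg : ∀ x : X.K, p • g.1 x = fμ x := fun x => by
      show p • (t • normOn X.hK g₀ x + s • fμ x) = _
      have hN : p • normOn X.hK g₀ x = (Nat.card H : ℤ) • fμ x := by
        rw [normOn_apply, Finset.smul_sum, natCast_zsmul, Nat.card_eq_fintype_card,
          ← Finset.card_univ, ← Finset.sum_const]
        refine Finset.sum_congr rfl fun h _ => ?_
        rw [smul_comm p h, hg₀, hfμ, smul_inv_smul]
      rw [smul_add, smul_comm p t, hN, smul_comm p s, ← natCast_zsmul (fμ x) p, smul_smul,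
        smul_smul, ← add_smul, show t * (Nat.card H : ℤ) + s * (p : ℤ) = 1 by linear_combination hst,
        one_smul]
    have sN : IsStable H μ.ker := fun h x hx => by
      show p • h • x = 0
      rw [smul_comm, show p • x = 0 from hx, smul_zero]
    letI := stableAction sN
    let d : equivHom (C := μ.ker) X.hS :=
      ⟨(f.1 - (X.res M g).1).codRestrict μ.ker fun y => by
        show p • (f.1 y - g.1 (AddSubgroup.inclusion X.le y)) = 0
        rw [smul_sub, hg, ← map_nsmul, sub_eq_zero]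
        rfl, fun h y => Subtype.ext (by
        show f.1 (smulS X.hS h y) - (X.res M g).1 (smulS X.hS h y) =
          h • (f.1 y - (X.res M g).1 y)
        rw [f.2, (X.res M g).2, smul_sub])⟩
    obtain ⟨e, he⟩ := exists_equivariant_extend hH (fun z : μ.ker => Subtype.ext z.2) X.hS X.hK
      X.le (fun y _ => X.level y) d fun y hy => Subtype.ext (by
        show f.1 ⟨p • y, _⟩ - g.1 (AddSubgroup.inclusion X.le ⟨p • y, _⟩) = 0
        rw [show AddSubgroup.inclusion X.le ⟨p • y, X.level y⟩ = p • (⟨y, hy⟩ : X.K) from rfl,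
          map_nsmul, hg]
        exact sub_self _)
    refine ⟨g + ⟨μ.ker.subtype.comp e.1, fun h x => congrArg Subtype.val (e.2 h x)⟩,
      Subtype.ext (AddMonoidHom.ext fun y => ?_)⟩
    have h1 : ((e.1 (AddSubgroup.inclusion X.le y) : μ.ker) : M) =
        f.1 y - g.1 (AddSubgroup.inclusion X.le y) :=
      congrArg Subtype.val (DFunLike.congr_fun (congrArg Subtype.val he) y)
    show g.1 (AddSubgroup.inclusion X.le y) + (e.1 (AddSubgroup.inclusion X.le y) : M) = f.1 y
    rw [h1, add_sub_cancel]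
  haveI := finite_dual (A := A) (p := p)
  have h1 : (X.res M).range.index ∣ Nat.card (fixDual p H A) ^ r := by
    refine (AddSubgroup.index_dvd_of_le hker).trans ?_
    rw [AddSubgroup.index_ker]
    refine (AddSubgroup.card_addSubgroup_dvd_card _).trans (dvd_of_eq ?_)
    rw [Nat.card_fun, Nat.card_eq_fintype_card (α := Fin _), Fintype.card_fin]
  have hpos : Nat.card (fixDual p H A) ≠ 0 := Nat.card_pos.ne'
  have hlp : ∀ n : ℕ, lpN p (Nat.card (fixDual p H A) ^ n) = n * lpN p (Nat.card (fixDual p H A)) :=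
    fun n => by
      induction n with
      | zero => simp
      | succ n ih => rw [pow_succ, lpN_mul (p := p) (pow_ne_zero _ hpos) hpos, ih]; push_cast; ring
  have h2 := lpN_mono (p := p) h1 (pow_ne_zero _ hpos)
  rw [hlp] at h2
  exact h2

/-- Averaging: invariant functionals are determined on the invariants. -/
theorem lpN_fixDual_le [Finite A] (hA : ∀ a : A, p • a = 0) (hH : Nat.Coprime p (Nat.card H)) :
    lpN p (Nat.card (fixDual p H A)) ≤ lpN p (Nat.card (fixPts H A)) := by
  haveI := finite_dual (A := A) (p := p)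
  haveI := finite_dual (A := fixPts H A) (p := p)
  obtain ⟨s, t, hst⟩ : IsCoprime (p : ℤ) (Nat.card H : ℤ) := Nat.isCoprime_iff_coprime.mpr hH
  let Λ : fixDual p H A →+ (fixPts H A →+ ZMod p) :=
    AddMonoidHom.mk' (fun ν => ν.1.comp (fixPts H A).subtype) fun _ _ => rfl
  have hinj : Function.Injective Λ := (injective_iff_map_eq_zero _).mpr fun ν hν =>
    Subtype.ext (AddMonoidHom.ext fun a => by
      set N := ∑ h : H, h • a
      have hN : N ∈ fixPts H A := fun g => by
        show g • N = N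
        rw [Finset.smul_sum]
        exact Fintype.sum_equiv (Equiv.mulLeft g) _ _ fun h => by rw [smul_smul]; rfl
      have h1 : ν.1 N = 0 := DFunLike.congr_fun hν ⟨N, hN⟩
      rw [map_sum, Finset.sum_congr rfl fun h _ => ν.2 h a, Finset.sum_const, Finset.card_univ,
        ← Nat.card_eq_fintype_card, ← natCast_zsmul] at h1
      show ν.1 a = 0
      calc ν.1 a = (s * (p : ℤ) + t * (Nat.card H : ℤ)) • ν.1 a := by rw [hst, one_smul]
        _ = 0 := by
          rw [add_smul, mul_smul, mul_smul, h1, smul_zero, natCast_zsmul, ← map_nsmul, hA, map_zero,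
            smul_zero, add_zero])
  have h := AddSubgroup.card_dvd_of_injective Λ hinj
  rw [card_dual (p := p) fun z : fixPts H A => Subtype.ext (hA z.1)] at h
  exact lpN_mono (p := p) h Nat.card_pos.ne'

end Generic

variable {p : ℕ} [hp : Fact p.Prime] (K : IntermediateField ℚ QBar) [FiniteDimensional ℚ K]
  [Normal ℚ K] (q : Nat.Primes)

/-- The action on `K_qˣ / p` is trivial. -/
theorem exists_nsmul_eq_smul_sub (hp2 : p ≠ 2) (hqp : (q : ℕ) ≠ p) {ζ : K}
    (hζ : IsPrimitiveRoot ζ p) (hfix : ∀ h ∈ decomp K q, h ζ = ζ)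
    (hcop : Nat.Coprime p (Nat.card (decomp K q))) :
    (powMonoidHom p : (E K q)ˣ →* (E K q)ˣ).range.index = p ^ 2 ∧
      ∀ (h : decomp K q) (x : Additive (E K q)ˣ), ∃ y, p • y = h • x - x := by
  classical
  set Eq := E K q
  haveI : FiniteDimensional ℚ_[(q : ℕ)] Eq := inferInstance
  set Γ := Eq ≃ₐ[ℚ_[(q : ℕ)]] Eq
  letI : Fintype Γ := Fintype.ofFinite _
  set F := Local.fixedIn (⊤ : Subgroup Γ)
  set ι : F →ₐ[ℚ_[(q : ℕ)]] Eq := Local.fixedIncl (⊤ : Subgroup Γ)
  have hιinj : Function.Injective ι := ι.toRingHom.injective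
  have hιfix : ∀ (x : F) (t : Γ), t (ι x) = ι x := fun x t =>
    Local.fixedIncl_fixed (⊤ : Subgroup Γ) x (Subgroup.mem_top t)
  have hζE : IsPrimitiveRoot (localEmb (q : ℕ) K ζ) p :=
    hζ.map_of_injective (RingHom.injective _)
  obtain ⟨ζF, hζF⟩ := Local.exists_fixedIncl_eq (⊤ : Subgroup Γ) (x := localEmb (q : ℕ) K ζ)
    fun t _ => by
      rw [← localEmb_toGlobal, hfix _ (MonoidHom.mem_range.mpr ⟨t, rfl⟩)]
  have hζF' : IsPrimitiveRoot ζF p :=
    IsPrimitiveRoot.of_map_of_injective (f := ι) (by rw [hζF]; exact hζE) hιinj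
  have hE2 : (powMonoidHom p : Eqˣ →* Eqˣ).range.index = p ^ 2 := by
    rw [Local.index_range_pow hp2, Local.card_ker_pow_of_primitive hζE, if_neg hqp, mul_one, sq]
  have hF2 : (powMonoidHom p : Fˣ →* Fˣ).range.index = p ^ 2 := by
    rw [Local.index_range_pow hp2, Local.card_ker_pow_of_primitive hζF', if_neg hqp, mul_one, sq]
  refine ⟨hE2, ?_⟩
  set PE := (powMonoidHom p : Eqˣ →* Eqˣ).range
  set PF := (powMonoidHom p : Fˣ →* Fˣ).range
  let ιu : Fˣ →* Eqˣ := Units.map ι.toRingHom.toMonoidHom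
  let Φ : Fˣ ⧸ PF →* Eqˣ ⧸ PE := QuotientGroup.map PF PE ιu (by
    rintro _ ⟨y, rfl⟩
    exact ⟨ιu y, (map_pow ιu y p).symm⟩)
  have hΦ : Function.Injective Φ := (injective_iff_map_eq_one Φ).mpr fun z hz => by
    obtain ⟨x, rfl⟩ := QuotientGroup.mk_surjective z
    obtain ⟨y, hy⟩ := (QuotientGroup.eq_one_iff _).mp hz
    change y ^ p = ιu x at hy
    set N : Eq := ∏ t : Γ, t (y : Eq) with hN
    obtain ⟨w, hw⟩ := Local.exists_fixedIncl_eq (⊤ : Subgroup Γ) (x := N) fun t _ => by
      rw [hN, map_prod]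
      exact Fintype.prod_equiv (Equiv.mulLeft t) _ _ fun s => rfl
    have hw0 : w ≠ 0 := fun h0 => by
      have e0 : N = 0 := hw ▸ (by rw [h0, map_zero])
      exact Finset.prod_ne_zero_iff.mpr (fun t _ => (map_ne_zero t).mpr y.ne_zero) e0
    have hpow : (x : F) ^ Fintype.card Γ = w ^ p := by
      refine hιinj ?_
      rw [map_pow, map_pow, hw, hN, ← Finset.prod_pow, ← Finset.card_univ, ← Finset.prod_const]
      refine Finset.prod_congr rfl fun t _ => ?_
      have hy' : (y : Eq) ^ p = ι (x : F) := by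
        rw [← Units.val_pow_eq_pow_val, hy]; rfl
      rw [← map_pow, hy', hιfix]
    have hΓ : Nat.Coprime p (Fintype.card Γ) := by
      rwa [← Nat.card_eq_fintype_card, Nat.card_congr (decompEquiv K q).toEquiv]
    obtain ⟨s, t, hst⟩ : IsCoprime (p : ℤ) (Fintype.card Γ : ℤ) := Nat.isCoprime_iff_coprime.mpr hΓ
    have hpow' : x ^ Fintype.card Γ = Units.mk0 w hw0 ^ p :=
      Units.ext (by rw [Units.val_pow_eq_pow_val, Units.val_pow_eq_pow_val]; exact hpow)
    rw [QuotientGroup.eq_one_iff]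
    refine ⟨x ^ s * Units.mk0 w hw0 ^ t, ?_⟩
    show (x ^ s * Units.mk0 w hw0 ^ t) ^ p = x
    rw [mul_pow, ← zpow_natCast (x ^ s), ← zpow_natCast (Units.mk0 w hw0 ^ t), ← zpow_mul,
      ← zpow_mul, mul_comm t, zpow_mul (Units.mk0 w hw0), zpow_natCast, ← hpow', ← zpow_natCast,
      ← zpow_mul, ← zpow_add, mul_comm (Fintype.card Γ : ℤ), hst, zpow_one]
  haveI : Finite (Eqˣ ⧸ PE) := Nat.finite_of_card_ne_zero (by
    show PE.index ≠ 0
    rw [hE2]; exact pow_ne_zero _ hp.out.ne_zero)
  haveI : Finite (Fˣ ⧸ PF) := Finite.of_injective _ hΦ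
  have hsurj : Function.Surjective Φ :=
    (hΦ.bijective_of_nat_card_le (le_of_eq (hE2.trans hF2.symm))).2
  intro h x
  obtain ⟨z, hz⟩ := hsurj (QuotientGroup.mk x.toMul)
  obtain ⟨a, rfl⟩ := QuotientGroup.mk_surjective z
  obtain ⟨e, he⟩ := QuotientGroup.eq.mp hz
  change e ^ p = (ιu a)⁻¹ * x.toMul at he
  set t := (decompEquiv K q).symm h
  refine ⟨Additive.ofMul (t • e / e), ?_⟩
  rw [decomp_smul_def]
  refine Additive.toMul.injective ?_
  show (t • e / e) ^ p = t • x.toMul / x.toMul
  have hxe : x.toMul = ιu a * e ^ p := by rw [he, mul_inv_cancel_left]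
  have hta : t • ιu a = ιu a := Units.ext (hιfix a t)
  rw [hxe, smul_mul', hta, smul_pow', div_pow, mul_div_mul_left_eq_div]

/-- **The local cokernel at such a prime.** -/
theorem lpN_index_decomp_le {A : Type} [AddCommGroup A] [DistribMulAction (decomp K q) A] [Finite A]
    [Fintype (decomp K q)]
    (hA : ∀ a : A, p • a = 0) (hp2 : p ≠ 2) (hqp : (q : ℕ) ≠ p) {ζ : K}
    (hζ : IsPrimitiveRoot ζ p) (hfix : ∀ h ∈ decomp K q, h ζ = ζ)
    (hcop : Nat.Coprime p (Nat.card (decomp K q)))
    (hM : ModPFinite p (Additive (E K q)ˣ)) (X : Pres p (decomp K q) A) :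
    lpN p (X.res (Additive (E K q)ˣ)).range.index ≤
      2 * lpN p (Nat.card (fixPts (decomp K q) A)) := by
  obtain ⟨h2, htriv⟩ := exists_nsmul_eq_smul_sub K q hp2 hqp hζ hfix hcop
  rw [← Subgroup.index_toAddSubgroup] at h2
  have h1 := index_le_of_trivial hcop X hM htriv (r := 2) h2
  have h3 := lpN_fixDual_le (H := decomp K q) hA hcop
  push_cast at h1
  linarith

end Fermat.Agent.CFT.Selmer
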