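import Fermat.Agent.CFT.Coh.H2
import Fermat.Agent.CFT.Coh.Norms

/-!
# Class formations modulo a cohomologically trivial submodule

If the kernel `W` of an equivariant surjection `C → D` has trivial `H¹` at all `p`-subgroups and
its invariants are norms, then the image of a fundamental class of `C` is one of `D`.
-/

set_option autoImplicit false
set_option linter.unusedSectionVars false
set_option linter.style.haveILetI false

noncomputable section

namespace Fermat.Agent.CFT.Selmer

open Fermat.Agent.CFT groupCohomology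

variable {G C D W : Type*} [Group G] [AddCommGroup C] [DistribMulAction G C]
  [AddCommGroup D] [DistribMulAction G D] [AddCommGroup W] [DistribMulAction G W]
  {p : ℕ} [hp : Fact p.Prime]

/-- The image of a normalised cocycle. -/
def mapCocycle (f : C →+ D) (hf : ∀ (g : G) (x : C), f (g • x) = g • f x) (u : NormCocycle G C) :
    NormCocycle G D where
  toFun gh := f (u.toFun gh)
  isCocycle a b d := by rw [← hf, ← map_add, ← map_add, u.isCocycle a b d]
  one_left g := by rw [u.one_left, map_zero]

theorem mapCocycle_toFun (f : C →+ D) (hf : ∀ (g : G) (x : C), f (g • x) = g • f x)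
    (u : NormCocycle G C) (gh : G × G) : (mapCocycle f hf u).toFun gh = f (u.toFun gh) := rfl

variable [Finite G]

/-- Invariant elements are norms of invariant elements along a step. -/
theorem exists_stepNorm_eq {H K : Subgroup G} {g : G} (hs : IsStep p H K g) [Fintype H]
    (hN : NormSurj H W) (x : W) (hx : ∀ h ∈ H, h • x = x) :
    ∃ w : W, (∀ k ∈ K, k • w = w) ∧ stepNorm p g w = x := by
  classical
  obtain ⟨z, hz⟩ := hN x fun h => hx h h.2
  haveI : Fintype K := Fintype.ofFinite K
  obtain ⟨χ, hχ, hker, hg⟩ := hs.exists_char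
  refine ⟨normSum K W z, fun k hk => smul_normSum (⟨k, hk⟩ : K) z, ?_⟩
  let γ : H := ⟨g, hs.mem⟩
  let φ : ℕ × K → H := fun x => γ ^ x.1 * ⟨x.2, hs.le x.2.2⟩
  have hk : ∀ k : K, χ ⟨k, hs.le k.2⟩ = 1 := fun k => by
    rw [← MonoidHom.mem_ker, hker, Subgroup.mem_subgroupOf]
    exact k.2
  have hφ : ∀ (j : ℕ) (k : K), χ (φ (j, k)) = Multiplicative.ofAdd (j : ZMod p) := fun j k => by
    simp only [φ, map_mul, hk, mul_one, map_pow]
    rw [hg, ← ofAdd_nsmul, nsmul_one]
  rw [← hz, normSum, stepNorm]
  simp only [normSum, Finset.smul_sum, Subgroup.smul_def, smul_smul]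
  rw [← Finset.sum_product' (Finset.range p) Finset.univ fun j (k : K) => (g ^ j * (k : G)) • z]
  refine Finset.sum_bij (fun x _ => φ x) (fun _ _ => Finset.mem_univ _) ?_ ?_ ?_
  · rintro ⟨i, k⟩ hi ⟨j, l⟩ hj e
    simp only [Finset.mem_product, Finset.mem_range, Finset.mem_univ, and_true] at hi hj
    have hij : i = j := by
      have e' := (hφ i k).symm.trans ((congrArg χ e).trans (hφ j l))
      have h' := congrArg ZMod.val (Multiplicative.ofAdd.injective e')
      rwa [ZMod.val_natCast_of_lt hi, ZMod.val_natCast_of_lt hj] at h'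
    subst hij
    exact Prod.ext rfl (Subtype.ext (congrArg (Subtype.val : H → G) (mul_left_cancel e)))
  · intro h _
    set j := (Multiplicative.toAdd (χ h)).val
    have hj : ((γ ^ j)⁻¹ * h : H) ∈ χ.ker := by
      rw [MonoidHom.mem_ker, map_mul, map_inv, map_pow, hg, ← ofAdd_nsmul, nsmul_one,
        ZMod.natCast_zmod_val, ofAdd_toAdd, inv_mul_cancel]
    rw [hker, Subgroup.mem_subgroupOf] at hj
    refine ⟨(j, ⟨_, hj⟩), Finset.mem_product.mpr ⟨Finset.mem_range.mpr (ZMod.val_lt _), Finset.mem_univ _⟩, ?_⟩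
    exact mul_inv_cancel_left (γ ^ j) h
  · intro x _
    rfl

/-- With trivial `H¹` and surjective norms at all `p`-subgroups, `H²` vanishes there. -/
theorem h2Zero_of_normSurj (h1 : ∀ H : Subgroup G, IsPGroup p H → H1Zero H W)
    (hN : ∀ (H : Subgroup G) [Fintype H], IsPGroup p H → NormSurj H W)
    (H : Subgroup G) (hH : IsPGroup p H) : H2Zero H W := by
  suffices key : ∀ (n : ℕ) (H : Subgroup G), Nat.card H = n → IsPGroup p H → H2Zero H W from
    key _ H rfl hH
  intro n
  induction n using Nat.strong_induction_on with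
  | _ n ih =>
  intro H hn hH c hc
  rcases subsingleton_or_nontrivial H with hs | hs
  · refine ⟨fun _ => c (1, 1), fun a b => ?_⟩
    rw [Subsingleton.elim a 1, Subsingleton.elim b 1, one_smul, mul_one, sub_self, zero_add]
  obtain ⟨K, g, hs⟩ := exists_isStep hH
  obtain ⟨χ, hχ, hker, hg⟩ := hs.exists_char
  have hlt : Nat.card K < n := by
    rw [← hn, hs.card_eq]; exact lt_mul_left Nat.card_pos hp.out.one_lt
  obtain ⟨x, hx, hcx⟩ := exists_carry_congr hs (h1 K hs.isPGroup_left) χ hχ hker hg c hc
    (ih _ hlt K rfl hs.isPGroup_left (fun x => c (⟨x.1, hs.le x.1.2⟩, ⟨x.2, hs.le x.2.2⟩))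
      fun a b d => hc ⟨a.1, hs.le a.2⟩ ⟨b.1, hs.le b.2⟩ ⟨d.1, hs.le d.2⟩)
  letI : Fintype H := Fintype.ofFinite H
  obtain ⟨w, hw, hwx⟩ := exists_stepNorm_eq hs (hN H hH) x hx
  have h' : c ∈ cobound₂ H W := by
    rw [← sub_add_cancel c (carry χ x)]
    refine add_mem hcx ?_
    rw [← hwx]
    exact carry_stepNorm_mem hs χ hker hg w hw
  exact h'

/-- The image of a fundamental class. -/
theorem isClassFormation_map [Fintype G] (hA : StepAxioms p G C) {u : NormCocycle G C}
    (hu : IsClassFormation p u) (i : W →+ C) (hi : ∀ (g : G) (x : W), i (g • x) = g • i x)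
    (hinj : Function.Injective i) (f : C →+ D) (hf : ∀ (g : G) (x : C), f (g • x) = g • f x)
    (hfs : Function.Surjective f) (hfi : ∀ x, f (i x) = 0) (hex : ∀ y, f y = 0 → ∃ x, i x = y)
    (h1 : ∀ H : Subgroup G, IsPGroup p H → H1Zero H W)
    (hN : ∀ (H : Subgroup G) [Fintype H], IsPGroup p H → NormSurj H W) :
    IsClassFormation p (mapCocycle f hf u) := by
  classical
  have lift : ∀ (H : Subgroup G), IsPGroup p H → ∀ d : D, (∀ h ∈ H, h • d = d) →
      ∃ c : C, (∀ h ∈ H, h • c = c) ∧ f c = d := by
    intro H hH d hd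
    obtain ⟨c, rfl⟩ := hfs d
    have hk : ∀ h : H, ∃ w : W, i w = (h : G) • c - c := fun h => hex _ (by
      rw [map_sub, hf, hd h h.2, sub_self])
    choose w hw using hk
    obtain ⟨y, hy⟩ := h1 H hH w fun a b => hinj (by
      rw [map_add, Subgroup.smul_def, hi, hw, hw, hw, Subgroup.coe_mul, mul_smul, smul_sub]
      abel)
    refine ⟨c - i y, fun h hh => ?_, by rw [map_sub, hfi, sub_zero]⟩
    have e : h • i y - i y = h • c - c := by
      rw [← hi, ← map_sub, show h • y - y = w ⟨h, hh⟩ from hy ⟨h, hh⟩, hw]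
    rw [smul_sub, ← sub_eq_zero,
      show h • c - h • i y - (c - i y) = (h • c - c) - (h • i y - i y) by abel, e, sub_self]
  have hnorm : ∀ (g : G) (b : C), f (stepNorm p g b) = stepNorm p g (f b) := fun g b => by
    simp only [stepNorm, map_sum, hf]
  have hD : StepAxioms p G D := by
    refine ⟨fun H K g hs a ha hN0 => ?_, fun H K g hs => ?_⟩
    · letI : Fintype H := Fintype.ofFinite H
      obtain ⟨c, hc, rfl⟩ := lift K hs.isPGroup_left a ha
      obtain ⟨x, hx⟩ := hex (stepNorm p g c) (by rw [hnorm, hN0])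
      have hfix : ∀ h ∈ H, h • stepNorm p g c = stepNorm p g c := by
        intro h hh
        obtain ⟨χ, -, hker, hg⟩ := hs.exists_char
        have hH : H ≤ (MulAction.stabilizer G (stepNorm p g c)) := by
          intro y hy
          set γ : H := ⟨g, hs.mem⟩
          set j := (Multiplicative.toAdd (χ ⟨y, hy⟩)).val
          have hj : ((γ ^ j)⁻¹ * ⟨y, hy⟩ : H) ∈ χ.ker := by
            rw [MonoidHom.mem_ker, map_mul, map_inv, map_pow, hg, ← ofAdd_nsmul, nsmul_one,
              ZMod.natCast_zmod_val, ofAdd_toAdd, inv_mul_cancel]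
          rw [hker, Subgroup.mem_subgroupOf] at hj
          rw [MulAction.mem_stabilizer_iff]
          have hgfix : g • stepNorm p g c = stepNorm p g c := by
            have e := Finset.sum_range_succ (fun i => g ^ i • c) p
            rw [Finset.sum_range_succ', pow_zero, one_smul, hc _ hs.pow_mem] at e
            rw [stepNorm, Finset.smul_sum]
            simp only [smul_smul, ← pow_succ']
            exact add_right_cancel e
          have hkfix : ∀ k ∈ K, k • stepNorm p g c = stepNorm p g c := by
            intro k hk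
            simp only [stepNorm, Finset.smul_sum]
            refine Finset.sum_congr rfl fun i _ => ?_
            have hm : ((γ ^ i)⁻¹ * ⟨k, hs.le hk⟩ * γ ^ i : H) ∈ χ.ker := by
              have hkk : (⟨k, hs.le hk⟩ : H) ∈ χ.ker := by
                rw [hker, Subgroup.mem_subgroupOf]; exact hk
              simpa using (inferInstance : χ.ker.Normal).conj_mem _ hkk (γ ^ i)⁻¹
            rw [hker, Subgroup.mem_subgroupOf] at hm
            conv_rhs => rw [← hc _ hm]
            simp only [smul_smul]
            congr 1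
            simp [γ, mul_assoc]
          have hpow : ∀ i : ℕ, g ^ i • stepNorm p g c = stepNorm p g c := fun i => by
            induction i with
            | zero => rw [pow_zero, one_smul]
            | succ i ih => rw [pow_succ, mul_smul, hgfix, ih]
          conv_lhs => rw [show y = g ^ j * ((g ^ j)⁻¹ * y) by group, mul_smul]
          rw [show (g ^ j)⁻¹ * y = (((γ ^ j)⁻¹ * ⟨y, hy⟩ : H) : G) by simp [γ], hkfix _ hj, hpow]
        exact MulAction.mem_stabilizer_iff.mp (hH hh)
      obtain ⟨w, hw, hwx⟩ := exists_stepNorm_eq hs (hN H hs.isPGroup) x fun h hh => hinj (by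
        rw [hi, hx, hfix h hh])
      obtain ⟨b, hb, hbe⟩ := hA.h1 H K g hs (c - i w)
        (fun k hk => by rw [smul_sub, hc k hk, ← hi, hw k hk]) (by
          have : i (stepNorm p g w) = stepNorm p g (i w) := by simp only [stepNorm, map_sum, hi]
          rw [stepNorm, Finset.sum_congr rfl fun j _ => smul_sub (g ^ j) c (i w),
            Finset.sum_sub_distrib]
          show stepNorm p g c - stepNorm p g (i w) = 0
          rw [← this, hwx, hx, sub_self])
      refine ⟨f b, fun k hk => by rw [← hf, hb k hk], ?_⟩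
      rw [← hf, ← map_sub, hbe, map_sub, hfi, sub_zero]
    · obtain ⟨x₀, hx₀, hgen⟩ := hA.index_le H K g hs
      refine ⟨f x₀, fun h hh => by rw [← hf, hx₀ h hh], fun d hd => ?_⟩
      obtain ⟨c, hc, rfl⟩ := lift H hs.isPGroup d hd
      obtain ⟨m, b, hb, rfl⟩ := hgen c hc
      exact ⟨m, f b, fun k hk => by rw [← hf, hb k hk], by rw [map_add, map_zsmul, hnorm]⟩
  refine hD.isClassFormation _ fun P k hk => ?_
  obtain ⟨β, hβ⟩ := hk
  choose β' hβ' using fun x => hfs (β x)
  let e : ↥(P : Subgroup G) × ↥(P : Subgroup G) → C := fun gh =>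
    k • u.toFun ((gh.1 : G), (gh.2 : G)) - dOne β' gh
  have he : ∀ gh, f (e gh) = 0 := fun gh => by
    have := hβ gh.1 gh.2
    simp only [mapCocycle_toFun, Subgroup.smul_def] at this
    simp only [e, dOne, map_sub, map_add, map_zsmul, hf, Subgroup.smul_def, hβ']
    rw [← this, sub_self]
  choose w hw using fun gh => hex _ (he gh)
  have hec : IsCocycle₂ e := isCocycle₂_sub
    (isCocycle₂_zsmul (c := fun gh : ↥(P : Subgroup G) × ↥(P : Subgroup G) =>
      u.toFun ((gh.1 : G), (gh.2 : G))) (fun a b d => u.isCocycle (a : G) (b : G) (d : G)) k)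
    (isCocycle₂_dOne β')
  obtain ⟨z, hz⟩ := h2Zero_of_normSurj h1 hN (P : Subgroup G) P.isPGroup' w fun a b d => hinj (by
    rw [map_add, map_add, Subgroup.smul_def, hi, hw, hw, hw, hw]
    exact hec a b d)
  refine hu.order _ P.isPGroup' k ⟨fun x => β' x + i (z x), fun a b => ?_⟩
  have e1 := congrArg i (hz a b)
  rw [hw, map_add, map_sub, Subgroup.smul_def, hi] at e1
  simp only [e, dOne, Subgroup.smul_def] at e1
  rw [Subgroup.smul_def, smul_add]
  rw [← sub_eq_zero] at e1 ⊢
  rw [← e1]
  beta_reduce
  abel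

end Fermat.Agent.CFT.Selmer
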