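import Fermat.Agent.CFT.Selmer.Bound
import Fermat.Agent.CFT.Tangent.Classes
import Fermat.Agent.CFT.Tangent.BaseChange
import Fermat.Agent.CFT.Tangent.OrdinaryBound
import Fermat.Agent.CFT.Tangent.FlatBound
import Fermat.Agent.CFT.TWPrimes.Residual
import Fermat.Prelude.Def_GaloisRep_DeformationRingData
import Fermat.Prelude.Def_GaloisRep_StrictOrdinary
import Fermat.Prelude.Def_GaloisRep_Flat

/-!
# Deformation rings at Taylor–Wiles primes are topologically generated by as many elements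

The tangent classes of a deformation ring whose local conditions are those of Taylor–Wiles satisfy
the hypotheses of the Selmer bound, with excess `1` at `p` and `0` at the other bad primes.
-/

set_option autoImplicit false
set_option linter.style.haveILetI false

noncomputable section

namespace Fermat.Agent.CFT.Selmer

open IsLocalRing Module ExtCitation Fermat.Agent.Arith Fermat.Agent.Deform
open Fermat.Agent.CFT.Local Fermat.Agent.CFT.Tangent
open scoped Pointwise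

section Classes

variable {p : ℕ} [Fact p.Prime] {k : Type} [Field k] {r : GQ →* M2 k} {b : GQ → M2 k}
  {ρ : GaloisRepAdic (DualNumber k)} {B : Basis (Fin 2) (DualNumber k) ρ.V}

theorem matOf_eq_toMatrix (σ : GQ) : matOf ρ B σ = LinearMap.toMatrix B B (ρ.ρ σ) := rfl

/-- A lift which is trivial at `σ` has residual value `1` and class `0` there. -/
theorem eq_one_and_eq_zero_of_lift (hB : ∀ σ, matOf ρ B σ = (1 + epsM (b σ)) * inlM (r σ))
    {σ : GQ} (hσ : ρ.ρ σ = 1) : r σ = 1 ∧ b σ = 0 := by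
  have h := hB σ
  rw [matOf_eq_toMatrix, hσ, LinearMap.toMatrix_one] at h
  have h1 := congrArg fstM h
  have h2 := congrArg sndM h
  rw [fstM_lift, fstM_one] at h1
  rw [sndM_lift, sndM_one, ← h1, mul_one] at h2
  exact ⟨h1.symm, h2.symm⟩

/-- A lift with unipotent value at `σ`. -/
theorem trace_eq_of_lift (hB : ∀ σ, matOf ρ B σ = (1 + epsM (b σ)) * inlM (r σ))
    {σ : GQ} (hσ : LinearMap.charpoly (ρ.ρ σ) = (Polynomial.X - 1) ^ 2) :
    (r σ).trace = 2 ∧ (r σ).det = 1 ∧ (b σ * r σ).trace = 0 := by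
  rw [← LinearMap.charpoly_toMatrix (ρ.ρ σ) B, ← matOf_eq_toMatrix,
    Matrix.charpoly_fin_two] at hσ
  have ht : (matOf ρ B σ).trace = 2 := by
    have e := congrArg (fun P => Polynomial.coeff P 1) hσ
    simp [sq, mul_sub, sub_mul, Polynomial.coeff_X, Polynomial.coeff_C,
      Polynomial.coeff_one] at e
    linear_combination -e
  have hd : (matOf ρ B σ).det = 1 := by
    have e := congrArg (fun P => Polynomial.eval 0 P) hσ
    simpa using e
  rw [hB] at ht hd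
  refine ⟨?_, ?_, ?_⟩
  · have e := congrArg TrivSqZeroExt.fst ht
    rw [← fstM_lift (b σ) (r σ)]
    simp only [Matrix.trace_fin_two, fstM_apply, TrivSqZeroExt.fst_add] at e ⊢
    rw [e]
    rfl
  · have e := congrArg TrivSqZeroExt.fst hd
    rw [← fstM_lift (b σ) (r σ)]
    simp only [Matrix.det_fin_two, fstM_apply, TrivSqZeroExt.fst_sub, TrivSqZeroExt.fst_mul,
      TrivSqZeroExt.fst_one] at e ⊢
    exact e
  · have e := congrArg TrivSqZeroExt.snd ht
    rw [← sndM_lift (b σ) (r σ)]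
    simp only [Matrix.trace_fin_two, sndM_apply, TrivSqZeroExt.snd_add] at e ⊢
    rw [e]
    exact TrivSqZeroExt.snd_natCast 2

end Classes

variable {𝒪 : Type} [CommRing 𝒪] [IsDomain 𝒪] [IsDiscreteValuationRing 𝒪]
  [IsAdicComplete (maximalIdeal 𝒪) 𝒪] [Finite (ResidueField 𝒪)]
  {p : ℕ} [hp : Fact p.Prime] [CharP (ResidueField 𝒪) p]

/-- A deformation ring with conditions at `p` of excess one and unipotent inertia at the other
bad primes is generated by as many elements as there are auxiliary primes. -/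
theorem exists_surjective_of_selmer (h2 : (2 : ResidueField 𝒪) ≠ 0)
    {ρbar : ResidualGaloisRep (ResidueField 𝒪)} (bb : Basis (Fin 2) (ResidueField 𝒪) ρbar.V)
    {Smin : Finset ℕ} (hSprime : ∀ q ∈ Smin, q.Prime)
    (hne : ∀ q ∈ Smin, q ≠ p → ¬ ρbar.IsUnramifiedAt q)
    {m : ℕ} (qv : Fin m → ℕ)
    (hsel : ∀ Z : Submodule (ResidueField 𝒪) (GQ → M2 (ResidueField 𝒪)),
      Module.Finite (ResidueField 𝒪) Z →
      (∀ b ∈ Z, IsAdCocycle (matRes ρbar bb) b ∧ IsFiniteLevel b ∧ (∀ σ, (b σ).trace = 0) ∧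
        ∀ l : ℕ, l.Prime → l ∉ Smin → (∀ i, qv i ≠ l) → ∀ A : ValuationSubring QBar,
          A.LiesOverPrime l → ∀ τ ∈ A.inertiaSubgroupIn ℚ, b τ = 0) →
      (∀ b ∈ Z, ∀ X, b = cobdLin (matRes ρbar bb) X → b = 0) → ∀ δ : ℕ → ℤ,
      (∀ (v : ℕ) [Fact v.Prime], v ∈ Smin → (finrank (ResidueField 𝒪) Z : ℤ) ≤
        finrank (ResidueField 𝒪) (Z ⊓ cobdOn (matRes ρbar bb)
            ((padicPlace v).decompositionSubgroup ℚ) :
            Submodule (ResidueField 𝒪) (GQ → M2 (ResidueField 𝒪))) +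
          finrank (ResidueField 𝒪) (fixedOn (matRes ρbar bb)
            ((padicPlace v).decompositionSubgroup ℚ)) + δ v) →
      (finrank (ResidueField 𝒪) Z : ℤ) ≤ m + ∑ v ∈ Smin, δ v - 1)
    (hpSmin : p ∈ Smin)
    (C : ∀ ⦃A : Type⦄ [CommRing A] [IsLocalRing A], GaloisRepAdic A → Prop)
    (hC : ∀ {A A' : Type} [CommRing A] [IsLocalRing A] [CommRing A'] [IsLocalRing A']
      (φ : A →+* A') (hφ : IsLocalHom φ) (ρ : GaloisRepAdic A), Function.Surjective φ →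
        C ρ → C (ρ.baseChangeAlong φ hφ))
    (hloc : ∀ V : Submodule (ResidueField 𝒪) (GQ → M2 (ResidueField 𝒪)),
      Module.Finite (ResidueField 𝒪) V →
      (∀ b ∈ V, IsAdCocycle (matRes ρbar bb) b) → (∀ b ∈ V, IsFiniteLevel b) →
      (∀ b ∈ V, b ≠ 0 → ∃ (ρ : GaloisRepAdic (DualNumber (ResidueField 𝒪)))
        (B : Basis (Fin 2) (DualNumber (ResidueField 𝒪)) ρ.V), C ρ ∧ ρ.DetIsCyclotomic p ∧
          ∀ σ, matOf ρ B σ = (1 + epsM (b σ)) * inlM (matRes ρbar bb σ)) →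
      finrank (ResidueField 𝒪) V ≤ finrank (ResidueField 𝒪) (V ⊓ cobdOn (matRes ρbar bb)
          ((padicPlace p).decompositionSubgroup ℚ) :
          Submodule (ResidueField 𝒪) (GQ → M2 (ResidueField 𝒪))) +
        finrank (ResidueField 𝒪) (fixedOn (matRes ρbar bb)
          ((padicPlace p).decompositionSubgroup ℚ)) + 1)
    (DQ : GaloisRep.DeformationRingData 𝒪 ρbar (fun _A _ _ _ ρ =>
      (ρ.DetIsCyclotomic p ∧ C ρ ∧
        ∀ q : ℕ, q.Prime → q ∉ Smin ∪ Finset.univ.image qv → ρ.IsUnramifiedAt q) ∧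
      ∀ q ∈ Smin, q.Prime → q ≠ p → ρ.IsUnipotentOnInertiaAt q)) :
    ∃ γ : MvPowerSeries (Fin m) 𝒪 →ₐ[𝒪] DQ.R, Function.Surjective γ := by
  classical
  obtain ⟨V, hVf, hgen, hV, hcob⟩ := exists_tangent_classes DQ bb
    fun A _ _ _ φ hφ hsurj => by
      obtain ⟨⟨hd, hc, hu⟩, hq⟩ := DQ.isOfType
      exact ⟨⟨DetIsCyclotomic.baseChange _ hφ hd, hC _ hφ _ hsurj hc,
          fun q h1 h2 => IsUnramifiedAt.baseChange _ hφ (hu q h1 h2)⟩,
        fun q h1 h2 h3 => IsUnipotentOnInertiaAt.baseChange _ hφ (hq q h1 h2 h3)⟩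
  refine hgen m ?_
  haveI := hVf
  set r := matRes ρbar bb with hr
  have hcls : ∀ b ∈ V, b ≠ 0 → ∃ (ρ : GaloisRepAdic (DualNumber (ResidueField 𝒪)))
      (B : Basis (Fin 2) (DualNumber (ResidueField 𝒪)) ρ.V),
        ((ρ.DetIsCyclotomic p ∧ C ρ ∧
          ∀ q : ℕ, q.Prime → q ∉ Smin ∪ Finset.univ.image qv → ρ.IsUnramifiedAt q) ∧
        ∀ q ∈ Smin, q.Prime → q ≠ p → ρ.IsUnipotentOnInertiaAt q) ∧
        ∀ σ, matOf ρ B σ = (1 + epsM (b σ)) * inlM (r σ) := fun b hb hb0 =>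
    (hV b hb).2.2 hb0
  rcases eq_or_ne V ⊥ with rfl | hVne
  · simp
  obtain ⟨b₀, hb₀, hb₀ne⟩ := Submodule.exists_mem_ne_zero_of_ne_bot hVne
  have htr : ∀ b ∈ V, ∀ σ, (b σ).trace = 0 := fun b hb σ => by
    rcases eq_or_ne b 0 with rfl | hb0
    · simp
    obtain ⟨ρ, B, hρ, hB⟩ := hcls b hb hb0
    exact trace_eq_zero_of_det p hρ.1.1 hB σ
  have hunr : ∀ b ∈ V, ∀ l : ℕ, l.Prime → l ∉ Smin → (∀ i, qv i ≠ l) →
      ∀ A : ValuationSubring QBar, A.LiesOverPrime l →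
        ∀ τ ∈ A.inertiaSubgroupIn ℚ, b τ = 0 := fun b hb l hl hlS hlq A hA τ hτ => by
    rcases eq_or_ne b 0 with rfl | hb0
    · rfl
    obtain ⟨ρ, B, hρ, hB⟩ := hcls b hb hb0
    refine (eq_one_and_eq_zero_of_lift hB (hρ.1.2.2 l hl ?_ A hA τ hτ)).2
    simp only [Finset.mem_union, Finset.mem_image, Finset.mem_univ, true_and, not_or,
      not_exists]
    exact ⟨hlS, hlq⟩
  have hmain := hsel V hVf
    (fun b hb => ⟨(hV b hb).1, (hV b hb).2.1, htr b hb, hunr b hb⟩) hcob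
    (fun v => if v = p then 1 else 0) (fun v _ hv => ?_)
  · rw [Finset.sum_ite_eq' Smin p, if_pos hpSmin, add_sub_cancel_right] at hmain
    exact Int.ofNat_le.mp hmain
  have hcoc : ∀ b ∈ V, IsAdCocycle r b := fun b hb => (hV b hb).1
  have hlev : ∀ b ∈ V, IsFiniteLevel b := fun b hb => (hV b hb).2.1
  have hrfin := TWPrimes.finiteLevel_matRes ρbar bb
  by_cases hvp : v = p
  · subst hvp
    rw [if_pos rfl]
    exact_mod_cast hloc V hVf hcoc hlev fun b hb hb0 => by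
      obtain ⟨ρ, B, hρ, hB⟩ := hcls b hb hb0
      exact ⟨ρ, B, hρ.1.2.1, hρ.1.1, hB⟩
  · rw [if_neg hvp, add_zero]
    have hv' : v.Prime := Fact.out
    have hA := Local.padicPlace_liesOverPrime v
    obtain ⟨ρ₀, B₀, hρ₀, hB₀⟩ := hcls b₀ hb₀ hb₀ne
    exact_mod_cast finrank_le_unipotent p h2 hvp hrfin V hcoc hlev htr
      (fun τ hτ => ⟨(trace_eq_of_lift hB₀ (hρ₀.2 v hv hv' hvp _ hA τ hτ)).1,
        (trace_eq_of_lift hB₀ (hρ₀.2 v hv hv' hvp _ hA τ hτ)).2.1⟩)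
      (by
        by_contra! hno
        refine hne v hv hvp fun P hP σ hσ => ?_
        obtain ⟨g, rfl⟩ := Arith.exists_smul_eq hA hP hv'
        have hσ' : g⁻¹ * σ * g ∈ (padicPlace v).inertiaSubgroupIn ℚ := by
          have := (Arith.mem_inertia_smul_iff (g := g⁻¹) (σ := σ)).mpr hσ
          rwa [inv_inv, inv_smul_smul] at this
        have h1 := hno _ hσ'
        have h3 : r σ = 1 := by
          calc r σ = r g * r (g⁻¹ * σ * g) * r g⁻¹ := by
                rw [← map_mul, ← map_mul]; congr 1; group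
            _ = 1 := by rw [h1, mul_one, ← map_mul, mul_inv_cancel, map_one]
        exact (LinearMap.toMatrixAlgEquiv bb).injective (h3.trans (map_one _).symm))
      (fun b hb τ hτ => by
        rcases eq_or_ne b 0 with rfl | hb0
        · simp
        obtain ⟨ρ, B, hρ, hB⟩ := hcls b hb hb0
        exact (trace_eq_of_lift hB (hρ.2 v hv hv' hvp _ hA τ hτ)).2.2)

/-- **Taylor–Wiles primes**, for a condition at `p` of excess one. -/
theorem exists_tw_primes_surjective (hp2 : p ≠ 2)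
    (ρbar : ResidualGaloisRep (ResidueField 𝒪))
    (bb : Basis (Fin 2) (ResidueField 𝒪) ρbar.V)
    (hr : TWPrimes.TWHyp (matRes ρbar bb))
    (hdet : (GaloisRepAdic.ofResidualGaloisRep ρbar).DetIsCyclotomic p)
    {S Smin : Finset ℕ} (hpSmin : p ∈ Smin) (hSmin : ∀ q ∈ Smin, q.Prime)
    (hmin : ∀ q : ℕ, q.Prime → q ≠ p → (q ∈ Smin ↔ ¬ ρbar.IsUnramifiedAt q))
    (C : ∀ ⦃A : Type⦄ [CommRing A] [IsLocalRing A], GaloisRepAdic A → Prop)
    (hC : ∀ {A A' : Type} [CommRing A] [IsLocalRing A] [CommRing A'] [IsLocalRing A']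
      (φ : A →+* A') (hφ : IsLocalHom φ) (ρ : GaloisRepAdic A), Function.Surjective φ →
        C ρ → C (ρ.baseChangeAlong φ hφ))
    (hloc : ∀ V : Submodule (ResidueField 𝒪) (GQ → M2 (ResidueField 𝒪)),
      Module.Finite (ResidueField 𝒪) V →
      (∀ b ∈ V, IsAdCocycle (matRes ρbar bb) b) → (∀ b ∈ V, IsFiniteLevel b) →
      (∀ b ∈ V, b ≠ 0 → ∃ (ρ : GaloisRepAdic (DualNumber (ResidueField 𝒪)))
        (B : Basis (Fin 2) (DualNumber (ResidueField 𝒪)) ρ.V), C ρ ∧ ρ.DetIsCyclotomic p ∧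
          ∀ σ, matOf ρ B σ = (1 + epsM (b σ)) * inlM (matRes ρbar bb σ)) →
      finrank (ResidueField 𝒪) V ≤ finrank (ResidueField 𝒪) (V ⊓ cobdOn (matRes ρbar bb)
          ((padicPlace p).decompositionSubgroup ℚ) :
          Submodule (ResidueField 𝒪) (GQ → M2 (ResidueField 𝒪))) +
        finrank (ResidueField 𝒪) (fixedOn (matRes ρbar bb)
          ((padicPlace p).decompositionSubgroup ℚ)) + 1) :
    ∃ r : ℕ, ∀ n : ℕ, ∃ qv : Fin r → ℕ, Function.Injective qv ∧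
      (∀ i, (qv i).Prime ∧ qv i ∉ S ∧ p ^ (n + 1) ∣ qv i - 1) ∧
      (∀ i, ∀ P : ValuationSubring QBar, P.LiesOverPrime (qv i) →
        ∀ φ : GQ, P.IsFrobeniusAt φ (qv i) →
          ∃ α β : ResidueField 𝒪, α ≠ β ∧ LinearMap.charpoly (ρbar.ρ φ) =
            (Polynomial.X - Polynomial.C α) * (Polynomial.X - Polynomial.C β)) ∧
      ∀ DQ : GaloisRep.DeformationRingData 𝒪 ρbar (fun _A _ _ _ ρ =>
          (ρ.DetIsCyclotomic p ∧ C ρ ∧
            ∀ q : ℕ, q.Prime → q ∉ Smin ∪ Finset.univ.image qv → ρ.IsUnramifiedAt q) ∧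
          ∀ q ∈ Smin, q.Prime → q ≠ p → ρ.IsUnipotentOnInertiaAt q),
        ∃ γ : MvPowerSeries (Fin r) 𝒪 →ₐ[𝒪] DQ.R, Function.Surjective γ := by
  have hBr : ∀ l : ℕ, l.Prime → l ∉ Smin → ∀ A : ValuationSubring QBar, A.LiesOverPrime l →
      ∀ τ ∈ A.inertiaSubgroupIn ℚ, matRes ρbar bb τ = 1 := fun l hl hlS A hA τ hτ => by
    have hlp : l ≠ p := fun h => hlS (h ▸ hpSmin)
    have hu : ρbar.IsUnramifiedAt l := not_not.mp fun h => hlS ((hmin l hl hlp).mpr h)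
    show LinearMap.toMatrixAlgEquiv bb (ρbar.ρ τ) = 1
    rw [hu A hA τ hτ, map_one]
  obtain ⟨m, hm⟩ := exists_selmer_bound hp2 hr (TWPrimes.finiteLevel_matRes ρbar bb)
    (TWPrimes.det_matRes_of_detIsCyclotomic ρbar bb p hdet) Smin hSmin hpSmin hBr
  refine ⟨m, fun n => ?_⟩
  obtain ⟨qv, hinj, hq, -, hfr, hsel⟩ := hm n S
  refine ⟨qv, hinj, fun i => ⟨(hq i).1, (hq i).2.1, (hq i).2.2.2.2⟩, fun i P hP φ hφ => ?_,
    fun DQ => exists_surjective_of_selmer hr.two bb hSmin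
      (fun q hq hqp => (hmin q (hSmin q hq) hqp).mp hq) qv hsel hpSmin C hC hloc DQ⟩
  obtain ⟨-, -, α, β, hne, hchar⟩ := hfr i P hP φ hφ
  exact ⟨α, β, hne, (LinearMap.charpoly_toMatrix (ρbar.ρ φ) bb).symm.trans hchar⟩

end Fermat.Agent.CFT.Selmer
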